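import Mathlib

/-!
# Profiles of polynomials in the normalised adjacency operator of a tree

For `x = 1 / q` the profile `cf x P n` is the value of `P` of the normalised adjacency operator at
distance `n`, times `q ^ (n / 2)`.  Every linear functional entering the vanishing conditions is an
average of `P (2 cos t)` against a bounded weight, so it tends to zero along polynomials which stay
bounded and tend to zero almost everywhere; subtracting finitely many spheres makes the profile
flat.
-/

set_option autoImplicit false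

noncomputable section

open Polynomial Filter MeasureTheory Real
open scoped Topology

namespace FermatAgent.LT2.Spec

/-- The recursion of the normalised adjacency operator on profiles. -/
def stepT (x : ℝ) (c : ℕ → ℝ) : ℕ → ℝ
  | 0 => (1 + x) * c 1
  | n + 1 => c n + c (n + 2)

/-- A weighted sum over one parity class, written with both signs. -/
def parSum (w : ℕ → ℝ) (p : ℕ) (c : ℕ →₀ ℝ) : ℝ :=
  c.sum fun n a => if n % 2 = p % 2 then w n * a else 0

/-- Vanishing up to `R`, and in each parity class vanishing sum and first moment. -/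
def Flat (R : ℕ) (c : ℕ →₀ ℝ) : Prop :=
  (∀ n ≤ R, c n = 0) ∧ ∀ p, parSum (fun _ => 1) p c = 0 ∧ parSum (fun n => (n : ℝ)) p c = 0

section Kernel

/-- The inverse of the denominator. -/
def den (x : ℝ) (z : ℂ) : ℂ := (1 - (x : ℂ) * z ^ 2)⁻¹

/-- The kernel of the profile. -/
def kerC (x : ℝ) (n : ℕ) (z : ℂ) : ℝ := (z ^ n * (1 - z ^ 2) * den x z).re

/-- The weight of the alternating sums. -/
def kerS (x s : ℝ) (z : ℂ) : ℝ := ((1 + (s : ℂ) * z) * den x z).re

/-- The weight of the alternating moments. -/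
def kerM (x s : ℝ) (z : ℂ) : ℝ :=
  -s * (1 + x) * (2 * z.re + 2 * s) / (2 * Complex.normSq (1 - (x : ℂ) * z ^ 2))

variable {x : ℝ} (hx0 : 0 ≤ x) (hx : x < 1)

include hx0 hx in
lemma den_ne {z : ℂ} (hz : ‖z‖ ≤ 1) : 1 - (x : ℂ) * z ^ 2 ≠ 0 := by
  intro h
  have h1 : ‖(x : ℂ) * z ^ 2‖ = 1 := by rw [← sub_eq_zero.mp h, norm_one]
  rw [norm_mul, norm_pow, Complex.norm_real, Real.norm_of_nonneg hx0] at h1
  nlinarith [pow_le_one₀ (norm_nonneg z) hz (n := 2)]

lemma den_mul {z : ℂ} (hz : ‖z‖ ≤ 1) (hx0 : 0 ≤ x) (hx : x < 1) :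
    (1 - (x : ℂ) * z ^ 2) * den x z = 1 := mul_inv_cancel₀ (den_ne hx0 hx hz)

lemma conj_mul_self {z : ℂ} (hz : ‖z‖ = 1) : (starRingEnd ℂ) z * z = 1 := by
  rw [mul_comm, Complex.mul_conj, Complex.normSq_eq_norm_sq, hz]
  norm_num

lemma two_re_mul {z : ℂ} (g : ℂ) :
    2 * z.re * g.re = (z * g).re + ((starRingEnd ℂ) z * g).re := by
  simp [Complex.mul_re]
  ring

include hx0 hx in
lemma kerC_rec_zero {z : ℂ} (hz : ‖z‖ = 1) :
    2 * z.re * kerC x 0 z = (1 + x) * kerC x 1 z := by
  have hd := den_ne hx0 hx hz.le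
  rw [kerC, kerC, pow_zero, one_mul, pow_one, two_re_mul]
  have e : (starRingEnd ℂ) z * ((1 - z ^ 2) * den x z) =
      (x : ℂ) * (z * (1 - z ^ 2) * den x z) + ((starRingEnd ℂ) z - z) := by
    linear_combination (-(den x z) * (1 - (x : ℂ)) * z) * conj_mul_self hz +
      ((starRingEnd ℂ) z - z) * den_mul hz.le hx0 hx
  rw [e, Complex.add_re, Complex.re_ofReal_mul, Complex.sub_re, Complex.conj_re, sub_self, add_zero,
    mul_assoc]
  ring

lemma kerC_rec {z : ℂ} (hz : ‖z‖ = 1) (n : ℕ) :
    2 * z.re * kerC x (n + 1) z = kerC x n z + kerC x (n + 2) z := by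
  rw [kerC, kerC, kerC, two_re_mul, add_comm]
  congr 1
  · congr 1
    linear_combination (z ^ n * (1 - z ^ 2) * den x z) * conj_mul_self hz
  · congr 1
    ring

include hx0 hx in
lemma kerS_rec {z : ℂ} (hz : ‖z‖ = 1) {s : ℝ} (hs : s ^ 2 = 1) :
    2 * z.re * kerS x s z = 2 * s * kerS x s z + x * kerC x 1 z - s * kerC x 0 z := by
  have hd := den_ne hx0 hx hz.le
  have hs' : (s : ℂ) ^ 2 = 1 := by rw [← Complex.ofReal_pow, hs, Complex.ofReal_one]
  rw [kerS, kerC, kerC, pow_zero, one_mul, pow_one, two_re_mul]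
  have e : z * ((1 + (s : ℂ) * z) * den x z) + (starRingEnd ℂ) z * ((1 + (s : ℂ) * z) * den x z) =
      (2 * s : ℂ) * ((1 + (s : ℂ) * z) * den x z) + (x : ℂ) * (z * (1 - z ^ 2) * den x z) -
        (s : ℂ) * ((1 - z ^ 2) * den x z) + ((starRingEnd ℂ) z - z) := by
    linear_combination (den x z * ((s : ℂ) + (x : ℂ) * z)) * conj_mul_self hz -
      (2 * z * den x z) * hs' + ((starRingEnd ℂ) z - z) * den_mul hz.le hx0 hx
  have h := congrArg Complex.re e
  simp only [Complex.add_re, Complex.sub_re, Complex.conj_re, sub_self, add_zero,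
    Complex.re_ofReal_mul] at h
  rw [show (2 * (s : ℂ)) = ((2 * s : ℝ) : ℂ) by push_cast; ring, Complex.re_ofReal_mul] at h
  exact h

include hx0 hx in
lemma kerM_rec {z : ℂ} (hz : ‖z‖ = 1) {s : ℝ} (hs : s ^ 2 = 1) :
    (2 * z.re - 2 * s) * kerM x s z = s * kerC x 0 z := by
  have hd := den_ne hx0 hx hz.le
  have hN : Complex.normSq (1 - (x : ℂ) * z ^ 2) ≠ 0 := fun h => hd (Complex.normSq_eq_zero.mp h)
  have h1 : z.re ^ 2 + z.im ^ 2 = 1 := by
    have := Complex.normSq_eq_norm_sq z
    rw [Complex.normSq_apply, hz] at this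
    linarith [this]
  rw [kerM, kerC, pow_zero, one_mul, den, Complex.mul_re, Complex.inv_re, Complex.inv_im]
  simp only [Complex.sub_re, Complex.sub_im, Complex.mul_re, Complex.mul_im, Complex.one_re,
    Complex.one_im, Complex.ofReal_re, Complex.ofReal_im, sq]
  field_simp
  have hi : z.im ^ 2 = 1 - z.re ^ 2 := by linarith
  linear_combination (norm := ring_nf) (0 : ℝ) * hi
  rw [show z.im ^ 4 = (z.im ^ 2) ^ 2 by ring, hi,
    show s ^ 3 = s by linear_combination s * hs]
  ring

lemma continuousOn_den (hx0 : 0 ≤ x) (hx : x < 1) :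
    ContinuousOn (den x) (Metric.closedBall 0 1) :=
  (continuous_const.sub (continuous_const.mul (continuous_id.pow 2))).continuousOn.inv₀
    fun z hz => den_ne hx0 hx (by simpa using hz)

include hx0 hx in
lemma continuous_circle_kerC (n : ℕ) : Continuous fun θ => kerC x n (circleMap 0 1 θ) :=
  Complex.continuous_re.comp ((((continuous_circleMap 0 1).pow n).mul
    (continuous_const.sub ((continuous_circleMap 0 1).pow 2))).mul
    ((continuousOn_den hx0 hx).comp_continuous (continuous_circleMap 0 1) fun θ => by simp))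

include hx0 hx in
lemma continuous_circle_kerS (s : ℝ) : Continuous fun θ => kerS x s (circleMap 0 1 θ) :=
  Complex.continuous_re.comp ((continuous_const.add (continuous_const.mul
    (continuous_circleMap 0 1))).mul
    ((continuousOn_den hx0 hx).comp_continuous (continuous_circleMap 0 1) fun θ => by simp))

include hx0 hx in
lemma continuous_circle_kerM (s : ℝ) : Continuous fun θ => kerM x s (circleMap 0 1 θ) := by
  refine Continuous.div (continuous_const.mul ((continuous_const.mul
    (Complex.continuous_re.comp (continuous_circleMap 0 1))).add continuous_const))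
    (continuous_const.mul (Complex.continuous_normSq.comp
      (continuous_const.sub (continuous_const.mul ((continuous_circleMap 0 1).pow 2))))) fun θ => ?_
  exact mul_ne_zero two_ne_zero fun h =>
    den_ne hx0 hx (by simp) (Complex.normSq_eq_zero.mp h)

end Kernel

/-- The mean of `P (2 cos t)` against a weight. -/
def avg (P : ℝ[X]) (w : ℂ → ℝ) : ℝ := circleAverage (fun z => P.eval (2 * z.re) * w z) 0 1

lemma integrable_circle {f : ℂ → ℝ} (h : Continuous fun θ => f (circleMap 0 1 θ)) :
    CircleIntegrable f 0 1 := h.intervalIntegrable _ _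

lemma continuous_eval_circle (P : ℝ[X]) :
    Continuous fun θ => P.eval (2 * (circleMap 0 1 θ).re) :=
  P.continuous.comp (continuous_const.mul (Complex.continuous_re.comp (continuous_circleMap 0 1)))

lemma avg_add (P Q : ℝ[X]) {w : ℂ → ℝ} (hw : Continuous fun θ => w (circleMap 0 1 θ)) :
    avg (P + Q) w = avg P w + avg Q w := by
  unfold avg
  rw [← circleAverage_fun_add (integrable_circle ((continuous_eval_circle P).mul hw))
    (integrable_circle ((continuous_eval_circle Q).mul hw))]
  simp only [eval_add, add_mul]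

lemma avg_C_mul (a : ℝ) (P : ℝ[X]) (w : ℂ → ℝ) : avg (C a * P) w = a * avg P w := by
  unfold avg
  rw [← smul_eq_mul a, ← circleAverage_fun_smul]
  simp only [eval_mul, eval_C, smul_eq_mul, mul_assoc]

lemma avg_congr {P Q : ℝ[X]} {v w : ℂ → ℝ}
    (h : ∀ z : ℂ, ‖z‖ = 1 → P.eval (2 * z.re) * v z = Q.eval (2 * z.re) * w z) :
    avg P v = avg Q w :=
  circleAverage_congr_sphere fun z hz => h z (by simpa using hz)

lemma avg_weight_add (P : ℝ[X]) (a b : ℝ) {v w : ℂ → ℝ}
    (hv : Continuous fun θ => v (circleMap 0 1 θ)) (hw : Continuous fun θ => w (circleMap 0 1 θ)) :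
    avg P (fun z => a * v z + b * w z) = a * avg P v + b * avg P w := by
  unfold avg
  rw [← smul_eq_mul a, ← smul_eq_mul b, ← circleAverage_fun_smul, ← circleAverage_fun_smul,
    ← circleAverage_fun_add
      (integrable_circle (((continuous_eval_circle P).mul hv).const_smul a))
      (integrable_circle (((continuous_eval_circle P).mul hw).const_smul b))]
  congr 1
  funext z
  simp only [smul_eq_mul]
  ring

section Profile

variable {x : ℝ} (hx0 : 0 ≤ x) (hx : x < 1)

/-- The profile of a polynomial. -/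
def cf (x : ℝ) (P : ℝ[X]) (n : ℕ) : ℝ := avg P (kerC x n)

include hx0 hx

lemma differentiableOn_den : DifferentiableOn ℂ (den x) (Metric.closedBall 0 1) :=
  ((differentiableOn_const 1).sub ((differentiableOn_const _).mul (differentiableOn_id.pow 2))).inv
    fun z hz => den_ne hx0 hx (by simpa using hz)

omit hx0 hx in
/-- The mean value property. -/
lemma avg_one_re {f : ℂ → ℂ} (hd : DifferentiableOn ℂ f (Metric.closedBall 0 1)) :
    avg 1 (fun z => (f z).re) = (f 0).re := by
  have hf : DiffContOnCl ℂ f (Metric.ball 0 |(1 : ℝ)|) := by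
    refine DifferentiableOn.diffContOnCl ?_
    rwa [abs_one, closure_ball (0 : ℂ) one_ne_zero]
  have hint : CircleIntegrable f 0 1 :=
    (hd.continuousOn.mono Metric.sphere_subset_closedBall).circleIntegrable zero_le_one
  rw [← hf.circleAverage, avg, circleAverage_def, circleAverage_def, Complex.smul_re]
  simp only [eval_one, one_mul]
  congr 1
  exact ContinuousLinearMap.intervalIntegral_comp_comm Complex.reCLM hint

/-- The profile of one. -/
theorem cf_one (n : ℕ) : cf x 1 n = if n = 0 then 1 else 0 := by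
  refine (avg_one_re ((((differentiableOn_id.pow n).mul
    ((differentiableOn_const 1).sub (differentiableOn_id.pow 2))).mul
      (differentiableOn_den hx0 hx)) : DifferentiableOn ℂ
        (fun z => z ^ n * (1 - z ^ 2) * den x z) _)).trans ?_
  rcases eq_or_ne n 0 with rfl | hn
  · simp [den]
  · simp [hn]

/-- The profile of a multiple by the variable. -/
theorem cf_X_mul (P : ℝ[X]) (n : ℕ) : cf x (X * P) n = stepT x (cf x P) n := by
  rcases n with _ | n
  · show avg _ _ = (1 + x) * avg _ _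
    rw [← avg_C_mul]
    exact avg_congr fun z hz => by
      rw [eval_mul, eval_X, eval_mul, eval_C]
      linear_combination P.eval (2 * z.re) * kerC_rec_zero hx0 hx hz
  · show avg _ _ = avg _ _ + avg _ _
    rw [← one_mul (avg P (kerC x n)), ← one_mul (avg P (kerC x (n + 2))),
      ← avg_weight_add P 1 1 (continuous_circle_kerC hx0 hx _) (continuous_circle_kerC hx0 hx _)]
    exact avg_congr fun z hz => by
      rw [eval_mul, eval_X]
      linear_combination P.eval (2 * z.re) * kerC_rec (x := x) hz n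

/-- Profiles add. -/
theorem cf_add (P Q : ℝ[X]) (n : ℕ) : cf x (P + Q) n = cf x P n + cf x Q n :=
  avg_add P Q (continuous_circle_kerC hx0 hx n)

omit hx0 hx in
/-- Profiles scale. -/
theorem cf_C_mul (a : ℝ) (P : ℝ[X]) (n : ℕ) : cf x (C a * P) n = a * cf x P n :=
  avg_C_mul a P _

theorem cf_X_pow_eq_zero : ∀ (k : ℕ) {n : ℕ}, k < n → cf x (X ^ k) n = 0
  | 0, n, h => by rw [pow_zero, cf_one hx0 hx, if_neg (by omega)]
  | k + 1, n, h => by
    obtain ⟨n, rfl⟩ := Nat.exists_eq_succ_of_ne_zero (n := n) (by omega)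
    rw [pow_succ', cf_X_mul hx0 hx, stepT, cf_X_pow_eq_zero k (by omega),
      cf_X_pow_eq_zero k (by omega), add_zero]

omit hx0 hx in
/-- Two linear functionals agreeing on the powers of `X` of small degree agree. -/
lemma eq_of_X_pow {F G : ℝ[X] → ℝ} (hFa : ∀ P Q, F (P + Q) = F P + F Q)
    (hFc : ∀ a P, F (C a * P) = a * F P) (hGa : ∀ P Q, G (P + Q) = G P + G Q)
    (hGc : ∀ a P, G (C a * P) = a * G P) {N : ℕ} (h : ∀ k < N, F (X ^ k) = G (X ^ k))
    (P : ℝ[X]) (hP : P.natDegree < N) : F P = G P := by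
  refine induction_with_natDegree_le (fun P => F P = G P) (N - 1) ?_ (fun k a _ hk => ?_)
    (fun f g _ _ hf hg => ?_) P (by omega)
  · have h1 := hFc 0 0
    have h2 := hGc 0 0
    simp only [map_zero, zero_mul] at h1 h2
    rw [h1, h2]
  · rw [hFc, hGc, h k (by omega)]
  · rw [hFa, hGa, hf, hg]

theorem cf_eq_zero (P : ℝ[X]) {n : ℕ} (h : P.natDegree < n) : cf x P n = 0 :=
  eq_of_X_pow (F := fun P => cf x P n) (G := fun _ => (0 : ℝ)) (fun P Q => cf_add hx0 hx P Q n)
    (fun a P => cf_C_mul a P n)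
    (fun _ _ => (add_zero _).symm) (fun _ _ => (mul_zero _).symm)
    (fun k hk => cf_X_pow_eq_zero hx0 hx k hk) P h

/-- The profile as a finitely supported function. -/
def cvec (P : ℝ[X]) : ℕ →₀ ℝ :=
  Finsupp.onFinset (Finset.range (P.natDegree + 1)) (cf x P) fun n hn =>
    Finset.mem_range.mpr (by by_contra h; exact hn (cf_eq_zero hx0 hx P (by omega)))

/-- The coefficient vector is the profile. -/
lemma cvec_apply (P : ℝ[X]) (n : ℕ) : cvec hx0 hx P n = cf x P n := rfl

omit hx0 hx in
lemma sum_stepT (c : ℕ → ℝ) (w : ℕ → ℝ) : ∀ N : ℕ,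
    ∑ n ∈ Finset.range (N + 1), w n * stepT x c n =
      (∑ m ∈ Finset.range N, w (m + 1) * c m) + (∑ m ∈ Finset.range (N + 1), w m * c (m + 1)) +
        x * (w 0 * c 1)
  | 0 => by simp [stepT]; ring
  | N + 1 => by
    rw [Finset.sum_range_succ, sum_stepT c w N, Finset.sum_range_succ (fun m => w (m + 1) * c m) N,
      Finset.sum_range_succ (fun m => w m * c (m + 1)) (N + 1), stepT]
    ring

variable {s : ℝ} (hs : s ^ 2 = 1)
include hs

/-- **The alternating sum.** -/
theorem sum_pow_cf (P : ℝ[X]) {N : ℕ} (hN : P.natDegree < N) :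
    ∑ n ∈ Finset.range N, s ^ n * cf x P n = avg P (kerS x s) := by
  refine eq_of_X_pow (F := fun P => ∑ n ∈ Finset.range N, s ^ n * cf x P n)
    (G := fun P => avg P (kerS x s))
    (fun P Q => by simp only [cf_add hx0 hx, mul_add, Finset.sum_add_distrib])
    (fun a P => by simp only [cf_C_mul, mul_left_comm _ a, ← Finset.mul_sum])
    (fun P Q => avg_add P Q (continuous_circle_kerS hx0 hx s)) (fun a P => avg_C_mul a P _)
    (N := N) ?_ P hN
  suffices key : ∀ k N, k < N →
      ∑ n ∈ Finset.range N, s ^ n * cf x (X ^ k) n = avg (X ^ k) (kerS x s) from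
    fun k hk => key k N hk
  intro k
  induction k with
  | zero =>
    intro N hN
    rw [Finset.sum_eq_single_of_mem 0 (Finset.mem_range.mpr hN)
      (fun n _ hn => by rw [pow_zero, cf_one hx0 hx, if_neg hn, mul_zero]), pow_zero, one_mul,
      pow_zero, cf_one hx0 hx, if_pos rfl]
    exact ((avg_one_re ((((differentiableOn_const 1).add
      ((differentiableOn_const _).mul differentiableOn_id)).mul (differentiableOn_den hx0 hx)) :
        DifferentiableOn ℂ (fun z => (1 + (s : ℂ) * z) * den x z) _)).trans (by simp [den])).symm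
  | succ k ih =>
    intro N hN
    obtain ⟨N, rfl⟩ := Nat.exists_eq_succ_of_ne_zero (n := N) (by omega)
    simp only [pow_succ' X k, cf_X_mul hx0 hx]
    rw [sum_stepT]
    have h1 : ∑ m ∈ Finset.range N, s ^ (m + 1) * cf x (X ^ k) m =
        s * avg (X ^ k) (kerS x s) := by
      rw [← ih N (by omega), Finset.mul_sum]
      exact Finset.sum_congr rfl fun m _ => by ring
    have h2 : ∑ m ∈ Finset.range (N + 1), s ^ m * cf x (X ^ k) (m + 1) =
        s * (avg (X ^ k) (kerS x s) - cf x (X ^ k) 0) := by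
      rw [← ih (N + 2) (by omega), Finset.sum_range_succ' _ (N + 1), pow_zero, one_mul,
        add_sub_cancel_right, Finset.mul_sum]
      exact Finset.sum_congr rfl fun m _ => by
        linear_combination -(s ^ m * cf x (X ^ k) (m + 1)) * hs
    rw [h1, h2, pow_zero, one_mul]
    have h3 : avg (X * X ^ k) (kerS x s) = avg (X ^ k)
        (fun z => 1 * (2 * s * kerS x s z + x * kerC x 1 z) + (-s) * kerC x 0 z) :=
      avg_congr fun z hz => by
        rw [eval_mul, eval_X]
        linear_combination (X ^ k : ℝ[X]).eval (2 * z.re) * kerS_rec hx0 hx hz hs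
    rw [h3, avg_weight_add _ _ _ (((continuous_circle_kerS hx0 hx s).const_mul _).add
        ((continuous_circle_kerC hx0 hx 1).const_mul _)) (continuous_circle_kerC hx0 hx 0),
      avg_weight_add _ _ _ (continuous_circle_kerS hx0 hx s) (continuous_circle_kerC hx0 hx 1)]
    simp only [cf]
    ring

/-- **The alternating first moment.** -/
theorem sum_mul_pow_cf (P : ℝ[X]) {N : ℕ} (hN : P.natDegree < N) :
    ∑ n ∈ Finset.range N, (n : ℝ) * s ^ n * cf x P n =
      avg (P - C (P.eval (2 * s))) (kerM x s) := by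
  have hw := continuous_circle_kerM hx0 hx s
  refine eq_of_X_pow (F := fun P => ∑ n ∈ Finset.range N, (n : ℝ) * s ^ n * cf x P n)
    (G := fun P => avg (P - C (P.eval (2 * s))) (kerM x s))
    (fun P Q => by simp only [cf_add hx0 hx, mul_add, Finset.sum_add_distrib])
    (fun a P => by simp only [cf_C_mul, mul_left_comm _ a, ← Finset.mul_sum])
    (fun P Q => by
      rw [← avg_add _ _ hw, eval_add, map_add]
      exact congrArg (avg · (kerM x s)) (by ring))
    (fun a P => by
      rw [← avg_C_mul, eval_mul, eval_C, map_mul]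
      exact congrArg (avg · (kerM x s)) (by ring))
    (N := N) ?_ P hN
  suffices key : ∀ k N, k < N → ∑ n ∈ Finset.range N, (n : ℝ) * s ^ n * cf x (X ^ k) n =
      avg (X ^ k - C ((X ^ k : ℝ[X]).eval (2 * s))) (kerM x s) from
    fun k hk => key k N hk
  intro k
  induction k with
  | zero =>
    intro N hN
    rw [Finset.sum_eq_zero fun n _ => ?_, pow_zero, eval_one, map_one, sub_self, avg,
      circleAverage_def]
    · simp
    · rcases eq_or_ne n 0 with rfl | hn
      · simp
      · rw [pow_zero, cf_one hx0 hx, if_neg hn, mul_zero]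
  | succ k ih =>
    intro N hN
    obtain ⟨N, rfl⟩ := Nat.exists_eq_succ_of_ne_zero (n := N) (by omega)
    simp only [pow_succ' X k, cf_X_mul hx0 hx]
    rw [sum_stepT (w := fun n : ℕ => (n : ℝ) * s ^ n)]
    set M := avg (X ^ k - C ((X ^ k : ℝ[X]).eval (2 * s))) (kerM x s)
    set S := avg (X ^ k) (kerS x s)
    have hdeg : (X ^ k : ℝ[X]).natDegree = k := natDegree_X_pow k
    have h1 : ∑ m ∈ Finset.range N, ((m + 1 : ℕ) : ℝ) * s ^ (m + 1) * cf x (X ^ k) m =
        s * (M + S) := by
      rw [← ih N (by omega),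
        show S = _ from (sum_pow_cf hx0 hx hs (X ^ k) (N := N) (by omega)).symm,
        ← Finset.sum_add_distrib, Finset.mul_sum]
      exact Finset.sum_congr rfl fun m _ => by push_cast; ring
    have h2 : ∑ m ∈ Finset.range (N + 1), (m : ℝ) * s ^ m * cf x (X ^ k) (m + 1) =
        s * (M - S + cf x (X ^ k) 0) := by
      rw [← ih (N + 2) (by omega),
        show S = _ from (sum_pow_cf hx0 hx hs (X ^ k) (N := N + 2) (by omega)).symm,
        Finset.sum_range_succ' _ (N + 1), Finset.sum_range_succ' _ (N + 1), pow_zero, one_mul,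
        Nat.cast_zero, zero_mul, zero_mul, add_zero, ← sub_sub, sub_add_cancel,
        ← Finset.sum_sub_distrib, Finset.mul_sum]
      exact Finset.sum_congr rfl fun m _ => by
        push_cast
        linear_combination -((m : ℝ) * s ^ m * cf x (X ^ k) (m + 1)) * hs
    rw [h1, h2, Nat.cast_zero, zero_mul, zero_mul, mul_zero, add_zero, eval_mul, eval_X]
    have h3 : avg (X * X ^ k - C (2 * s * (X ^ k : ℝ[X]).eval (2 * s))) (kerM x s) =
        avg (C (2 * s) * (X ^ k - C ((X ^ k : ℝ[X]).eval (2 * s)))) (kerM x s) +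
          avg (X ^ k) (fun z => s * kerC x 0 z) := by
      rw [show avg (X ^ k) (fun z => s * kerC x 0 z) =
          avg ((X - C (2 * s)) * X ^ k) (kerM x s) from avg_congr fun z hz => by
        rw [eval_mul, eval_sub, eval_X, eval_C]
        linear_combination -((X ^ k : ℝ[X]).eval (2 * z.re)) * kerM_rec hx0 hx hz hs,
        ← avg_add _ _ hw]
      exact congrArg (avg · (kerM x s)) (by rw [map_mul, map_mul]; ring)
    have h4 : avg (X ^ k) (fun z => s * kerC x 0 z) = s * cf x (X ^ k) 0 := by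
      rw [cf, avg, avg, ← smul_eq_mul s, ← circleAverage_fun_smul]
      congr 1
      funext z
      simp only [smul_eq_mul]
      ring
    rw [h3, h4, avg_C_mul]
    ring

section Peak

/-- The polynomials tending to the indicator of `0` on `[-√C, √C]`. -/
def peak0 (K : ℝ) (N : ℕ) : ℝ[X] := (1 - C K⁻¹ * X ^ 2) ^ N

omit hx0 hx hs

lemma eval_peak0 (K y : ℝ) (N : ℕ) : (peak0 K N).eval y = (1 - K⁻¹ * y ^ 2) ^ N := by
  simp [peak0]

lemma peak0_base {K y : ℝ} (hK : 0 < K) (hy : y ^ 2 ≤ K) :
    0 ≤ 1 - K⁻¹ * y ^ 2 ∧ 1 - K⁻¹ * y ^ 2 ≤ 1 ∧ (y ≠ 0 → 1 - K⁻¹ * y ^ 2 < 1) := by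
  refine ⟨?_, ?_, fun h => ?_⟩
  · rw [sub_nonneg, inv_mul_le_iff₀ hK, mul_one]; exact hy
  · have : 0 ≤ K⁻¹ * y ^ 2 := mul_nonneg (inv_pos.mpr hK).le (sq_nonneg y)
    linarith
  · have : 0 < K⁻¹ * y ^ 2 := mul_pos (inv_pos.mpr hK) (by positivity)
    linarith

/-- The peak polynomials are bounded by one on the spectrum. -/
lemma abs_eval_peak0_le {K y : ℝ} (hK : 0 < K) (hy : y ^ 2 ≤ K) (N : ℕ) :
    |(peak0 K N).eval y| ≤ 1 := by
  obtain ⟨h0, h1, -⟩ := peak0_base hK hy
  rw [eval_peak0, abs_pow, abs_of_nonneg h0]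
  exact pow_le_one₀ h0 h1

/-- The peak polynomials tend to the indicator of zero. -/
lemma tendsto_eval_peak0 {K y : ℝ} (hK : 0 < K) (hy : y ^ 2 ≤ K) :
    Tendsto (fun N => (peak0 K N).eval y) atTop (𝓝 (if y = 0 then 1 else 0)) := by
  simp only [eval_peak0]
  split_ifs with h
  · simp [h]
  · exact tendsto_pow_atTop_nhds_zero_of_lt_one (peak0_base hK hy).1 ((peak0_base hK hy).2.2 h)

lemma tendsto_avg_peak0 {K : ℝ} (hK : 4 ≤ K) {w : ℂ → ℝ}
    (hw : Continuous fun θ => w (circleMap 0 1 θ)) :
    Tendsto (fun N => avg (peak0 K N) w) atTop (𝓝 0) := by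
  have hre : ∀ θ : ℝ, (circleMap 0 1 θ).re = Real.cos θ := fun θ => by
    simp [circleMap, Complex.exp_ofReal_mul_I_re]
  have hsq : ∀ θ : ℝ, (2 * (circleMap 0 1 θ).re) ^ 2 ≤ K := fun θ => by
    rw [hre]; nlinarith [Real.cos_sq_le_one θ]
  have hne : ∀ᵐ θ : ℝ ∂volume, Real.cos θ ≠ 0 := by
    rw [ae_iff]
    refine Set.Countable.measure_zero ((Set.countable_range
      fun k : ℤ => (2 * (k : ℝ) + 1) * π / 2).mono fun θ hθ => ?_) _
    obtain ⟨k, hk⟩ := Real.cos_eq_zero_iff.mp (not_not.mp hθ)
    exact ⟨k, hk.symm⟩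
  have h := intervalIntegral.tendsto_integral_filter_of_dominated_convergence
    (μ := volume) (a := 0) (b := 2 * π) (l := atTop)
    (F := fun N θ => (peak0 K N).eval (2 * (circleMap 0 1 θ).re) * w (circleMap 0 1 θ))
    (f := fun _ => (0 : ℝ)) (fun θ => |w (circleMap 0 1 θ)|)
    (Eventually.of_forall fun N => ((continuous_eval_circle _).mul hw).aestronglyMeasurable)
    (Eventually.of_forall fun N => ae_of_all _ fun θ _ => by
      rw [norm_mul, Real.norm_eq_abs, Real.norm_eq_abs]
      exact mul_le_of_le_one_left (abs_nonneg _)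
        (abs_eval_peak0_le (by linarith) (hsq θ) N))
    (hw.abs.intervalIntegrable _ _)
    (hne.mono fun θ hθ _ => by
      have := (tendsto_eval_peak0 (by linarith) (hsq θ)).mul_const (w (circleMap 0 1 θ))
      rwa [if_neg (by rw [hre]; exact mul_ne_zero two_ne_zero hθ), zero_mul] at this)
  simp only [avg, circleAverage_def, smul_eq_mul]
  simpa using h.const_mul (2 * π)⁻¹

lemma avg_sub_C (P : ℝ[X]) (b : ℝ) {w : ℂ → ℝ} (hw : Continuous fun θ => w (circleMap 0 1 θ)) :
    avg (P - C b) w = avg P w - b * avg 1 w := by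
  rw [show P - C b = P + C (-b) * 1 by rw [map_neg, mul_one, sub_eq_add_neg], avg_add _ _ hw,
    avg_C_mul]
  ring

include hx0 hx

lemma tendsto_cf_peak0 {K : ℝ} (hK : 4 ≤ K) (n : ℕ) :
    Tendsto (fun N => cf x (peak0 K N) n) atTop (𝓝 0) :=
  tendsto_avg_peak0 hK (continuous_circle_kerC hx0 hx n)

lemma cvec_sum (P : ℝ[X]) (w : ℕ → ℝ) :
    (cvec hx0 hx P).sum (fun n a => w n * a) =
      ∑ n ∈ Finset.range (P.natDegree + 1), w n * cf x P n := by
  rw [Finsupp.sum_of_support_subset (cvec hx0 hx P) (s := Finset.range (P.natDegree + 1))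
    Finsupp.support_onFinset_subset _ fun n _ => mul_zero _]
  rfl

include hs

lemma tendsto_sum_pow_peak0 {K : ℝ} (hK : 4 ≤ K) :
    Tendsto (fun N => (cvec hx0 hx (peak0 K N)).sum fun n a => s ^ n * a) atTop (𝓝 0) := by
  simp only [cvec_sum, sum_pow_cf hx0 hx hs _ (Nat.lt_succ_self _)]
  exact tendsto_avg_peak0 hK (continuous_circle_kerS hx0 hx s)

lemma tendsto_sum_mul_pow_peak0 {K : ℝ} (hK : 4 ≤ K) :
    Tendsto (fun N => (cvec hx0 hx (peak0 K N)).sum fun n a => (n : ℝ) * s ^ n * a)
      atTop (𝓝 0) := by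
  simp only [cvec_sum, sum_mul_pow_cf hx0 hx hs _ (Nat.lt_succ_self _),
    avg_sub_C _ _ (continuous_circle_kerM hx0 hx s)]
  have h2s : (2 * s) ^ 2 ≤ K := by nlinarith
  have hne : (2 * s) ≠ 0 := fun h => by nlinarith
  have := (tendsto_avg_peak0 hK (continuous_circle_kerM hx0 hx s)).sub
    ((tendsto_eval_peak0 (by linarith) h2s).mul_const (avg 1 (kerM x s)))
  simpa [hne] using this

end Peak

end Profile

section Correction

lemma parSum_sub (w : ℕ → ℝ) (p : ℕ) (c d : ℕ →₀ ℝ) :
    parSum w p (c - d) = parSum w p c - parSum w p d :=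
  Finsupp.sum_sub_index fun n a b => by split_ifs <;> ring

lemma parSum_add (w : ℕ → ℝ) (p : ℕ) (c d : ℕ →₀ ℝ) :
    parSum w p (c + d) = parSum w p c + parSum w p d :=
  Finsupp.sum_add_index' (fun n => by simp) fun n a b => by split_ifs <;> ring

lemma parSum_single (w : ℕ → ℝ) (p n : ℕ) (a : ℝ) :
    parSum w p (Finsupp.single n a) = if n % 2 = p % 2 then w n * a else 0 :=
  Finsupp.sum_single_index (by simp)

/-- The parity sums from the sums with both signs. -/
lemma two_mul_parSum (w : ℕ → ℝ) (p : ℕ) (c : ℕ →₀ ℝ) :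
    2 * parSum w p c = c.sum (fun n a => w n * (1 : ℝ) ^ n * a) +
      (-1 : ℝ) ^ p * c.sum fun n a => w n * (-1 : ℝ) ^ n * a := by
  simp only [parSum, Finsupp.sum, Finset.mul_sum, ← Finset.sum_add_distrib]
  refine Finset.sum_congr rfl fun n _ => ?_
  rw [neg_one_pow_eq_pow_mod_two p, neg_one_pow_eq_pow_mod_two n, one_pow]
  split_ifs with h
  · rw [h]
    rcases Nat.mod_two_eq_zero_or_one p with h' | h' <;> rw [h'] <;> ring
  · rcases Nat.mod_two_eq_zero_or_one p with h' | h' <;>
      rcases Nat.mod_two_eq_zero_or_one n with h'' | h'' <;> rw [h', h''] <;>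
      first | (exfalso; omega) | ring

/-- The two coefficients prescribing a sum and a first moment of one parity. -/
def fix2 (n : ℕ) (S M : ℝ) : ℕ →₀ ℝ :=
  Finsupp.single n (S - (M - n * S) / 2) + Finsupp.single (n + 2) ((M - n * S) / 2)

lemma parSum_fix2 (p n : ℕ) (S M : ℝ) :
    parSum (fun _ => 1) p (fix2 n S M) = (if n % 2 = p % 2 then S else 0) ∧
      parSum (fun k => (k : ℝ)) p (fix2 n S M) = if n % 2 = p % 2 then M else 0 := by
  have h : (n + 2) % 2 = n % 2 := by omega
  constructor <;> simp only [fix2, parSum_add, parSum_single, h] <;> split_ifs <;>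
    push_cast <;> ring

/-- The correction making a profile flat up to `R`. -/
def flatCorr (R : ℕ) (c : ℕ →₀ ℝ) : ℕ →₀ ℝ :=
  let l := c.filter (· ≤ R)
  l + fix2 (R + 1) (parSum (fun _ => 1) (R + 1) (c - l))
    (parSum (fun k => (k : ℝ)) (R + 1) (c - l)) +
    fix2 (R + 2) (parSum (fun _ => 1) R (c - l)) (parSum (fun k => (k : ℝ)) R (c - l))

/-- The flat correction has bounded support. -/
lemma flatCorr_apply (R : ℕ) (c : ℕ →₀ ℝ) {n : ℕ} (hn : R + 4 < n) : flatCorr R c n = 0 := by
  simp [flatCorr, fix2, show ¬ n ≤ R by omega, show R + 1 ≠ n by omega,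
    show R + 1 + 2 ≠ n by omega, show R + 2 ≠ n by omega, show R + 2 + 2 ≠ n by omega]

/-- Corrected profiles are flat. -/
theorem flat_sub_flatCorr (R : ℕ) (c : ℕ →₀ ℝ) : Flat R (c - flatCorr R c) := by
  refine ⟨fun n hn => ?_, fun p => ?_⟩
  · simp [flatCorr, fix2, hn, show R + 1 ≠ n by omega,
      show R + 1 + 2 ≠ n by omega, show R + 2 ≠ n by omega, show R + 2 + 2 ≠ n by omega]
  · have key : ∀ (w : ℕ → ℝ) (l : ℕ →₀ ℝ), ∀ e₁ e₂ : ℕ →₀ ℝ,
        parSum w p (c - (l + e₁ + e₂)) = parSum w p (c - l) - parSum w p e₁ - parSum w p e₂ := by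
      intro w l e₁ e₂
      simp only [parSum_sub, parSum_add]
      ring
    have hp : ∀ (w : ℕ → ℝ) (a b : ℕ) (d : ℕ →₀ ℝ), a % 2 = b % 2 → parSum w a d = parSum w b d :=
      fun w a b d h => by simp only [parSum, h]
    unfold flatCorr
    dsimp only
    constructor <;> rw [key] <;>
      simp only [(parSum_fix2 _ _ _ _).1, (parSum_fix2 _ _ _ _).2] <;>
      split_ifs with h1 h2 <;> first
        | (exfalso; omega)
        | (rw [hp _ (R + 1) p _ h1]; ring)
        | (rw [hp _ R p _ (by omega)]; ring)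

/-- **The flat correction of the peaks tends to zero.** -/
theorem tendsto_flatCorr_peak0 {x : ℝ} (hx0 : 0 ≤ x) (hx : x < 1) {K : ℝ} (hK : 4 ≤ K) (R n : ℕ) :
    Tendsto (fun N => flatCorr R (cvec hx0 hx (peak0 K N)) n) atTop (𝓝 0) := by
  set c := fun N => cvec hx0 hx (peak0 K N)
  set l := fun N => (c N).filter (· ≤ R)
  have hl : ∀ k, Tendsto (fun N => l N k) atTop (𝓝 0) := fun k => by
    simp only [l, Finsupp.filter_apply]
    split_ifs
    · exact tendsto_cf_peak0 hx0 hx hK k
    · exact tendsto_const_nhds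
  have hlsum : ∀ (w : ℕ → ℝ) p, Tendsto (fun N => parSum w p (l N)) atTop (𝓝 0) := fun w p => by
    have e : ∀ N, parSum w p (l N) =
        ∑ k ∈ Finset.range (R + 1), if k % 2 = p % 2 then w k * l N k else 0 := fun N => by
      refine Finsupp.sum_of_support_subset _ (fun k hk => ?_) _ fun k _ => by simp
      rw [Finset.mem_range]
      have := (Finset.mem_filter.mp (by simpa [l] using hk : k ∈ (c N).support.filter (· ≤ R))).2
      omega
    simp only [e]
    have h := tendsto_finsetSum (Finset.range (R + 1))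
      (f := fun k N => if k % 2 = p % 2 then w k * l N k else 0) (a := fun _ => (0 : ℝ))
      (x := atTop) fun k _ => ?_
    · simpa using h
    split_ifs
    · simpa using (hl k).const_mul (w k)
    · exact tendsto_const_nhds
  have hS : ∀ p, Tendsto (fun N => parSum (fun _ => 1) p (c N - l N)) atTop (𝓝 0) := fun p => by
    have h2 : ∀ N, parSum (fun _ => 1) p (c N) =
        ((c N).sum (fun n a => (1 : ℝ) ^ n * a) +
          (-1 : ℝ) ^ p * (c N).sum fun n a => (-1 : ℝ) ^ n * a) / 2 := fun N => by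
      have := two_mul_parSum (fun _ => 1) p (c N)
      simp only [one_mul] at this
      linarith
    simp only [parSum_sub, h2]
    have := ((((tendsto_sum_pow_peak0 hx0 hx (one_pow 2) hK).add
      ((tendsto_sum_pow_peak0 hx0 hx (s := -1) (by norm_num) hK).const_mul
        ((-1 : ℝ) ^ p))).div_const
        2).sub (hlsum (fun _ => 1) p))
    simpa using this
  have hM : ∀ p, Tendsto (fun N => parSum (fun k => (k : ℝ)) p (c N - l N)) atTop
      (𝓝 0) := fun p => by
    have h2 : ∀ N, parSum (fun k => (k : ℝ)) p (c N) =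
        ((c N).sum (fun n a => (n : ℝ) * (1 : ℝ) ^ n * a) +
          (-1 : ℝ) ^ p * (c N).sum fun n a => (n : ℝ) * (-1 : ℝ) ^ n * a) / 2 := fun N => by
      have := two_mul_parSum (fun k => (k : ℝ)) p (c N)
      linarith
    simp only [parSum_sub, h2]
    have := ((((tendsto_sum_mul_pow_peak0 hx0 hx (one_pow 2) hK).add
      ((tendsto_sum_mul_pow_peak0 hx0 hx (s := -1) (by norm_num) hK).const_mul
        ((-1 : ℝ) ^ p))).div_const 2).sub (hlsum (fun k => (k : ℝ)) p))
    simpa using this
  have hfix : ∀ (k : ℕ) (S M : ℕ → ℝ), Tendsto S atTop (𝓝 0) → Tendsto M atTop (𝓝 0) →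
      Tendsto (fun N => fix2 k (S N) (M N) n) atTop (𝓝 0) := fun k S M h1 h2 => by
    have hb := (h2.sub (h1.const_mul (k : ℝ))).div_const 2
    simp only [fix2, Finsupp.add_apply, Finsupp.single_apply]
    split_ifs
    · simpa using (h1.sub hb).add hb
    · simpa using h1.sub hb
    · simpa using hb
    · simp
  have := ((hl n).add (hfix (R + 1) _ _ (hS (R + 1)) (hM (R + 1)))).add
    (hfix (R + 2) _ _ (hS R) (hM R))
  simpa [flatCorr, c, l] using this

end Correction

end FermatAgent.LT2.Spec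

end
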