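import Mathlib
import Fermat.Agent.LT.Descent.Spec.LocLin
import Fermat.Agent.LT2.Cusp.Sphere
import Fermat.Agent.LT2.Spec.Profile

/-!
# Polynomials of the normalised adjacency kernel

The adjacency kernel moves a radial kernel one step closer once and farther `q` times, so
polynomials of the normalised adjacency kernel are radial kernels with the profiles `cf`.
-/

set_option autoImplicit false

noncomputable section

open Matrix IsDedekindDomain NumberField WithZero
open scoped MatrixGroups ComplexConjugate Polynomial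

namespace FermatAgent.LT2.Spec

open FermatAgent.LT FermatAgent.LT2.Cusp Polynomial

variable {L : Type*} [Field L] [NumberField L] {U : Level L} {v : HeightOneSpectrum (𝓞 L)}
  (hv : U.loc v = locK v)

include hv in
lemma cdist_symm (c d : G2 L ⧸ U.loc v) : cdist d c = cdist c d := by
  obtain ⟨g, h1, h2⟩ := exists_swap hv c d
  calc cdist d c = cdist (g • c) (g • d) := by rw [h1, h2]
    _ = _ := cdist_smul g c d

lemma dist2_dB_nbr {α : Lˣ} {n : ℕ} (hα : v.valuation L (α : L) = exp (-(n : ℤ))) {t : L}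
    (ht : v.valuation L t ≤ 1) :
    dist2 v (ProjGenLinGroup.mk (dB α) * Whit.nbr v t) = n + 1 := by
  have e : dB α * (uB t * dB (Whit.unifU v)) = uB ((α : L) * t) * dB (α * Whit.unifU v) := by
    apply Units.ext
    ext i j
    fin_cases i <;> fin_cases j <;> simp [Matrix.mul_apply, Fin.sum_univ_two]
  have h1 : v.valuation L ((α * Whit.unifU v : Lˣ) : L) = exp (-((n : ℤ) + 1)) := by
    rw [Units.val_mul, map_mul, hα, Whit.v_unifU, ← exp_add]
    congr 1
    ring
  have h2 : v.valuation L ((α : L) * t) ≤ exp (0 : ℤ) := by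
    rw [map_mul, hα, exp_zero]
    exact mul_le_one' (by rw [← exp_zero, exp_le_exp]; omega) ht
  rw [Whit.nbr_eq, ← map_mul, e, dist2_mk, distGL_upper h1 h2 le_rfl (by omega) (Or.inl (by omega))]
  omega

lemma dist2_dB_last {α : Lˣ} {n : ℕ} (hα : v.valuation L (α : L) = exp (-(n : ℤ))) :
    dist2 v (ProjGenLinGroup.mk (dB α) * Whit.nbrLast v) = if n = 0 then 1 else n - 1 := by
  set π' : Lˣ := (Whit.unifU v)⁻¹
  have e : dB α * dB π' = uB (0 : L) * dB (α * π') := by
    apply Units.ext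
    ext i j
    fin_cases i <;> fin_cases j <;> simp [Matrix.mul_apply, Fin.sum_univ_two]
  have h1 : v.valuation L ((α * π' : Lˣ) : L) = exp (-((n : ℤ) - 1)) := by
    rw [Units.val_mul, map_mul, hα, Units.val_inv_eq_inv_val, map_inv₀, Whit.v_unifU,
      ← WithZero.exp_neg, ← exp_add]
    congr 1
    ring
  rw [Whit.nbrLast, Whit.dG, ← map_mul, e, dist2_mk,
    distGL_upper (m := max (-((n : ℤ) - 1)) 0) h1 (by simp) (le_max_right _ _) (le_max_left _ _)
      (Or.inl rfl)]
  split_ifs with h <;> omega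

include hv in
/-- The neighbours of a point. -/
lemma tsum_hecke_nbr (f : G2 L ⧸ U.loc v → ℂ) (g : G2 L) :
    ∑' d, (LocKer.hecke hv).k (QuotientGroup.mk g) d * f d =
      (∑ t ∈ Whit.residues v, f (QuotientGroup.mk (g * Whit.nbr v t))) +
        f (QuotientGroup.mk (g * Whit.nbrLast v)) := by
  exact (LocKer.tsum_hecke hv f _).trans (Whit.tsum_adj v hv f g)

include hv in
/-- Two cosets in diagonal position. -/
theorem exists_diag (c d : G2 L ⧸ U.loc v) :
    ∃ (g : G2 L) (α : Lˣ) (n : ℕ), v.valuation L (α : L) = exp (-(n : ℤ)) ∧ cdist c d = n ∧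
      g • (QuotientGroup.mk (ProjGenLinGroup.mk (dB α)) : G2 L ⧸ U.loc v) = c ∧
      g • (QuotientGroup.mk (1 : G2 L) : G2 L ⧸ U.loc v) = d := by
  induction c using QuotientGroup.induction_on with | H x =>
  induction d using QuotientGroup.induction_on with | H y =>
  obtain ⟨k, hk, a, k', hk', e⟩ := exists_cartan (v := v) (y⁻¹ * x)
  obtain ⟨m, hm⟩ := exists_val_eq v a.ne_zero
  -- the orientation
  obtain ⟨k₂, hk₂, α, n, hα, k₃, hk₃, e₂⟩ : ∃ k₂ ∈ locK v, ∃ α : Lˣ, ∃ n : ℕ,
      v.valuation L (α : L) = exp (-(n : ℤ)) ∧ ∃ k₃ ∈ locK v,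
        y⁻¹ * x = k₂ * ProjGenLinGroup.mk (dB α) * k₃ := by
    rcases le_or_gt m 0 with h | h
    · exact ⟨k, hk, a, (-m).toNat, by rw [hm]; congr 1; omega, k', hk', e⟩
    let w : GL (Fin 2) L := GeneralLinearGroup.mkOfDetNeZero !![0, 1; 1, 0]
      (by simp [Matrix.det_fin_two])
    have hw : (ProjGenLinGroup.mk w : G2 L) ∈ locK v := ⟨w, ⟨fun i j => by
      fin_cases i <;> fin_cases j <;> simp [w, GeneralLinearGroup.mkOfDetNeZero],
      by simp [w, GeneralLinearGroup.mkOfDetNeZero, Matrix.det_fin_two]⟩, rfl⟩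
    refine ⟨k * ProjGenLinGroup.mk w, mul_mem hk hw, a⁻¹, m.toNat, ?_,
      ProjGenLinGroup.mk w * k', mul_mem hw hk', ?_⟩
    · rw [Units.val_inv_eq_inv_val, map_inv₀, hm, ← WithZero.exp_neg]
      congr 1
      omega
    · have h1 : (ProjGenLinGroup.mk (dB a) : G2 L) =
          ProjGenLinGroup.mk w * ProjGenLinGroup.mk (dB a⁻¹) * ProjGenLinGroup.mk w := by
        rw [← map_mul, ← map_mul, eq_comm, Matrix.ProjGenLinGroup.mk_eq_mk_iff]
        refine ⟨a, ?_⟩
        apply Units.ext
        ext i j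
        fin_cases i <;> fin_cases j <;>
          simp [w, GeneralLinearGroup.mkOfDetNeZero, GeneralLinearGroup.coe_scalar,
            Matrix.mul_apply, Fin.sum_univ_two]
      rw [e, h1]
      simp only [mul_assoc]
  have hdist : cdist (QuotientGroup.mk x : G2 L ⧸ U.loc v) (QuotientGroup.mk y) = n := by
    rw [cdist_symm hv, cdist_mk, e₂, dist2_mul_right hk₃, dist2_mul_left hk₂, dist2_mk]
    have h0 : dB α = uB (0 : L) * dB α := by
      apply Units.ext
      ext i j
      fin_cases i <;> fin_cases j <;> simp [Matrix.mul_apply, Fin.sum_univ_two]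
    rw [h0, distGL_upper hα (m := 0) (by simp) le_rfl (by omega) (Or.inl (by omega))]
    omega
  have hx : (y * k₂) • (QuotientGroup.mk (ProjGenLinGroup.mk (dB α)) : G2 L ⧸ U.loc v) =
      QuotientGroup.mk x := by
    rw [MulAction.Quotient.smul_mk, smul_eq_mul, QuotientGroup.eq, hv,
      show x = y * (k₂ * ProjGenLinGroup.mk (dB α) * k₃) by rw [← e₂, mul_inv_cancel_left],
      show (y * k₂ * ProjGenLinGroup.mk (dB α))⁻¹ * (y * (k₂ * ProjGenLinGroup.mk (dB α) * k₃)) =
        k₃ by group]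
    exact hk₃
  have hy : (y * k₂) • (QuotientGroup.mk (1 : G2 L) : G2 L ⧸ U.loc v) = QuotientGroup.mk y := by
    rw [MulAction.Quotient.smul_mk, smul_eq_mul, mul_one, QuotientGroup.eq, hv,
      show (y * k₂)⁻¹ * y = k₂⁻¹ by group]
    exact inv_mem hk₂
  exact ⟨y * k₂, α, n, hα, hdist, hx, hy⟩

/-- A coset has distance zero to itself. -/
lemma cdist_self (c : G2 L ⧸ U.loc v) : cdist c c = 0 := by
  induction c using QuotientGroup.induction_on with | H g =>
  rw [cdist_mk, inv_mul_cancel, ← map_one ProjGenLinGroup.mk, dist2_mk]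
  exact Nat.le_zero.1 (Nat.sInf_le (by simpa using gNorm_le_one v (one_mem (locGL v))))

include hv in
/-- Distance zero means equality. -/
lemma eq_of_cdist_eq_zero {c d : G2 L ⧸ U.loc v} (h : cdist c d = 0) : c = d := by
  obtain ⟨g, α, n, hα, hn, hc, hd⟩ := exists_diag hv c d
  obtain rfl : n = 0 := hn.symm.trans h
  rw [← hc, ← hd]
  congr 1
  rw [QuotientGroup.eq, hv, mul_one, ← map_inv]
  refine ⟨(dB α)⁻¹, inv_mem ⟨fun i j => ?_, ?_⟩, rfl⟩
  · fin_cases i <;> fin_cases j <;> simp [hα]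
  · simp [Matrix.det_fin_two, hα]

include hv in
/-- The adjacency kernel times a radial kernel. -/
theorem hecke_mul_radial (A : LocKer U v) (f : ℕ → ℂ) (hA : ∀ c d, A.k c d = f (cdist c d))
    (c d : G2 L ⧸ U.loc v) :
    (LocKer.hecke hv * A).k c d =
      (v.asIdeal.absNorm : ℂ) * f (cdist c d + 1) +
        f (if cdist c d = 0 then 1 else cdist c d - 1) := by
  suffices key : ∀ (α : Lˣ) (n : ℕ), v.valuation L (α : L) = exp (-(n : ℤ)) →
      (LocKer.hecke hv * A).k (QuotientGroup.mk (ProjGenLinGroup.mk (dB α))) (QuotientGroup.mk 1) =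
        (v.asIdeal.absNorm : ℂ) * f (n + 1) + f (if n = 0 then 1 else n - 1) by
    obtain ⟨g, α, n, hα, hn, hc, hd⟩ := exists_diag hv c d
    rw [hn, ← hc, ← hd, (LocKer.hecke hv * A).inv, key α n hα]
  intro α n hα
  rw [LocKer.mul_k, tsum_hecke_nbr hv fun e => A.k e (QuotientGroup.mk 1)]
  have h1 : ∀ g : G2 L, A.k (QuotientGroup.mk g) (QuotientGroup.mk 1) = f (dist2 v g) := fun g => by
    rw [hA, cdist_symm hv, cdist_mk, inv_one, one_mul]
  simp only [h1, dist2_dB_last hα]
  rw [Finset.sum_congr rfl fun t ht => by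
      rw [dist2_dB_nbr hα ((Whit.isResidues v).le_one t ht)],
    Finset.sum_const, Whit.card_residues, nsmul_eq_mul]

/-- The square root of the norm. -/
def sqN (v : HeightOneSpectrum (𝓞 L)) : ℝ := Real.sqrt v.asIdeal.absNorm

/-- The square root of the norm is positive. -/
lemma sqN_pos (v : HeightOneSpectrum (𝓞 L)) : 0 < sqN v :=
  Real.sqrt_pos.2 (one_pos.trans (one_lt_norm v))

/-- The parameter of the recursion. -/
def invN (v : HeightOneSpectrum (𝓞 L)) : ℝ := (v.asIdeal.absNorm : ℝ)⁻¹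

/-- The inverse norm is nonnegative. -/
lemma invN_nonneg (v : HeightOneSpectrum (𝓞 L)) : 0 ≤ invN v :=
  inv_nonneg.2 (Nat.cast_nonneg _)

/-- The inverse norm is less than one. -/
lemma invN_lt_one (v : HeightOneSpectrum (𝓞 L)) : invN v < 1 :=
  inv_lt_one_of_one_lt₀ (one_lt_norm v)

include hv in
/-- The powers of the adjacency kernel. -/
theorem hecke_pow_k (i : ℕ) (c d : G2 L ⧸ U.loc v) :
    ((LocKer.hecke hv) ^ i).k c d =
      ((sqN v ^ i / sqN v ^ cdist c d * cf (invN v) (X ^ i) (cdist c d) : ℝ) : ℂ) := by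
  classical
  have hs := sqN_pos v
  have hq : (v.asIdeal.absNorm : ℝ) = sqN v ^ 2 := (Real.sq_sqrt (Nat.cast_nonneg _)).symm
  have hx0 := invN_nonneg v
  have hx := invN_lt_one v
  induction i generalizing c d with
  | zero =>
    rw [pow_zero, pow_zero, show (X : ℝ[X]) ^ 0 = 1 from pow_zero X, cf_one hx0 hx, LocKer.one_k]
    by_cases h : c = d
    · subst h
      simp [cdist_self]
    · have h0 : cdist c d ≠ 0 := fun h0 => h (eq_of_cdist_eq_zero hv h0)
      simp [h, h0]
  | succ i ih =>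
    rw [pow_succ', hecke_mul_radial hv _ (fun n =>
      ((sqN v ^ i / sqN v ^ n * cf (invN v) (X ^ i) n : ℝ) : ℂ)) ih, pow_succ' X i, cf_X_mul hx0 hx]
    generalize cdist c d = n
    rw [← Complex.ofReal_natCast, hq, ← Complex.ofReal_mul, ← Complex.ofReal_add,
      Complex.ofReal_inj]
    rcases n with _ | n
    · simp only [stepT, if_pos, zero_add, pow_one, pow_zero, invN, hq]
      field_simp
      ring
    · simp only [stepT, if_neg (Nat.succ_ne_zero n), Nat.add_sub_cancel]
      field_simp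
      ring

/-- A polynomial of the adjacency kernel divided by `s`. -/
def pkS (hv : U.loc v = locK v) (s : ℝ) (P : ℝ[X]) : LocKer U v :=
  (LocKer.hecke hv).poly (fun i => ((P.coeff i / s ^ i : ℝ) : ℂ)) P.natDegree

/-- A polynomial of the normalised adjacency kernel. -/
def pk (hv : U.loc v = locK v) (P : ℝ[X]) : LocKer U v := pkS hv (sqN v) P

include hv in
/-- Its profile. -/
theorem pk_k (P : ℝ[X]) (c d : G2 L ⧸ U.loc v) :
    (pk hv P).k c d = ((cf (invN v) P (cdist c d) / sqN v ^ cdist c d : ℝ) : ℂ) := by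
  rw [pk, pkS, LocKer.poly_k]
  simp only [hecke_pow_k hv, ← Complex.ofReal_mul, ← Complex.ofReal_sum, Complex.ofReal_inj]
  conv_rhs => rw [P.as_sum_range_C_mul_X_pow]
  have hsum : ∀ (s : Finset ℕ) (g : ℕ → ℝ[X]), cf (invN v) (∑ i ∈ s, g i) (cdist c d) =
      ∑ i ∈ s, cf (invN v) (g i) (cdist c d) := by
    intro s g
    induction s using Finset.induction_on with
    | empty => simpa using cf_C_mul (x := invN v) 0 1 (cdist c d)
    | insert a s ha ih =>
      rw [Finset.sum_insert ha, Finset.sum_insert ha, cf_add (invN_nonneg v) (invN_lt_one v), ih]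
  rw [hsum, Finset.sum_div]
  refine Finset.sum_congr rfl fun i _ => ?_
  rw [cf_C_mul]
  have := sqN_pos v
  field_simp

/-- The polynomials with the profiles concentrated at one distance. -/
def distPoly (x : ℝ) : ℕ → ℝ[X]
  | 0 => 1
  | 1 => X
  | n + 2 => X * distPoly x (n + 1) + C (-(if n = 0 then 1 + x else 1)) * distPoly x n

section Dist

variable {x : ℝ} (hx0 : 0 ≤ x) (hx : x < 1)

include hx0 hx

theorem cf_distPoly : ∀ n m : ℕ, cf x (distPoly x n) m = if n = m then 1 else 0
  | 0, m => by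
    rw [distPoly, cf_one hx0 hx]
    simp only [eq_comm]
  | 1, m => by
    rw [distPoly, show (X : ℝ[X]) = X * 1 from (mul_one X).symm, cf_X_mul hx0 hx]
    simp only [stepT, cf_one hx0 hx]
    rcases m with _ | _ | m <;> simp
  | n + 2, m => by
    have h1 := cf_distPoly (n + 1)
    have h0 := cf_distPoly n
    rw [distPoly, cf_add hx0 hx, cf_X_mul hx0 hx, cf_C_mul]
    simp only [stepT, h1, h0]
    rcases m with _ | m
    · rcases n with _ | n <;> simp
    · simp only []
      split_ifs <;> first | (exfalso; omega) | norm_num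

theorem cf_sum_C_mul (s : Finset ℕ) (a : ℕ → ℝ) (Q : ℕ → ℝ[X]) (m : ℕ) :
    cf x (∑ n ∈ s, C (a n) * Q n) m = ∑ n ∈ s, a n * cf x (Q n) m := by
  induction s using Finset.induction_on with
  | empty => simpa using cf_C_mul (x := x) 0 1 m
  | insert b s hb ih => rw [Finset.sum_insert hb, Finset.sum_insert hb, cf_add hx0 hx, cf_C_mul, ih]

/-- The flat part of a polynomial. -/
def flatPart (R : ℕ) (P : ℝ[X]) : ℝ[X] :=
  P + ∑ n ∈ Finset.range (R + 5), C (-(flatCorr R (cvec hx0 hx P) n)) * distPoly x n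

theorem cvec_flatPart (R : ℕ) (P : ℝ[X]) :
    cvec hx0 hx (flatPart hx0 hx R P) = cvec hx0 hx P - flatCorr R (cvec hx0 hx P) := by
  ext m
  rw [Finsupp.sub_apply, cvec_apply, flatPart, cf_add hx0 hx, cf_sum_C_mul hx0 hx]
  simp only [cf_distPoly hx0 hx, mul_ite, mul_one, mul_zero, Finset.sum_ite_eq', Finset.mem_range,
    cvec_apply]
  split_ifs with h
  · ring
  · rw [flatCorr_apply R _ (n := m) (by omega)]
    ring

theorem flat_flatPart (R : ℕ) (P : ℝ[X]) : Flat R (cvec hx0 hx (flatPart hx0 hx R P)) := by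
  rw [cvec_flatPart]
  exact flat_sub_flatCorr R _

end Dist

/-- A radial kernel with flat profile. -/
def FlatK (R : ℕ) (k : LocKer U v) : Prop :=
  ∃ c : ℕ →₀ ℝ, Flat R c ∧
    ∀ x y, k.k x y = ((c (cdist x y) / sqN v ^ cdist x y : ℝ) : ℂ)

include hv in
/-- The flat part gives a flat kernel. -/
theorem flatK_flatPart (R : ℕ) (P : ℝ[X]) :
    FlatK R (pk hv (flatPart (invN_nonneg v) (invN_lt_one v) R P)) :=
  ⟨_, flat_flatPart (invN_nonneg v) (invN_lt_one v) R P, fun x y => pk_k hv _ x y⟩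

end FermatAgent.LT2.Spec
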