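import Mathlib
import Fermat.Agent.LT.Base.Isolation
import Fermat.Agent.LT2.Spec.Profile

/-!
# Isolation of an eigenspace from asymptotic trace identities

For sequences of twisted operators bounded on the eigenvectors of two compact symmetric operators,
trace identities which hold in the limit give equal traces on the eigenspaces in the limit.
-/

set_option autoImplicit false

noncomputable section

open Filter FermatAgent.LT.Isolation
open scoped ComplexConjugate InnerProductSpace Topology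

namespace FermatAgent.LT2.Spec

variable {H : Type*} [NormedAddCommGroup H] [InnerProductSpace ℂ H] [CompleteSpace H]

variable {T : H →L[ℂ] H}

variable {H' : Type*} [NormedAddCommGroup H'] [InnerProductSpace ℂ H'] [CompleteSpace H']
  {T' : H' →L[ℂ] H'}

/-- **Asymptotic equality of the trace terms gives asymptotic equality of the traces.** -/
theorem tendsto_trace_sub [SecondCountableTopology H] [SecondCountableTopology H']
    (hc : IsCompactOperator T) (hs : (T : H →ₗ[ℂ] H).IsSymmetric) {B : ℝ}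
    (hHS : ∀ {ι : Type} (e : ι → H), Orthonormal ℂ e → ∀ s : Finset ι,
      ∑ i ∈ s, ‖T (e i)‖ ^ 2 ≤ B)
    (hc' : IsCompactOperator T') (hs' : (T' : H' →ₗ[ℂ] H').IsSymmetric) {B' : ℝ}
    (hHS' : ∀ {ι : Type} (e : ι → H'), Orthonormal ℂ e → ∀ s : Finset ι,
      ∑ i ∈ s, ‖T' (e i)‖ ^ 2 ≤ B')
    (X : ℕ → H →L[ℂ] H) {M : ℝ}
    (hX : ∀ N (ν : ℂ), ν ≠ 0 → ∀ e ∈ eig T ν, ‖e‖ = 1 → ‖⟪e, X N e⟫_ℂ‖ ≤ M)
    (X' : ℕ → H' →L[ℂ] H') {M' : ℝ}
    (hX' : ∀ N (ν : ℂ), ν ≠ 0 → ∀ e ∈ eig T' ν, ‖e‖ = 1 → ‖⟪e, X' N e⟫_ℂ‖ ≤ M')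
    {μ : ℝ} (hμ : μ ≠ 0) [FiniteDimensional ℂ (eig T μ)] [FiniteDimensional ℂ (eig T' μ)]
    (t : ℕ → Polynomial ℂ → ℂ)
    (ht : ∀ N (p : Polynomial ℂ) {w : Set H} [Countable w] (b : HilbertBasis w ℂ H),
      HasSum (fun i => ⟪T (b i), X N (Polynomial.aeval T p (T (b i)))⟫_ℂ) (t N p))
    (t' : ℕ → Polynomial ℂ → ℂ)
    (ht' : ∀ N (p : Polynomial ℂ) {w : Set H'} [Countable w] (b : HilbertBasis w ℂ H'),
      HasSum (fun i => ⟪T' (b i), X' N (Polynomial.aeval T' p (T' (b i)))⟫_ℂ) (t' N p))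
    (h : ∀ p, Tendsto (fun N => t N p - t' N p) atTop (𝓝 0)) :
    Tendsto (fun N => LinearMap.trace ℂ (eig T μ) (cutTo T μ (X N)) -
      LinearMap.trace ℂ (eig T' μ) (cutTo T' μ (X' N))) atTop (𝓝 0) := by
  set R := max ‖T‖ ‖T'‖
  set tr := fun N => LinearMap.trace ℂ (eig T μ) (cutTo T μ (X N))
  set tr' := fun N => LinearMap.trace ℂ (eig T' μ) (cutTo T' μ (X' N))
  have hμ2 : (μ : ℂ) ^ 2 ≠ 0 := pow_ne_zero 2 (Complex.ofReal_ne_zero.mpr hμ)
  suffices hh : Tendsto (fun N => (μ : ℂ) ^ 2 * (tr N - tr' N)) atTop (𝓝 0) by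
    have := hh.const_mul ((μ : ℂ) ^ 2)⁻¹
    simpa [← mul_assoc, hμ2] using this
  rw [NormedAddGroup.tendsto_nhds_zero]
  intro ε hε
  obtain ⟨n, hn, hn'⟩ := ((eventually_dist_trace_le hc hs hHS X hX t ht (peak μ R)
    (fun n x hx => norm_peak_le n (hx.trans (le_max_left _ _)))
    (fun x hx => tendsto_peak (hx.trans (le_max_left _ _))) (ε / 4) (by linarith)).and
    (eventually_dist_trace_le hc' hs' hHS' X' hX' t' ht' (peak μ R)
    (fun n x hx => norm_peak_le n (hx.trans (le_max_right _ _)))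
    (fun x hx => tendsto_peak (hx.trans (le_max_right _ _))) (ε / 4) (by linarith))).exists
  filter_upwards [(NormedAddGroup.tendsto_nhds_zero.mp (h (peak μ R n))) (ε / 4) (by linarith)]
    with N hN
  have e : (μ : ℂ) ^ 2 * (tr N - tr' N) = (t N (peak μ R n) - t' N (peak μ R n)) -
      (t N (peak μ R n) - (μ : ℂ) ^ 2 * tr N) + (t' N (peak μ R n) - (μ : ℂ) ^ 2 * tr' N) := by ring
  rw [e]
  refine lt_of_le_of_lt ((norm_add_le _ _).trans (add_le_add (norm_sub_le _ _) le_rfl)) ?_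
  have h1 : ‖t N (peak μ R n) - (μ : ℂ) ^ 2 * tr N‖ ≤ ε / 4 := hn N
  have h2 : ‖t' N (peak μ R n) - (μ : ℂ) ^ 2 * tr' N‖ ≤ ε / 4 := hn' N
  linarith

/-- The peaks of a symmetric operator tend, in trace, to the projection on its kernel. -/
theorem tendsto_trace_peak0 {V : Type*} [NormedAddCommGroup V] [InnerProductSpace ℂ V]
    [FiniteDimensional ℂ V] {A : Module.End ℂ V} (hA : A.IsSymmetric) {K : ℝ} (hK : 0 < K)
    (hb : ∀ r : ℝ, Module.End.HasEigenvalue A (r : ℂ) → r ^ 2 ≤ K)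
    (Y E : Module.End ℂ V) (hE : ∀ g, A g = 0 → E g = g)
    (hE0 : ∀ (c : ℂ) g, c ≠ 0 → A g = c • g → E g = 0) :
    Tendsto (fun N => LinearMap.trace ℂ V
        (Y * Polynomial.aeval A ((peak0 K N).map (algebraMap ℝ ℂ)))) atTop
      (𝓝 (LinearMap.trace ℂ V (Y * E))) := by
  let b := hA.eigenvectorBasis (n := Module.finrank ℂ V) rfl
  simp only [LinearMap.trace_eq_sum_inner _ b, Module.End.mul_apply]
  refine tendsto_finsetSum _ fun i _ => ?_
  set r := hA.eigenvalues rfl i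
  have hv := hA.hasEigenvector_eigenvectorBasis (n := Module.finrank ℂ V) rfl i
  have hAb : A (b i) = (r : ℂ) • b i := hv.apply_eq_smul
  have he : ∀ N, Polynomial.aeval A ((peak0 K N).map (algebraMap ℝ ℂ)) (b i) =
      (((peak0 K N).eval r : ℝ) : ℂ) • b i := fun N => by
    rw [Module.End.aeval_apply_of_hasEigenvector hv, Polynomial.eval_map]
    exact congrArg (· • b i) (Polynomial.eval₂_at_apply (algebraMap ℝ ℂ) r)
  have hlim : Tendsto (fun N => (((peak0 K N).eval r : ℝ) : ℂ)) atTop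
      (𝓝 (((if r = 0 then 1 else 0 : ℝ)) : ℂ)) := (Complex.continuous_ofReal.tendsto _).comp
    (tendsto_eval_peak0 hK (hb r (hA.hasEigenvalue_eigenvalues rfl i)))
  have hEb : E (b i) = (((if r = 0 then 1 else 0 : ℝ)) : ℂ) • b i := by
    split_ifs with h
    · rw [hE _ (by rw [hAb, h, Complex.ofReal_zero, zero_smul]), Complex.ofReal_one, one_smul]
    · rw [hE0 _ _ (Complex.ofReal_ne_zero.mpr h) hAb, Complex.ofReal_zero, zero_smul]
  simp only [he, hEb, map_smul, inner_smul_right]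
  exact hlim.mul_const _

end FermatAgent.LT2.Spec

end
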