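import Mathlib
import Fermat.Agent.LT.Descent.Spec.Act

/-!
# Finite weighted families of product kernels

Their sums are point kernels; when the automorphisation of a sum is bounded it gives an operator on
the square integrable functions of a fundamental domain, and products become composites.
-/

set_option autoImplicit false

noncomputable section

open Matrix IsDedekindDomain NumberField Filter MeasureTheory
open scoped MatrixGroups ENNReal ComplexConjugate InnerProductSpace

namespace FermatAgent.LT2.Spec

open FermatAgent.LT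

variable {L : Type*} [Field L] [NumberField L]

/-- A weighted family of product kernels. -/
structure SK (U : Level L) (ι : Type) where
  /-- the weights -/
  a : ι → ℂ
  /-- the pieces -/
  D : ι → KerData U

variable {U : Level L} {ι κ : Type} [Fintype ι] [Fintype κ]

instance : HMul (SK U ι) (SK U κ) (SK U (ι × κ)) :=
  ⟨fun S E => ⟨fun i => S.a i.1 * E.a i.2, fun i => S.D i.1 * E.D i.2⟩⟩

namespace SK

omit [Fintype ι] [Fintype κ] in
lemma mul_a (S : SK U ι) (E : SK U κ) (i : ι × κ) : (S * E).a i = S.a i.1 * E.a i.2 := rfl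

omit [Fintype ι] [Fintype κ] in
lemma mul_D (S : SK U ι) (E : SK U κ) (i : ι × κ) : (S * E).D i = S.D i.1 * E.D i.2 := rfl

variable (S : SK U ι)

open Classical in
/-- The sum. -/
def pt : PtKer U where
  k x y := ∑ j, S.a j * (S.D j).toPtKer.k x y
  meas := Finset.measurable_sum _ fun j _ => (S.D j).toPtKer.meas.const_mul (S.a j)
  inv g x y := Finset.sum_congr rfl fun j _ => by rw [(S.D j).toPtKer.inv]
  C := ∑ j, ‖S.a j‖ * (S.D j).toPtKer.C
  C_nonneg := Finset.sum_nonneg fun j _ => mul_nonneg (norm_nonneg _) (S.D j).toPtKer.C_nonneg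
  bound x y := (norm_sum_le _ _).trans (Finset.sum_le_sum fun j _ => by
    rw [norm_mul]
    exact mul_le_mul_of_nonneg_left ((S.D j).toPtKer.bound x y) (norm_nonneg _))
  ρ := ∑ j, max (S.D j).toPtKer.ρ 0
  nbr c := Finset.univ.biUnion fun j => (S.D j).toPtKer.nbr c
  supp x y h := by
    obtain ⟨j, -, hj⟩ := Finset.exists_ne_zero_of_sum_ne_zero h
    obtain ⟨h1, h2⟩ := (S.D j).toPtKer.supp x y (right_ne_zero_of_mul hj)
    exact ⟨fun w => (h1 w).trans ((le_max_left _ _).trans
      (Finset.single_le_sum (fun j _ => le_max_right (S.D j).toPtKer.ρ 0) (Finset.mem_univ j))),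
      Finset.mem_biUnion.2 ⟨j, Finset.mem_univ j, h2⟩⟩

lemma pt_k (x y : Space U) : S.pt.k x y = ∑ j, S.a j * (S.D j).toPtKer.k x y := rfl

/-- A bound for the rows. -/
def N : ℕ := ∑ j, ∏ w ∈ (S.D j).S, (((S.D j).fin w).row (QuotientGroup.mk 1)).toFinset.card

lemma row_bound (c : FinCoset U) : (S.pt.nbr c).card ≤ S.N := by
  classical
  exact Finset.card_biUnion_le.trans (Finset.sum_le_sum fun j _ => (S.D j).card_nbr_le c)

/-- The automorphisation of a sum. -/
lemma aut_eq (x y : Space U) : S.pt.aut x y = ∑ j, S.a j * (S.D j).toPtKer.aut x y := by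
  simp only [PtKer.aut, pt_k]
  rw [Summable.tsum_finsetSum fun j _ => ((S.D j).toPtKer.summable_aut x y).mul_left (S.a j)]
  simp only [tsum_mul_left]

/-- The automorphisation of the sum is bounded. -/
def IsAut : Prop := ∃ B, ∀ x y, ‖S.pt.aut x y‖ ≤ B

/-- Automorphy as a uniform bound. -/
lemma isAut_iff : S.IsAut ↔ ∃ B, ∀ x y, ‖∑ j, S.a j * (S.D j).toPtKer.aut x y‖ ≤ B := by
  simp only [IsAut, aut_eq]

variable {S}

/-- Automorphy depends only on the kernel. -/
lemma IsAut.congr {E : SK U κ} (hS : S.IsAut) (h : S.pt.k = E.pt.k) : E.IsAut := by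
  obtain ⟨B, hB⟩ := hS
  exact ⟨B, fun x y => PtKer.aut_congr h ▸ hB x y⟩

variable (S) in
/-- Products are composites. -/
theorem pt_mul (E : SK U κ) : (S.pt.comp E.pt S.row_bound).k = (S * E).pt.k := by
  funext x z
  show ∫ y, S.pt.k x y * E.pt.k y z ∂Space.vol U = _
  have hm : ∀ l, Measurable fun y => (E.D l).toPtKer.k y z := fun l =>
    (E.D l).toPtKer.meas.comp (f := fun y : Space U => (y, z))
      (measurable_id.prodMk measurable_const)
  have hi : ∀ j l, Integrable (fun y => (S.a j * E.a l) *
      ((S.D j).toPtKer.k x y * (E.D l).toPtKer.k y z)) (Space.vol U) := fun j l =>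
    ((S.D j).toPtKer.integrable_row x (hm l) fun y => (E.D l).toPtKer.bound y z).const_mul _
  rw [pt_k, Fintype.sum_prod_type]
  simp only [pt_k, Finset.sum_mul_sum]
  rw [integral_congr_ae (g := fun y => ∑ j, ∑ l, (S.a j * E.a l) *
      ((S.D j).toPtKer.k x y * (E.D l).toPtKer.k y z)) (ae_of_all _ fun y =>
      Finset.sum_congr rfl fun j _ => Finset.sum_congr rfl fun l _ => mul_mul_mul_comm _ _ _ _),
    integral_finsetSum _ fun j _ => integrable_finsetSum _ fun l _ => hi j l]
  refine Finset.sum_congr rfl fun j _ => ?_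
  rw [integral_finsetSum _ fun l _ => hi j l]
  refine Finset.sum_congr rfl fun l _ => ?_
  rw [integral_const_mul, mul_a, mul_D,
    ← congrFun (congrFun ((S.D j).toPtKer_comp (E.D l) (S.D j).card_nbr_le) x) z]
  rfl

/-- Multiplying on the left keeps the automorphisation bounded. -/
theorem IsAut.mul_left (hS : S.IsAut) (E : SK U κ) {s : Set (Space U)}
    (hs : IsFundamentalDomain (G2 L) s (Space.vol U)) : (E * S).IsAut := by
  obtain ⟨B, hB⟩ := hS
  refine ⟨E.pt.C * max B 0 * (E.N *
    (H3.vol {q | H3.coshDist H3.base q ≤ E.pt.ρ}).toReal ^ Fintype.card (InfinitePlace L)),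
    fun x z => ?_⟩
  rw [← PtKer.aut_congr (E.pt_mul S), E.pt.aut_comp_left _ _ hB hs]
  rw [← setIntegral_eq_integral_of_forall_compl_eq_zero (s := E.pt.rowBox x) fun y hy => by
    by_contra h
    exact hy (E.pt.mem_rowBox (left_ne_zero_of_mul h))]
  refine (norm_setIntegral_le_of_norm_le_const (E.pt.vol_rowBox_lt_top x)
    (C := E.pt.C * max B 0) fun y _ => ?_).trans ?_
  · rw [norm_mul]
    exact mul_le_mul (E.pt.bound x y) ((hB y z).trans (le_max_left _ _)) (norm_nonneg _)
      E.pt.C_nonneg
  · exact mul_le_mul_of_nonneg_left (E.pt.real_vol_rowBox_le E.row_bound x)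
      (mul_nonneg E.pt.C_nonneg (le_max_right _ _))

variable (S)

open Classical in
/-- The sum as a kernel with bounded automorphisation. -/
def autK (h : S.IsAut) : AutKer U where
  toPtKer := S.pt
  CA := max h.choose 0
  CA_nonneg := le_max_right _ _
  aut_bound x y := (h.choose_spec x y).trans (le_max_left _ _)
  N := S.N
  nbr_card := S.row_bound

variable (s : Set (Space U)) [IsFiniteMeasure ((Space.vol U).restrict s)]

open Classical in
/-- The operator, zero without bounded automorphisation. -/
def op : KerData.H s →L[ℂ] KerData.H s :=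
  if h : S.IsAut then BKer.op ((Space.vol U).restrict s) (S.autK h).bker else 0

variable {S s}

/-- The operator is integration against the automorphised kernel. -/
lemma op_apply_ae (h : S.IsAut) (f : KerData.H s) :
    S.op s f =ᵐ[(Space.vol U).restrict s] fun x => ∫ y in s, S.pt.aut x y * f y ∂Space.vol U := by
  rw [op, dif_pos h]
  exact BKer.op_apply_ae _ f

/-- The operator depends only on the kernel. -/
lemma op_congr {E : SK U κ} (h : S.pt.k = E.pt.k) : S.op s = E.op s := by
  by_cases hS : S.IsAut
  · refine ContinuousLinearMap.ext fun f => Lp.ext ?_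
    filter_upwards [op_apply_ae hS f, op_apply_ae (hS.congr h) f] with x h1 h2
    rw [h1, h2, PtKer.aut_congr h]
  · rw [op, op, dif_neg hS, dif_neg fun hE => hS (hE.congr h.symm)]

/-- The operator of a product is the composite. -/
theorem op_mul {E : SK U κ} (hS : S.IsAut) (hE : E.IsAut)
    (hs : IsFundamentalDomain (G2 L) s (Space.vol U)) :
    (S * E).op s = (S.op s).comp (E.op s) := by
  have hSE := hE.mul_left S hs
  have he : (S.op s).comp (E.op s) = BKer.op ((Space.vol U).restrict s)
      (BKer.comp ((Space.vol U).restrict s) (S.autK hS).bker (E.autK hE).bker) := by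
    rw [op, op, dif_pos hS, dif_pos hE, ((S.autK hS).op_comp_eq (E.autK hE) hs).1]
  rw [he]
  refine ContinuousLinearMap.ext fun f => Lp.ext ?_
  filter_upwards [op_apply_ae hSE f,
    BKer.op_apply_ae (BKer.comp ((Space.vol U).restrict s) (S.autK hS).bker (E.autK hE).bker) f]
    with x h1 h2
  rw [h1, h2]
  refine integral_congr_ae (ae_of_all _ fun y => ?_)
  show _ = BKer.k _ x y * f y
  rw [((S.autK hS).op_comp_eq (E.autK hE) hs).2 x y, ← PtKer.aut_congr (S.pt_mul E)]
  rfl

/-- Real Hermitian data give symmetric kernels. -/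
lemma conj_pt (ha : ∀ j, conj (S.a j) = S.a j) (hi : ∀ j w, ((S.D j).inf w).IsReal)
    (hf : ∀ j v, ((S.D j).fin v).IsHerm) (x y : Space U) : conj (S.pt.k y x) = S.pt.k x y := by
  simp only [pt_k, map_sum, map_mul, ha, KerData.conj_toPtKer' (hi _) (hf _)]

/-- Symmetric kernels give self-adjoint operators. -/
theorem isSymmetric_op (h : ∀ x y, conj (S.pt.k y x) = S.pt.k x y) :
    ((S.op s : KerData.H s →L[ℂ] KerData.H s) :
      KerData.H s →ₗ[ℂ] KerData.H s).IsSymmetric := by
  unfold op
  split_ifs with hD
  · exact (S.autK hD).isSymmetric_op h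
  · intro f g
    simp

/-- The operator is compact. -/
lemma isCompactOperator_op :
    IsCompactOperator (S.op s) := by
  unfold op
  split_ifs
  · exact BKer.isCompactOperator_op _
  · exact isCompactOperator_zero

/-- Linearity in the kernel. -/
theorem op_lin {A : SK U κ} {μ : Type} [Fintype μ] {B : SK U μ} (hS : S.IsAut) (hA : A.IsAut)
    (hB : B.IsAut) (c : ℂ) (h : ∀ x y, S.pt.k x y = A.pt.k x y + c * B.pt.k x y) :
    S.op s = A.op s + c • B.op s := by
  refine ContinuousLinearMap.ext fun f => Lp.ext ?_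
  have e : ∀ x y, S.pt.aut x y = ((A.autK hA).bker.add (B.autK hB).bker c).k x y := fun x y => by
    show S.pt.aut x y = A.pt.aut x y + c * B.pt.aut x y
    simp only [PtKer.aut, h]
    rw [Summable.tsum_add (A.pt.summable_aut x y) ((B.pt.summable_aut x y).mul_left c),
      tsum_mul_left]
  have h' : (A.op s + c • B.op s) f =
      BKer.op ((Space.vol U).restrict s) ((A.autK hA).bker.add (B.autK hB).bker c) f := by
    rw [BKer.op_add, op, op, dif_pos hA, dif_pos hB]
    rfl
  rw [h']
  filter_upwards [op_apply_ae hS f,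
    BKer.op_apply_ae ((A.autK hA).bker.add (B.autK hB).bker c) f] with x h1 h2
  rw [h1, h2]
  exact integral_congr_ae (ae_of_all _ fun y => by simp only [e])

/-- On an invariant bounded representative the operator is the action. -/
theorem op_apply_invariant (hS : S.IsAut) (hs : IsFundamentalDomain (G2 L) s (Space.vol U))
    {g : KerData.H s} {f : Space U → ℂ} (hf : Measurable f)
    (hinv : ∀ (γ : G2 L) y, f (γ • y) = f y) {C : ℝ} (hC : ∀ y, ‖f y‖ ≤ C)
    (hg : g =ᵐ[(Space.vol U).restrict s] f) :
    S.op s g =ᵐ[(Space.vol U).restrict s] S.pt.act f := by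
  filter_upwards [op_apply_ae hS g] with x hx
  rw [hx, PtKer.act, S.pt.integral_row_eq_setIntegral hf hinv hC hs x]
  refine integral_congr_ae ?_
  filter_upwards [hg] with y hy
  rw [hy]

section Act

variable (S) {f : Space U → ℂ} (hf : Measurable f) {C : ℝ} (hC : ∀ y, ‖f y‖ ≤ C)

include hf hC

/-- The action is the sum of the actions. -/
lemma act_eq (x : Space U) : S.pt.act f x = ∑ j, S.a j * (S.D j).toPtKer.act f x := by
  simp only [PtKer.act, pt_k, Finset.sum_mul, mul_assoc]
  rw [integral_finsetSum _ fun j _ => ((S.D j).toPtKer.integrable_row x hf hC).const_mul _]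
  simp only [integral_const_mul]

/-- The action is bounded. -/
lemma exists_norm_act_le : ∃ C', ∀ x, ‖S.pt.act f x‖ ≤ C' := by
  refine ⟨∑ j, ‖S.a j‖ * ((S.D j).toPtKer.C * C * (S.D j).rowVol), fun x => ?_⟩
  rw [S.act_eq hf hC]
  refine (norm_sum_le _ _).trans (Finset.sum_le_sum fun j _ => ?_)
  rw [norm_mul]
  exact mul_le_mul_of_nonneg_left ((S.D j).norm_act_le hC x) (norm_nonneg _)

/-- The action is measurable. -/
lemma measurable_act : Measurable (S.pt.act f) := by
  rw [show S.pt.act f = fun x => ∑ j, S.a j * (S.D j).toPtKer.act f x from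
    funext (S.act_eq hf hC)]
  exact Finset.measurable_sum _ fun j _ => ((S.D j).measurable_act hf).const_mul _

/-- Products act as composites. -/
theorem act_mul (E : SK U κ) (x : Space U) :
    (S * E).pt.act f x = S.pt.act (E.pt.act f) x := by
  obtain ⟨C', hC'⟩ := E.exists_norm_act_le hf hC
  rw [(S * E).act_eq hf hC, S.act_eq (E.measurable_act hf hC) hC', Fintype.sum_prod_type]
  refine Finset.sum_congr rfl fun j _ => ?_
  simp only [mul_a, mul_D, KerData.act_mul _ _ hf hC]
  have hi : ∀ l, Integrable (fun y => (S.D j).toPtKer.k x y *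
      ((E.D l).toPtKer.act f y)) (Space.vol U) := fun l =>
    (S.D j).toPtKer.integrable_row x ((E.D l).measurable_act hf) ((E.D l).norm_act_le hC)
  have e : (S.D j).toPtKer.act (E.pt.act f) x =
      ∑ l, E.a l * (S.D j).toPtKer.act ((E.D l).toPtKer.act f) x := by
    show ∫ y, (S.D j).toPtKer.k x y * E.pt.act f y ∂Space.vol U =
      ∑ l, E.a l * ∫ y, (S.D j).toPtKer.k x y * (E.D l).toPtKer.act f y ∂Space.vol U
    simp only [← integral_const_mul]
    rw [← integral_finsetSum _ fun l _ => (hi l).const_mul _]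
    refine integral_congr_ae (ae_of_all _ fun y => ?_)
    simp only [E.act_eq hf hC, Finset.mul_sum]
    exact Finset.sum_congr rfl fun l _ => mul_left_comm _ _ _
  rw [e, Finset.mul_sum]
  exact Finset.sum_congr rfl fun l _ => mul_assoc _ _ _

end Act

/-- The action is homogeneous. -/
lemma act_const_mul (c : ℂ) (f : Space U → ℂ) (x : Space U) :
    S.pt.act (fun y => c * f y) x = c * S.pt.act f x := by
  simp only [PtKer.act, ← integral_const_mul, mul_left_comm]

end SK

end FermatAgent.LT2.Spec

end
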