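import Mathlib
import Fermat.Agent.LT2.Spec.Sum

/-!
# Acting in one component before and after a product kernel

Acting in one finite component after a kernel modifies it on the left, acting before it on the
right.
-/

set_option autoImplicit false

noncomputable section

open Matrix IsDedekindDomain NumberField Filter MeasureTheory
open scoped MatrixGroups ENNReal ComplexConjugate

namespace FermatAgent.LT2.Spec

open FermatAgent.LT

variable {L : Type*} [Field L] [NumberField L] {U : Level L}

open Classical in
/-- Acting in one finite component after a kernel. -/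
theorem finOp_act' (D : KerData U) {v : HeightOneSpectrum (𝓞 L)} (A : LocKer U v)
    {f : Space U → ℂ} (hf : Measurable f) {C : ℝ} (hC : ∀ y, ‖f y‖ ≤ C) (x : Space U) :
    finOp A (D.toPtKer.act f) x = (((1 : Mods U).setFin v A).ext D).toPtKer.act f x := by
  simp only [finOp, PtKer.act, ← integral_const_mul]
  rw [← integral_finsetSum _ fun d _ => (D.toPtKer.integrable_row _ hf hC).const_mul _]
  refine integral_congr_ae (ae_of_all _ fun z => ?_)
  simp only [KerData.toPtKer_k, Mods.kfin_setFin D, Finset.mul_sum, Finset.sum_mul]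
  refine Finset.sum_congr rfl fun d _ => ?_
  rw [show (((1 : Mods U).setFin v A).ext D).kinf x.1 z.1 = D.kinf x.1 z.1 from rfl]
  ring

/-- The action, one finite coset at a time. -/
theorem act_eq_tsum (D : KerData U) {f : Space U → ℂ} (hf : Measurable f) {C : ℝ}
    (hC : ∀ y, ‖f y‖ ≤ C) (x : Space U) :
    D.toPtKer.act f x = ∑' e : FinCoset U, D.kfin x.2 e *
      ∫ p, D.kinf x.1 p * f (p, e) ∂(Measure.pi fun _ : InfinitePlace L => H3.vol) := by
  have hm := D.toPtKer.integrable_row x hf hC
  rw [PtKer.act, Space.vol, integral_prod_symm _ (Space.vol.eq_def U ▸ hm),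
    integral_countable (Space.vol.eq_def U ▸ hm).integral_prod_right]
  simp only [measureReal_def, Measure.count_singleton, ENNReal.toReal_one, one_smul,
    KerData.toPtKer_k]
  refine tsum_congr fun e => ?_
  rw [← integral_const_mul]
  exact integral_congr_ae (ae_of_all _ fun p => by ring)

/-- The local operator preserves measurability. -/
lemma measurable_finOp {v : HeightOneSpectrum (𝓞 L)} (A : LocKer U v) {f : Space U → ℂ}
    (hf : Measurable f) : Measurable (finOp A f) := by
  have hsl : ∀ c : FinCoset U, Measurable fun p : InfPts L => finOp A f (p, c) := fun c => by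
    show Measurable fun p : InfPts L =>
      ∑ d ∈ (A.row (c.1 v)).toFinset, A.k (c.1 v) d * f (p, c.update v d)
    exact Finset.measurable_sum _ fun d _ =>
      (hf.comp (f := fun p : InfPts L => (p, c.update v d)) measurable_prodMk_right).const_mul _
  exact measurable_from_prod_countable_left hsl

/-- A bound for the local operator. -/
lemma norm_finOp_le {v : HeightOneSpectrum (𝓞 L)} (A : LocKer U v) {f : Space U → ℂ} {C : ℝ}
    (hC : ∀ y, ‖f y‖ ≤ C) (x : Space U) :
    ‖finOp A f x‖ ≤ (A.row (QuotientGroup.mk 1)).toFinset.card * A.bnd * C := by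
  refine (norm_sum_le _ _).trans ?_
  refine (Finset.sum_le_card_nsmul _ _ (A.bnd * C) fun d _ => ?_).trans (le_of_eq ?_)
  · rw [norm_mul]
    exact mul_le_mul (A.norm_le_bnd _ _) (hC _) (norm_nonneg _) A.bnd_nonneg
  · rw [A.row_card, nsmul_eq_mul, mul_assoc]

open Classical in
/-- Acting in one finite component before a kernel. -/
theorem act_finOp (D : KerData U) {v : HeightOneSpectrum (𝓞 L)} (A : LocKer U v)
    (hAD : Commute A (D.fin v)) {f : Space U → ℂ} (hf : Measurable f) {C : ℝ}
    (hC : ∀ y, ‖f y‖ ≤ C) (x : Space U) :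
    D.toPtKer.act (finOp A f) x = (((1 : Mods U).setFin v A).ext D).toPtKer.act f x := by
  set E := ((1 : Mods U).setFin v A).ext D
  let D1 : KerData U := { D with fin := fun _ => 1, S := ∅, fin_eq_one := fun _ _ => rfl }
  set A' := ((1 : Mods U).setFin v A).ext D1
  set G : FinCoset U → ℂ := fun e =>
    ∫ p, D.kinf x.1 p * f (p, e) ∂(Measure.pi fun _ : InfinitePlace L => H3.vol)
  have hrow : ∀ p, Integrable (fun q => D.kinf x.1 q * f (q, p))
      (Measure.pi fun _ : InfinitePlace L => H3.vol) := by
    intro p
    have hk : ∀ w : InfinitePlace L, Integrable (fun q => (D.inf w).k (x.1 w) q) H3.vol := fun w =>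
      ((D.inf w).integrable_row (x.1 w) (f := fun _ => (1 : ℂ)) measurable_const
        (M := 1) (fun _ => by simp)).congr (ae_of_all _ fun q => mul_one _)
    have hk' : Integrable (fun q => D.kinf x.1 q) (Measure.pi fun _ : InfinitePlace L => H3.vol) :=
      Integrable.fintype_prod (f := fun w q => (D.inf w).k (x.1 w) q) hk
    refine (hk'.bdd_mul (f := fun q => f (q, p))
      (hf.comp (f := fun q : InfPts L => (q, p)) measurable_prodMk_right).aestronglyMeasurable
      (c := C) (ae_of_all _ fun q => hC _)).congr (ae_of_all _ fun q => ?_)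
    exact mul_comm _ _
  have hD1 : ∀ a b : FinCoset U, D1.kfin a b = if a = b then 1 else 0 := fun a b => by
    simp only [KerData.kfin, D1, Finset.notMem_empty, not_false_eq_true, forall_const,
      Finset.prod_empty]
    exact if_congr ⟨fun h => FinCoset.ext h, fun h u => h ▸ rfl⟩ rfl rfl
  -- one step
  have hstep : ∀ e : FinCoset U,
      (∫ p, D.kinf x.1 p * finOp A f (p, e) ∂(Measure.pi fun _ : InfinitePlace L => H3.vol)) =
        ∑' e', A'.kfin e e' * G e' := by
    intro e
    show (∫ p, D.kinf x.1 p * ∑ d ∈ (A.row (e.1 v)).toFinset,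
      A.k (e.1 v) d * f (p, e.update v d)
        ∂(Measure.pi fun _ : InfinitePlace L => H3.vol)) = _
    simp only [Finset.mul_sum, G, mul_left_comm (D.kinf x.1 _)]
    refine Eq.trans (integral_finsetSum _ fun d _ => ?_) ?_
    · exact (hrow (e.update v d)).const_mul (A.k (e.1 v) d)
    simp only [integral_const_mul]
    simp only [A', Mods.kfin_setFin D1, hD1, Finset.sum_mul, mul_assoc]
    rw [Summable.tsum_finsetSum fun d _ => summable_of_hasFiniteSupport
      ((Set.finite_singleton (e.update v d)).subset fun e' he' => by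
        by_contra h
        exact he' (by simp [Ne.symm h]))]
    refine Finset.sum_congr rfl fun d _ => ?_
    rw [tsum_eq_single (e.update v d) fun e' he' => by simp [Ne.symm he']]
    simp
  have hmul : ∀ e', (D * A').kfin x.2 e' = E.kfin x.2 e' := fun e' => KerData.kfin_congr
    (fun u => by
    simp only [E, A', KerData.mul_fin, Mods.ext_fin, D1, _root_.mul_one]
    by_cases h : u = v
    · subst h
      simpa [Mods.setFin] using hAD.symm.eq
    · simp [Mods.setFin, h]) _ _
  rw [act_eq_tsum D (measurable_finOp A hf) (norm_finOp_le A hC), act_eq_tsum E hf hC]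
  simp only [hstep]
  show _ = ∑' e', E.kfin x.2 e' * G e'
  simp only [← hmul]
  set s := (D.finite_row x.2).toFinset
  set t := s.biUnion fun e => (A'.finite_row e).toFinset
  have hs : ∀ e ∉ s, D.kfin x.2 e = 0 := fun e he => by simpa [s] using he
  have ht : ∀ e ∈ s, ∀ e' ∉ t, A'.kfin e e' = 0 := fun e he e' he' => by
    by_contra h
    exact he' (Finset.mem_biUnion.2 ⟨e, he, by simpa using h⟩)
  have hR : ∀ e', (D * A').kfin x.2 e' = ∑ e ∈ s, D.kfin x.2 e * A'.kfin e e' := fun e' => by
    rw [← D.kfin_mul A']
    exact tsum_eq_sum fun e he => by rw [hs e he, zero_mul]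
  rw [tsum_eq_sum (s := s) fun e he => by rw [hs e he, zero_mul],
    tsum_eq_sum (s := t) fun e' he' => by
      rw [hR, Finset.sum_eq_zero fun e he => by rw [ht e he e' he', mul_zero], zero_mul]]
  simp only [hR, Finset.sum_mul]
  rw [Finset.sum_comm]
  refine Finset.sum_congr rfl fun e he => ?_
  rw [tsum_eq_sum (s := t) fun e' he' => by rw [ht e he e' he', zero_mul], Finset.mul_sum]
  exact Finset.sum_congr rfl fun e' _ => (mul_assoc _ _ _).symm

end FermatAgent.LT2.Spec

end
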