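import Mathlib
import Fermat.Agent.LT2.Spec.Act2

/-!
# A base sum of product kernels and its modifications

The base is a finite weighted family with hermitian commuting components whose modified sums have
bounded automorphisation.  Modifications commuting with the base give operators which multiply like
the modifications.
-/

set_option autoImplicit false

noncomputable section

open Matrix IsDedekindDomain NumberField Filter MeasureTheory
open scoped MatrixGroups ENNReal ComplexConjugate InnerProductSpace

namespace FermatAgent.LT2.Spec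

open FermatAgent.LT

variable {L : Type*} [Field L] [NumberField L] {U : Level L}

/-- Commuting Hermitian kernels have Hermitian product. -/
lemma isHerm_mul {v : HeightOneSpectrum (𝓞 L)} {A B : LocKer U v} (hA : A.IsHerm) (hB : B.IsHerm)
    (h : Commute A B) : (A * B).IsHerm := fun c d => by
  conv_rhs => rw [h.eq]
  rw [LocKer.mul_k, LocKer.mul_k, Complex.conj_tsum]
  exact tsum_congr fun e => by rw [map_mul, hA, hB, mul_comm]

namespace SK

variable {ι κ : Type} [Fintype ι] [Fintype κ]

/-- Equal weights and components give equal sums. -/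
lemma pt_congr {S E : SK U ι} (ha : ∀ j, S.a j = E.a j)
    (hi : ∀ j w, ((S.D j).inf w).k = ((E.D j).inf w).k)
    (hf : ∀ j v, (S.D j).fin v = (E.D j).fin v) :
    S.pt.k = E.pt.k := by
  funext x y
  simp only [pt_k, ha, KerData.toPtKer_congr (hi _) (hf _)]

/-- Reindexing does not change the sum. -/
lemma pt_reindex (e : κ ≃ ι) (S : SK U ι) :
    (⟨fun l => S.a (e l), fun l => S.D (e l)⟩ : SK U κ).pt.k = S.pt.k := by
  funext x y
  exact e.sum_comp fun j => S.a j * (S.D j).toPtKer.k x y

end SK

/-- A base: a finite weighted family on a fundamental domain. -/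
structure Base (U : Level L) where
  /-- the fundamental domain -/
  s : Set (Space U)
  isFD : IsFundamentalDomain (G2 L) s (Space.vol U)
  finite : IsFiniteMeasure ((Space.vol U).restrict s)
  /-- the index -/
  ι : Type
  [fin : Fintype ι]
  /-- the weights -/
  a : ι → ℝ
  /-- the pieces -/
  D : ι → KerData U
  bdd : ∀ m : Mods U, SK.IsAut (⟨fun j => (a j : ℂ), fun j => m.ext (D j)⟩ : SK U ι)
  real : ∀ j w, ((D j).inf w).IsReal
  herm : ∀ j v, ((D j).fin v).IsHerm
  comm : ∀ j l v, Commute ((D j).fin v) ((D l).fin v)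

attribute [instance] Base.finite Base.fin

namespace Base

variable (B : Base U)

/-- The base sum. -/
def S₀ : SK U B.ι := ⟨fun j => (B.a j : ℂ), B.D⟩

/-- The modified base sum. -/
def extS (m : Mods U) : SK U B.ι := ⟨fun j => (B.a j : ℂ), fun j => m.ext (B.D j)⟩

/-- The sum of a modification. -/
def kerS (m : Mods U) : SK U (B.ι × B.ι) := B.extS m * B.S₀

/-- The modification commutes with the base. -/
def Fits (m : Mods U) : Prop := ∀ j v, Commute (m.A v) ((B.D j).fin v)

/-- The trivial modification fits. -/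
lemma fits_one : B.Fits 1 := fun _ _ => Commute.one_left _

variable {B}

/-- Fitting modifications are closed under products. -/
lemma Fits.mul {m n : Mods U} (hm : B.Fits m) (hn : B.Fits n) : B.Fits (m * n) := fun j v =>
  (hm j v).mul_left (hn j v)

/-- Changing an archimedean component preserves fitting. -/
lemma Fits.setInf {m : Mods U} (hm : B.Fits m) (w : InfinitePlace L) (a : Option InfKer) :
    B.Fits (m.setInf w a) := hm

/-- Changing a commuting finite component preserves fitting. -/
lemma Fits.setFin {m : Mods U} (hm : B.Fits m) {v : HeightOneSpectrum (𝓞 L)} {a : LocKer U v}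
    (ha : ∀ j, Commute a ((B.D j).fin v)) : B.Fits (m.setFin v a) := fun j u => by
  classical
  by_cases h : u = v
  · subst h
    simpa [Mods.setFin] using ha j
  · simpa [Mods.setFin, h] using hm j u

variable (B)

/-- The modified extension is automorphic. -/
lemma isAut_extS (m : Mods U) : (B.extS m).IsAut := B.bdd m

lemma extS_one : (B.extS 1).pt.k = B.S₀.pt.k :=
  SK.pt_congr (fun _ => rfl) (fun _ _ => rfl) fun j v => by simp [extS, S₀, Mods.ext_fin]

/-- The base sum is automorphic. -/
lemma isAut_S₀ : B.S₀.IsAut := (B.isAut_extS 1).congr B.extS_one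

/-- The modified kernel is automorphic. -/
lemma isAut_kerS (m : Mods U) : (B.kerS m).IsAut := B.isAut_S₀.mul_left _ B.isFD

/-- A modified base commutes with the base. -/
theorem extS_mul_comm {m : Mods U} (hm : B.Fits m) :
    (B.extS m * B.S₀).pt.k = (B.S₀ * B.extS m).pt.k := by
  rw [← SK.pt_reindex (Equiv.prodComm B.ι B.ι) (B.S₀ * B.extS m)]
  refine SK.pt_congr (fun i => mul_comm _ _) (fun i w => InfKer.rk_eq.mp ?_) fun i v => ?_
  · simp only [SK.mul_D, extS, S₀, Equiv.prodComm_apply, Prod.fst_swap, Prod.snd_swap,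
      KerData.mul_inf, InfKer.rk_comp]
    exact mul_comm _ _
  · simp only [SK.mul_D, extS, S₀, Equiv.prodComm_apply, Prod.fst_swap, Prod.snd_swap,
      KerData.mul_fin, Mods.ext_fin]
    exact ((hm i.2 v).mul_left (B.comm i.1 i.2 v)).eq

/-- Modifications multiply. -/
theorem kerS_mul {m n : Mods U} (hn : B.Fits n) :
    (B.kerS m * B.kerS n).pt.k = (B.kerS (m * n) * B.kerS 1).pt.k := by
  refine SK.pt_congr (fun _ => rfl) (fun i w => InfKer.rk_eq.mp ?_) fun i v => ?_
  · simp only [kerS, extS, S₀, SK.mul_D, KerData.mul_inf, InfKer.rk_comp, Mods.ext_inf, Mods.mul_q,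
      Mods.one_q]
    rcases m.q w with _ | a <;> rcases n.q w with _ | b <;>
      simp only [Mods.app, Mods.ocomp, Option.elim, InfKer.rk_comp] <;> ac_rfl
  · simp only [kerS, extS, S₀, SK.mul_D, KerData.mul_fin, Mods.ext_fin, Mods.mul_A, Mods.one_A,
      _root_.one_mul, mul_assoc]
    congr 1
    rw [← (hn i.1.2 v).left_comm, ← (hn i.1.1 v).left_comm]

/-- Real modifications with hermitian commuting finite parts give hermitian sums. -/
theorem conj_kerS {m : Mods U} (hm : B.Fits m) (hq : ∀ w, ∀ a ∈ m.q w, InfKer.IsReal a)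
    (hA : ∀ v, (m.A v).IsHerm) (x y : Space U) :
    conj ((B.kerS m).pt.k y x) = (B.kerS m).pt.k x y := by
  refine SK.conj_pt (fun i => ?_) (fun i w => ?_) (fun i v => ?_) x y
  · simp [kerS, extS, S₀, SK.mul_a]
  · show (((m.ext (B.D i.1)).inf w).comp ((B.D i.2).inf w)).IsReal
    refine InfKer.IsReal.comp ?_ (B.real _ _)
    rw [Mods.ext_inf]
    rcases h : m.q w with _ | a
    · exact B.real _ _
    · exact (hq w a h).comp (B.real _ _)
  · show (m.A v * (B.D i.1).fin v * (B.D i.2).fin v).IsHerm
    exact isHerm_mul (isHerm_mul (hA v) (B.herm _ _) (hm _ v)) (B.herm _ _)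
      ((hm i.2 v).mul_left (B.comm i.1 i.2 v))

/-- Real modifications with hermitian commuting finite parts give hermitian modified sums. -/
theorem conj_extS {m : Mods U} (hm : B.Fits m) (hq : ∀ w, ∀ a ∈ m.q w, InfKer.IsReal a)
    (hA : ∀ v, (m.A v).IsHerm) (x y : Space U) :
    conj ((B.extS m).pt.k y x) = (B.extS m).pt.k x y := by
  refine SK.conj_pt (fun i => ?_) (fun i w => ?_) (fun i v => ?_) x y
  · simp [extS]
  · show ((m.ext (B.D i)).inf w).IsReal
    rw [Mods.ext_inf]
    rcases h : m.q w with _ | a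
    · exact B.real _ _
    · exact (hq w a h).comp (B.real _ _)
  · show (m.A v * (B.D i).fin v).IsHerm
    exact isHerm_mul (hA v) (B.herm _ _) (hm _ v)

/-- The Hilbert space. -/
abbrev H := KerData.H B.s

/-- The base operator. -/
def T : B.H →L[ℂ] B.H := B.S₀.op B.s

/-- The operator of a modified base. -/
def extOp (m : Mods U) : B.H →L[ℂ] B.H := (B.extS m).op B.s

/-- The operator of a modification. -/
def kerOp (m : Mods U) : B.H →L[ℂ] B.H := (B.kerS m).op B.s

/-- The modified kernel operator factors through the base operator. -/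
lemma kerOp_eq (m : Mods U) : B.kerOp m = (B.extOp m).comp B.T :=
  SK.op_mul (B.isAut_extS m) B.isAut_S₀ B.isFD

lemma kerOp_eq' {m : Mods U} (hm : B.Fits m) : B.kerOp m = B.T.comp (B.extOp m) :=
  (SK.op_congr (B.extS_mul_comm hm)).trans (SK.op_mul B.isAut_S₀ (B.isAut_extS m) B.isFD)

/-- The extended operator commutes with the base operator. -/
lemma extOp_comm {m : Mods U} (hm : B.Fits m) (g : B.H) :
    B.extOp m (B.T g) = B.T (B.extOp m g) := by
  have h := (B.kerOp_eq m).symm.trans (B.kerOp_eq' hm)
  exact congrArg (fun f : B.H →L[ℂ] B.H => f g) h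

/-- The trivial extension is the base operator. -/
lemma extOp_one : B.extOp 1 = B.T := SK.op_congr B.extS_one

/-- The base operator is self-adjoint. -/
lemma isSymmetric_T : (B.T : B.H →ₗ[ℂ] B.H).IsSymmetric :=
  SK.isSymmetric_op (SK.conj_pt (fun _ => Complex.conj_ofReal _) B.real B.herm)

/-- Self-adjoint extended operators. -/
lemma isSymmetric_extOp {m : Mods U} (hm : B.Fits m) (hq : ∀ w, ∀ a ∈ m.q w, InfKer.IsReal a)
    (hA : ∀ v, (m.A v).IsHerm) : (B.extOp m : B.H →ₗ[ℂ] B.H).IsSymmetric :=
  SK.isSymmetric_op (B.conj_extS hm hq hA)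

/-- Self-adjoint modified operators. -/
lemma isSymmetric_kerOp {m : Mods U} (hm : B.Fits m) (hq : ∀ w, ∀ a ∈ m.q w, InfKer.IsReal a)
    (hA : ∀ v, (m.A v).IsHerm) : (B.kerOp m : B.H →ₗ[ℂ] B.H).IsSymmetric :=
  SK.isSymmetric_op (B.conj_kerS hm hq hA)

/-- The space is second countable. -/
lemma secondCountable : SecondCountableTopology B.H :=
  haveI : Fact ((2 : ℝ≥0∞) ≠ ⊤) := ⟨by norm_num⟩
  inferInstance

/-- The base operator is compact. -/
lemma isCompact_T : IsCompactOperator B.T :=
  SK.isCompactOperator_op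

/-- The base operator is Hilbert–Schmidt. -/
lemma hsBound_T {ι : Type} (e : ι → B.H) (he : Orthonormal ℂ e) (t : Finset ι) :
    ∑ i ∈ t, ‖B.T (e i)‖ ^ 2 ≤
      (B.S₀.autK B.isAut_S₀).bker.C ^ 2 * ((Space.vol U).restrict B.s).real Set.univ ^ 2 := by
  rw [T, SK.op, dif_pos B.isAut_S₀]
  exact BKer.sum_norm_sq_op_le _ he t

open Classical in
/-- Acting at one infinite place after the base. -/
theorem infOp_act (w : InfinitePlace L) (q : InfKer) {f : Space U → ℂ} (hf : Measurable f) {C : ℝ}
    (hC : ∀ y, ‖f y‖ ≤ C) (x : Space U) :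
    infOp w q (B.S₀.pt.act f) x = (B.extS ((1 : Mods U).setInf w (some q))).pt.act f x := by
  rw [(B.extS _).act_eq hf hC]
  set y : H3 → Space U := fun p => (Function.update x.1 w p, x.2)
  have hy : Measurable y := (measurable_update x.1).prodMk measurable_const
  simp only [infOp, B.S₀.act_eq hf hC, Finset.mul_sum]
  rw [integral_finsetSum _ fun j _ => ?_]
  · refine Finset.sum_congr rfl fun j _ => ?_
    simp only [mul_left_comm (q.k _ _)]
    rw [integral_const_mul]
    congr 1
    exact Mods.infOp_act (B.D j) w q hf hC x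
  · refine q.integrable_row (x.1 w) (f := fun p => B.S₀.a j * (B.D j).toPtKer.act f (y p))
      ((((B.D j).measurable_act hf).comp hy).const_mul _)
      (M := ‖B.S₀.a j‖ * ((B.D j).toPtKer.C * C * (B.D j).rowVol)) fun p => ?_
    rw [norm_mul]
    exact mul_le_mul_of_nonneg_left ((B.D j).norm_act_le hC _) (norm_nonneg _)

/-- Acting in one finite component after the base. -/
theorem finOp_act {v : HeightOneSpectrum (𝓞 L)} (A : LocKer U v) {f : Space U → ℂ}
    (hf : Measurable f) {C : ℝ} (hC : ∀ y, ‖f y‖ ≤ C) (x : Space U) :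
    finOp A (B.S₀.pt.act f) x = (B.extS ((1 : Mods U).setFin v A)).pt.act f x := by
  rw [(B.extS _).act_eq hf hC]
  simp only [finOp, B.S₀.act_eq hf hC, Finset.mul_sum]
  rw [Finset.sum_comm]
  refine Finset.sum_congr rfl fun j _ => ?_
  simp only [mul_left_comm (A.k _ _), ← Finset.mul_sum]
  congr 1
  exact finOp_act' (B.D j) A hf hC x

/-- Acting in one finite component before the base. -/
theorem act_finOp {v : HeightOneSpectrum (𝓞 L)} {A : LocKer U v}
    (hA : ∀ j, Commute A ((B.D j).fin v)) {f : Space U → ℂ} (hf : Measurable f) {C : ℝ}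
    (hC : ∀ y, ‖f y‖ ≤ C) (x : Space U) :
    B.S₀.pt.act (finOp A f) x = (B.extS ((1 : Mods U).setFin v A)).pt.act f x := by
  rw [(B.extS _).act_eq hf hC, B.S₀.act_eq (measurable_finOp A hf) (norm_finOp_le A hC)]
  exact Finset.sum_congr rfl fun j _ => congrArg ((B.a j : ℂ) * ·)
    (FermatAgent.LT2.Spec.act_finOp (B.D j) A (hA j) hf hC x)

end Base

end FermatAgent.LT2.Spec

end
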