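import Mathlib
import Fermat.Agent.LT.Base.Isolation
import Fermat.Agent.LT2.Spec.Base

/-!
# Eigenvectors of the base operator of a sum

An eigenvector with nonzero eigenvalue has a bounded invariant representative on which acting in
one component is the operator of the modification.
-/

set_option autoImplicit false

noncomputable section

open Matrix IsDedekindDomain NumberField Filter MeasureTheory
open scoped MatrixGroups ENNReal ComplexConjugate InnerProductSpace

namespace FermatAgent.LT2.Spec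

open FermatAgent.LT

variable {L : Type*} [Field L] [NumberField L] {U : Level L}

/-- A base with an eigenvalue. -/
structure SB (U : Level L) extends Base U where
  /-- the eigenvalue -/
  μ : ℝ
  μ_ne : μ ≠ 0

namespace SB

variable (B : SB U)

/-- The same base with another eigenvalue. -/
abbrev withEig (x : ℝ) (hx : x ≠ 0) : SB U := { B with μ := x, μ_ne := hx }

/-- The eigenspace. -/
abbrev V : Submodule ℂ B.H := Isolation.eig B.T (B.μ : ℂ)

/-- Membership in the eigenspace. -/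
lemma mem_V {g : B.H} : g ∈ B.V ↔ B.T g = (B.μ : ℂ) • g := Module.End.mem_eigenspace_iff

/-- The eigenvalue is nonzero. -/
lemma μc_ne : (B.μ : ℂ) ≠ 0 := Complex.ofReal_ne_zero.mpr B.μ_ne

lemma kerOp_mem {m : Mods U} (hm : B.Fits m) {g : B.H} (hg : g ∈ B.V) : B.kerOp m g ∈ B.V := by
  rw [mem_V] at hg ⊢
  rw [B.kerOp_eq, ContinuousLinearMap.comp_apply, hg, map_smul, map_smul, ← B.extOp_comm hm, hg,
    map_smul]

/-- The action of a modification on the eigenspace. -/
def ρ (m : Mods U) : Module.End ℂ B.V :=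
  open Classical in
  if hm : B.Fits m then
    ((B.μ : ℂ) ^ 2)⁻¹ • (B.kerOp m : B.H →ₗ[ℂ] B.H).restrict fun _ hg => B.kerOp_mem hm hg
  else 0

/-- The action of a modification on the eigenspace. -/
lemma ρ_apply {m : Mods U} (hm : B.Fits m) (g : B.V) :
    ((B.ρ m g : B.V) : B.H) = ((B.μ : ℂ) ^ 2)⁻¹ • B.kerOp m g := by
  rw [ρ, dif_pos hm]
  rfl

/-- The action through the extended operator. -/
lemma ρ_apply_ext {m : Mods U} (hm : B.Fits m) (g : B.V) :
    ((B.ρ m g : B.V) : B.H) = (B.μ : ℂ)⁻¹ • B.extOp m g := by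
  have hμ := B.μc_ne
  rw [ρ_apply B hm, B.kerOp_eq, ContinuousLinearMap.comp_apply, B.mem_V.mp g.2, map_smul,
    smul_smul]
  congr 1
  field_simp

/-- The trivial modification acts trivially. -/
lemma ρ_one : B.ρ 1 = 1 := by
  refine LinearMap.ext fun g => Subtype.ext ?_
  rw [B.ρ_apply_ext B.fits_one, B.extOp_one, B.mem_V.mp g.2, smul_smul,
    inv_mul_cancel₀ B.μc_ne, one_smul]
  rfl

/-- The action is multiplicative. -/
theorem ρ_mul {m n : Mods U} (hm : B.Fits m) (hn : B.Fits n) :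
    B.ρ (m * n) = B.ρ m * B.ρ n := by
  refine LinearMap.ext fun g => Subtype.ext ?_
  have hμ := B.μc_ne
  have hk : (B.kerOp m).comp (B.kerOp n) = (B.kerOp (m * n)).comp (B.kerOp 1) := by
    unfold Base.kerOp
    rw [← SK.op_mul (B.isAut_kerS _) (B.isAut_kerS _) B.isFD,
      ← SK.op_mul (B.isAut_kerS _) (B.isAut_kerS _) B.isFD]
    exact SK.op_congr (B.kerS_mul hn)
  have h1 : B.kerOp 1 g = ((B.μ : ℂ) ^ 2) • (g : B.H) := by
    rw [B.kerOp_eq, ContinuousLinearMap.comp_apply, B.extOp_one, B.mem_V.mp g.2, map_smul,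
      B.mem_V.mp g.2, smul_smul, sq]
  rw [Module.End.mul_apply, B.ρ_apply (hm.mul hn), B.ρ_apply hm, B.ρ_apply hn, map_smul,
    show B.kerOp m (B.kerOp n g) = (B.kerOp m).comp (B.kerOp n) g from rfl, hk,
    ContinuousLinearMap.comp_apply, h1, map_smul, smul_smul, smul_smul]
  congr 1
  field_simp

/-- The action is self-adjoint. -/
lemma isSymmetric_ρ {m : Mods U} (hm : B.Fits m) (hq : ∀ w, ∀ a ∈ m.q w, InfKer.IsReal a)
    (hA : ∀ v, (m.A v).IsHerm) : LinearMap.IsSymmetric (B.ρ m) := by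
  intro f g
  show ⟪((B.ρ m f : B.V) : B.H), (g : B.H)⟫_ℂ = ⟪(f : B.H), ((B.ρ m g : B.V) : B.H)⟫_ℂ
  rw [B.ρ_apply hm, B.ρ_apply hm, inner_smul_left, inner_smul_right]
  congr 1
  · simp
  · exact B.isSymmetric_kerOp hm hq hA f g

/-- Linearity passes from kernels to the eigenspace. -/
theorem ρ_lin {m a b : Mods U} (hm : B.Fits m) (ha : B.Fits a) (hb : B.Fits b) (c : ℂ)
    (h : ∀ x y, (B.kerS m).pt.k x y = (B.kerS a).pt.k x y + c * (B.kerS b).pt.k x y) :
    B.ρ m = B.ρ a + c • B.ρ b := by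
  refine LinearMap.ext fun g => Subtype.ext ?_
  have e : B.kerOp m = B.kerOp a + c • B.kerOp b :=
    SK.op_lin (B.isAut_kerS _) (B.isAut_kerS _) (B.isAut_kerS _) c h
  rw [LinearMap.add_apply, LinearMap.smul_apply, Submodule.coe_add, Submodule.coe_smul,
    B.ρ_apply hm, B.ρ_apply ha, B.ρ_apply hb, e, _root_.add_apply,
    _root_.smul_apply, smul_add, smul_comm]

/-- The representative of an element of the space. -/
def rep (g : B.H) (x : Space U) : ℂ :=
  (B.μ : ℂ)⁻¹ * ∫ y in B.s, B.S₀.pt.aut x y * g y ∂Space.vol U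

/-- Representatives are invariant. -/
lemma rep_inv (g : B.H) (γ : G2 L) (x : Space U) : B.rep g (γ • x) = B.rep g x := by
  simp only [rep, PtKer.aut_smul_left]

/-- Representatives are measurable. -/
lemma measurable_rep (g : B.H) : Measurable (B.rep g) :=
  ((BKer.measurable_applyFun (B.S₀.autK B.isAut_S₀).bker g).measurable).const_mul _

/-- Representatives are bounded. -/
lemma rep_bdd (g : B.H) : ∃ C, ∀ x, ‖B.rep g x‖ ≤ C := by
  refine ⟨‖(B.μ : ℂ)⁻¹‖ *
    ((B.S₀.autK B.isAut_S₀).bker.C * ∫ y in B.s, ‖g y‖ ∂Space.vol U), fun x => ?_⟩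
  rw [rep, norm_mul]
  exact mul_le_mul_of_nonneg_left (BKer.norm_applyFun_le (B.S₀.autK B.isAut_S₀).bker g x)
    (norm_nonneg _)

/-- Representatives represent their vectors. -/
lemma rep_ae {g : B.H} (hg : g ∈ B.V) : g =ᵐ[(Space.vol U).restrict B.s] B.rep g := by
  filter_upwards [SK.op_apply_ae B.isAut_S₀ g, Lp.coeFn_smul (B.μ : ℂ) g] with x h1 h2
  rw [show B.S₀.op B.s g = (B.μ : ℂ) • g from B.mem_V.mp hg, h2, Pi.smul_apply, smul_eq_mul] at h1
  rw [rep, ← h1, inv_mul_cancel_left₀ B.μc_ne]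

lemma rep_eq_zero {g : B.H} (hg : g ∈ B.V) (h : ∀ x, B.rep g x = 0) : g = 0 := by
  refine Lp.ext ?_
  filter_upwards [B.rep_ae hg, Lp.coeFn_zero ℂ 2 ((Space.vol U).restrict B.s)] with x h1 h2
  rw [h1, h, h2, Pi.zero_apply]

/-- Representatives are homogeneous. -/
lemma rep_smul (c : ℂ) (g : B.H) (x : Space U) : B.rep (c • g) x = c * B.rep g x := by
  simp only [rep, mul_left_comm c]
  congr 1
  rw [← integral_const_mul]
  refine integral_congr_ae ?_
  filter_upwards [Lp.coeFn_smul c g] with y hy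
  rw [hy, Pi.smul_apply, smul_eq_mul]
  ring

/-- The representative is an eigenfunction of the base. -/
lemma act_rep {g : B.H} (hg : g ∈ B.V) (x : Space U) :
    B.S₀.pt.act (B.rep g) x = (B.μ : ℂ) * B.rep g x := by
  obtain ⟨C, hC⟩ := B.rep_bdd g
  rw [PtKer.act, B.S₀.pt.integral_row_eq_setIntegral (B.measurable_rep g) (B.rep_inv g) hC
    B.isFD, rep, mul_inv_cancel_left₀ B.μc_ne]
  refine integral_congr_ae ?_
  filter_upwards [B.rep_ae hg] with y hy
  rw [hy]

/-- Representatives are eigenfunctions of the base sum. -/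
lemma act_rep_eq {g : B.H} (hg : g ∈ B.V) :
    B.S₀.pt.act (B.rep g) = fun y => (B.μ : ℂ) * B.rep g y := funext (B.act_rep hg)

/-- The modified base acts on representatives as the operator, everywhere. -/
theorem act_ext_rep {m : Mods U} (hm : B.Fits m) (g : B.V) (x : Space U) :
    (B.extS m).pt.act (B.rep g) x = (B.μ : ℂ) * B.rep (B.ρ m g : B.V) x := by
  obtain ⟨C, hC⟩ := B.rep_bdd g
  set E := B.extS m
  set F := E.pt.act (B.rep g)
  have hrm := B.measurable_rep (g : B.H)
  obtain ⟨C', hC'⟩ := E.exists_norm_act_le hrm hC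
  have hFm : Measurable F := E.measurable_act hrm hC
  have hFi : ∀ (γ : G2 L) y, F (γ • y) = F y := fun γ y => E.pt.act_smul (B.rep_inv g) γ y
  have hae : F =ᵐ[(Space.vol U).restrict B.s] fun y => (B.μ : ℂ) * (B.ρ m g : B.H) y := by
    filter_upwards [SK.op_apply_invariant (B.isAut_extS m) B.isFD hrm (B.rep_inv g) hC
      (B.rep_ae g.2), Lp.coeFn_smul (B.μ : ℂ)⁻¹ (B.extOp m g)] with y h1 h2
    rw [B.ρ_apply_ext hm, h2, Pi.smul_apply, smul_eq_mul, mul_inv_cancel_left₀ B.μc_ne]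
    exact h1.symm
  have key : (B.μ : ℂ) * F x = B.S₀.pt.act F x := by
    have h1 : (E * B.S₀).pt.act (B.rep g) x = (B.S₀ * E).pt.act (B.rep g) x := by
      rw [PtKer.act_congr (B.extS_mul_comm hm)]
    rw [SK.act_mul E hrm hC, SK.act_mul B.S₀ hrm hC, B.act_rep_eq g.2, SK.act_const_mul] at h1
    exact h1
  rw [PtKer.act, B.S₀.pt.integral_row_eq_setIntegral hFm hFi hC' B.isFD] at key
  refine mul_left_cancel₀ B.μc_ne (key.trans ?_)
  rw [rep, mul_inv_cancel_left₀ B.μc_ne, ← integral_const_mul]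
  refine integral_congr_ae ?_
  filter_upwards [hae] with y hy
  rw [hy, mul_left_comm]

/-- Acting at one infinite place on a representative. -/
theorem infOp_rep (w : InfinitePlace L) (q : InfKer) (g : B.V) (x : Space U) :
    infOp w q (B.rep g) x = B.rep (B.ρ ((1 : Mods U).setInf w (some q)) g : B.V) x := by
  obtain ⟨C, hC⟩ := B.rep_bdd g
  have h := B.infOp_act w q (B.measurable_rep g) hC x
  rw [B.act_ext_rep (B.fits_one.setInf w (some q)), B.act_rep_eq g.2] at h
  refine mul_left_cancel₀ B.μc_ne (Eq.trans ?_ h)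
  simp only [infOp, ← integral_const_mul, mul_left_comm]

/-- Acting in one finite component on a representative. -/
theorem finOp_rep {v : HeightOneSpectrum (𝓞 L)} {A : LocKer U v}
    (hA : ∀ j, Commute A ((B.D j).fin v)) (g : B.V) (x : Space U) :
    finOp A (B.rep g) x = B.rep (B.ρ ((1 : Mods U).setFin v A) g : B.V) x := by
  obtain ⟨C, hC⟩ := B.rep_bdd g
  have h := B.finOp_act A (B.measurable_rep g) hC x
  rw [B.act_ext_rep (B.fits_one.setFin hA), B.act_rep_eq g.2] at h
  refine mul_left_cancel₀ B.μc_ne (Eq.trans ?_ h)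
  simp only [finOp, Finset.mul_sum, mul_left_comm]

/-- An eigenfunction of the base gives a member of the eigenspace represented by itself. -/
theorem exists_rep_eq {φ : Space U → ℂ} (hm : Measurable φ) {C : ℝ} (hC : ∀ y, ‖φ y‖ ≤ C)
    (hinv : ∀ (γ : G2 L) y, φ (γ • y) = φ y)
    (heig : ∀ x, B.S₀.pt.act φ x = (B.μ : ℂ) * φ x) : ∃ g : B.V, B.rep g = φ := by
  have hφ : MemLp φ 2 ((Space.vol U).restrict B.s) :=
    MemLp.of_bound hm.aestronglyMeasurable C (ae_of_all _ hC)
  have hmem : hφ.toLp φ ∈ B.V := by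
    refine B.mem_V.mpr (Lp.ext ?_)
    filter_upwards [SK.op_apply_invariant B.isAut_S₀ B.isFD hm hinv hC hφ.coeFn_toLp,
      Lp.coeFn_smul (B.μ : ℂ) (hφ.toLp φ), hφ.coeFn_toLp] with x h1 h2 h3
    rw [h2, Pi.smul_apply, smul_eq_mul, h3, ← heig]
    exact h1
  refine ⟨⟨_, hmem⟩, funext fun x => ?_⟩
  have h := heig x
  rw [PtKer.act, B.S₀.pt.integral_row_eq_setIntegral hm hinv hC B.isFD] at h
  rw [rep]
  have e : ∫ y in B.s, B.S₀.pt.aut x y * hφ.toLp φ y ∂Space.vol U =
      ∫ y in B.s, B.S₀.pt.aut x y * φ y ∂Space.vol U := by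
    refine integral_congr_ae ?_
    filter_upwards [hφ.coeFn_toLp] with y hy
    rw [hy]
  show (B.μ : ℂ)⁻¹ * ∫ y in B.s, B.S₀.pt.aut x y * hφ.toLp φ y ∂Space.vol U = _
  rw [e, h, inv_mul_cancel_left₀ B.μc_ne]

/-- Vectors are determined by representatives. -/
lemma eq_smul_of_rep {a g : B.V} {c : ℂ} (h : ∀ x, B.rep a x = c * B.rep g x) : a = c • g := by
  refine Subtype.ext (Lp.ext ?_)
  rw [Submodule.coe_smul]
  filter_upwards [B.rep_ae a.2, B.rep_ae g.2, Lp.coeFn_smul c (g : B.H)] with x h1 h2 h3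
  rw [h1, h3, Pi.smul_apply, smul_eq_mul, h2, h]

/-- Nonzero vectors have nonzero representatives. -/
lemma rep_ne_zero {g : B.V} (hg : g ≠ 0) : ∃ x, B.rep g x ≠ 0 := by
  by_contra h
  push Not at h
  exact hg (Subtype.ext (B.rep_eq_zero g.2 h))

instance instFiniteDimV : FiniteDimensional ℂ B.V :=
  haveI := B.secondCountable
  B.T.finite_dimensional_eigenspace B.isCompact_T (B.μ : ℂ) B.μc_ne

end SB

end FermatAgent.LT2.Spec

end
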