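import Mathlib
import Fermat.Agent.LT.Descent.Spec.Slots
import Fermat.Agent.LT2.Spec.Eigen

/-!
# Slots and projectors on the eigenspaces of a sum

The modifications of one component form algebras acting on the eigenspaces; one member projects
simultaneously above and below on prescribed eigenvalues.
-/

set_option autoImplicit false

noncomputable section

open Matrix IsDedekindDomain NumberField Filter MeasureTheory
open scoped MatrixGroups ENNReal ComplexConjugate InnerProductSpace ContDiff

namespace FermatAgent.LT2.Spec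

open FermatAgent.LT
open FermatAgent.LT.Spec
  (profileOf radOf mem_radOf InfSlot exists_projector_inf exists_projector_poly)

namespace Base

variable {L : Type*} [Field L] [NumberField L] {U : Level L} (B : Base U)

/-- Every kernel at the place commutes with the base. -/
def Free (v : HeightOneSpectrum (𝓞 L)) : Prop :=
  ∀ (A : LocKer U v) (j : B.ι), Commute A ((B.D j).fin v)

open Classical in
/-- Linearity in one component at infinity. -/
theorem kerS_lin_inf (m : Mods U) (w : InfinitePlace L) (a b : InfKer) (c : ℂ) (x y : Space U) :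
    (B.kerS (m.setInf w (some (a.add (b.smul c))))).pt.k x y =
      (B.kerS (m.setInf w (some a))).pt.k x y + c * (B.kerS (m.setInf w (some b))).pt.k x y := by
  simp only [SK.pt_k, Finset.mul_sum, ← Finset.sum_add_distrib]
  refine Finset.sum_congr rfl fun i _ => ?_
  rw [KerData.lin_inf (D := (B.kerS (m.setInf w (some (a.add (b.smul c))))).D i)
    (A := (B.kerS (m.setInf w (some a))).D i) (B := (B.kerS (m.setInf w (some b))).D i) w c
    (fun p r => ?_) (fun w' hw' => ?_) (fun w' hw' => ?_) (fun _ => rfl) (fun _ => rfl) x y]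
  · simp only [kerS, extS, S₀, SK.mul_a]
    ring
  · simp only [kerS, extS, S₀, SK.mul_D, KerData.mul_inf, Mods.ext_inf, Mods.setInf,
      Function.update_self, Mods.app, Option.elim]
    have e : ((a.add (b.smul c)).comp ((B.D i.1).inf w)).k =
        ((a.comp ((B.D i.1).inf w)).add ((b.comp ((B.D i.1).inf w)).smul c)).k :=
      funext fun p => funext fun r => by rw [InfKer.add_comp, InfKer.smul_comp]; rfl
    rw [InfKer.comp_congr e rfl, InfKer.add_comp, InfKer.smul_comp]
  all_goals simp only [kerS, extS, S₀, SK.mul_D, KerData.mul_inf, Mods.ext_inf, Mods.setInf,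
    Function.update_of_ne hw']

open Classical in
/-- Linearity in one finite component. -/
theorem kerS_lin_fin (m : Mods U) (v : HeightOneSpectrum (𝓞 L)) (a b : LocKer U v) (c : ℂ)
    (x y : Space U) :
    (B.kerS (m.setFin v (a.lin b c))).pt.k x y =
      (B.kerS (m.setFin v a)).pt.k x y + c * (B.kerS (m.setFin v b)).pt.k x y := by
  simp only [SK.pt_k, Finset.mul_sum, ← Finset.sum_add_distrib]
  refine Finset.sum_congr rfl fun i _ => ?_
  rw [KerData.lin_fin (D := (B.kerS (m.setFin v (a.lin b c))).D i)
    (A := (B.kerS (m.setFin v a)).D i) (B := (B.kerS (m.setFin v b)).D i) v c ?_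
    (fun _ => rfl) (fun _ => rfl) (fun v' hv' => ?_) (fun v' hv' => ?_) x y]
  · simp only [kerS, extS, S₀, SK.mul_a]
    ring
  · simp only [kerS, extS, S₀, SK.mul_D, KerData.mul_fin, Mods.ext_fin, Mods.setFin,
      Function.update_self, LocKer.lin_mul]
  all_goals simp only [kerS, extS, S₀, SK.mul_D, KerData.mul_fin, Mods.ext_fin, Mods.setFin,
    Function.update_of_ne hv']

end Base

namespace SB

variable {L : Type} [Field L] [NumberField L] {U : Level L} (B : SB U)

/-- The slot at infinity. -/
def slotI (w : InfinitePlace L) (q : InfKer) : Module.End ℂ B.V :=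
  B.ρ ((1 : Mods U).setInf w (some q))

/-- The slot at a finite place. -/
def slotF (v : HeightOneSpectrum (𝓞 L)) (A : LocKer U v) : Module.End ℂ B.V :=
  B.ρ ((1 : Mods U).setFin v A)

/-- Modifications with the same kernels act alike. -/
theorem ρ_congr {m n : Mods U} (hm : B.Fits m) (hn : B.Fits n)
    (hq : ∀ w, (m.q w).map InfKer.k = (n.q w).map InfKer.k) (hA : ∀ v, m.A v = n.A v) :
    B.ρ m = B.ρ n := by
  refine LinearMap.ext fun g => Subtype.ext ?_
  rw [B.ρ_apply hm, B.ρ_apply hn, Base.kerOp, Base.kerOp,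
    SK.op_congr (SK.pt_congr (S := B.kerS m) (E := B.kerS n) (fun _ => rfl)
      (fun i w => ?_) fun i v => ?_)]
  · show (((m.ext (B.D i.1)).inf w).comp ((B.D i.2).inf w)).k =
      (((n.ext (B.D i.1)).inf w).comp ((B.D i.2).inf w)).k
    rw [Mods.ext_inf, Mods.ext_inf]
    have h := hq w
    revert h
    rcases m.q w with _ | a <;> rcases n.q w with _ | b <;> intro h <;>
      simp only [Option.map_none, Option.map_some, reduceCtorEq, Option.some.injEq] at h
    · rfl
    · exact InfKer.comp_congr (InfKer.comp_congr h rfl) rfl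
  · simp only [Base.kerS, Base.extS, Base.S₀, SK.mul_D, KerData.mul_fin, Mods.ext_fin, hA]

lemma slotI_congr (w : InfinitePlace L) {q q' : InfKer} (h : q.k = q'.k) :
    B.slotI w q = B.slotI w q' := by
  refine B.ρ_congr (B.fits_one.setInf _ _) (B.fits_one.setInf _ _) (fun w' => ?_)
    fun _ => rfl
  classical
  by_cases e : w' = w
  · subst e; simp [Mods.setInf, h]
  · simp [Mods.setInf, e]

lemma slotI_lin (w : InfinitePlace L) (a b : InfKer) (c : ℂ) :
    B.slotI w (a.add (b.smul c)) = B.slotI w a + c • B.slotI w b :=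
  B.ρ_lin (B.fits_one.setInf _ _) (B.fits_one.setInf _ _)
    (B.fits_one.setInf _ _) c fun x y => B.kerS_lin_inf 1 w a b c x y

/-- Archimedean slots are multiplicative. -/
lemma slotI_mul (w : InfinitePlace L) (a b : InfKer) :
    B.slotI w (a.comp b) = B.slotI w a * B.slotI w b := by
  classical
  rw [slotI, slotI, slotI, ← B.ρ_mul (B.fits_one.setInf _ _) (B.fits_one.setInf _ _)]
  refine B.ρ_congr (B.fits_one.setInf _ _)
    ((B.fits_one.setInf _ _).mul (B.fits_one.setInf _ _)) (fun w' => ?_)
    fun v => by simp [Mods.setInf, Mods.mul_A]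
  by_cases e : w' = w
  · subst e; simp [Mods.setInf, Mods.mul_q, Mods.ocomp]
  · simp [Mods.setInf, e, Mods.mul_q, Mods.ocomp]

lemma slotI_comm (w : InfinitePlace L) (a b : InfKer) : Commute (B.slotI w a) (B.slotI w b) := by
  rw [Commute, SemiconjBy, ← slotI_mul, ← slotI_mul,
    B.slotI_congr w (funext fun p => funext fun r => InfKer.comp_comm a b p r)]

/-- Real kernels give self-adjoint slots. -/
lemma slotI_symm (w : InfinitePlace L) {q : InfKer} (hq : q.IsReal) :
    LinearMap.IsSymmetric (B.slotI w q) := by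
  classical
  refine B.isSymmetric_ρ (B.fits_one.setInf _ _) (fun w' a ha => ?_)
    fun _ => LocKer.isHerm_one
  by_cases e : w' = w
  · subst e
    simp [Mods.setInf] at ha
    exact ha ▸ hq
  · simp [Mods.setInf, e] at ha

variable {v : HeightOneSpectrum (𝓞 L)} (hv : B.Free v)
include hv

lemma slotF_lin (a b : LocKer U v) (c : ℂ) :
    B.slotF v (a.lin b c) = B.slotF v a + c • B.slotF v b :=
  B.ρ_lin (B.fits_one.setFin (hv _)) (B.fits_one.setFin (hv _))
    (B.fits_one.setFin (hv _)) c fun x y => B.kerS_lin_fin 1 v a b c x y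

/-- Finite slots are multiplicative. -/
lemma slotF_mul (a b : LocKer U v) : B.slotF v (a * b) = B.slotF v a * B.slotF v b := by
  classical
  rw [slotF, slotF, slotF, ← B.ρ_mul (B.fits_one.setFin (hv _)) (B.fits_one.setFin (hv _))]
  refine B.ρ_congr (B.fits_one.setFin (hv _))
    ((B.fits_one.setFin (hv _)).mul (B.fits_one.setFin (hv _)))
    (fun w' => by simp [Mods.setFin, Mods.mul_q, Mods.ocomp]) fun u => ?_
  by_cases e : u = v
  · subst e; simp [Mods.setFin, Mods.mul_A]
  · simp [Mods.setFin, e, Mods.mul_A]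

/-- Hermitian kernels give self-adjoint slots. -/
lemma slotF_symm {A : LocKer U v} (hA : A.IsHerm) :
    LinearMap.IsSymmetric (B.slotF v A) := by
  refine B.isSymmetric_ρ (B.fits_one.setFin (hv _)) (fun w q hq => by simp [Mods.setFin] at hq)
    fun u => ?_
  classical
  by_cases e : u = v
  · subst e; simpa [Mods.setFin] using hA
  · simpa [Mods.setFin, e] using LocKer.isHerm_one

lemma slotF_one : B.slotF v (1 : LocKer U v) = 1 := by
  classical
  rw [slotF, ← B.ρ_one]
  refine B.ρ_congr (B.fits_one.setFin (hv _)) B.fits_one (fun _ => rfl) fun u => ?_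
  by_cases e : u = v
  · subst e; simp [Mods.setFin]
  · simp [Mods.setFin, e]

lemma slotF_pow (a : LocKer U v) (n : ℕ) : B.slotF v (a ^ n) = B.slotF v a ^ n := by
  induction n with
  | zero => rw [pow_zero, pow_zero, B.slotF_one hv]
  | succ n ih => rw [pow_succ, pow_succ, B.slotF_mul hv, ih]

/-- Polynomials in a slot. -/
lemma slotF_poly (a : LocKer U v) (P : ℕ → ℂ) (n : ℕ) :
    B.slotF v (a.poly P n) = ∑ i ∈ Finset.range (n + 1), P i • B.slotF v a ^ i := by
  induction n with
  | zero =>
    rw [LocKer.poly, B.slotF_lin hv, B.slotF_one hv, Finset.sum_range_one, pow_zero]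
    module
  | succ n ih =>
    rw [LocKer.poly, B.slotF_lin hv, ih, B.slotF_pow hv,
      ← Finset.sum_range_succ (fun i => P i • B.slotF v a ^ i) (n + 1)]

omit hv

open Classical in
/-- The same kernel at a set of infinite places. -/
def onInf (s : Finset (InfinitePlace L)) (q : InfKer) : Mods U :=
  { (1 : Mods U) with q := fun w => if w ∈ s then some q else none }

/-- Archimedean products fit. -/
lemma fits_onInf (s : Finset (InfinitePlace L)) (q : InfKer) :
    B.Fits (onInf (U := U) s q) := fun _ _ => Commute.one_left _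

open Classical in
/-- One step of an archimedean product. -/
lemma ρ_onInf_insert {s : Finset (InfinitePlace L)} {w : InfinitePlace L} (hw : w ∉ s)
    (q : InfKer) :
    B.ρ (onInf (insert w s) q) = B.slotI w q * B.ρ (onInf s q) := by
  rw [slotI, ← B.ρ_mul (B.fits_one.setInf _ _) (B.fits_onInf s q)]
  refine B.ρ_congr (B.fits_onInf _ q) ((B.fits_one.setInf _ _).mul (B.fits_onInf s q))
    (fun w' => ?_) fun v => by simp [onInf, Mods.setInf, Mods.mul_A]
  by_cases e : w' = w
  · subst e; simp [onInf, Mods.setInf, Mods.mul_q, Mods.ocomp, hw]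
  · by_cases h' : w' ∈ s <;> simp [onInf, Mods.setInf, Mods.mul_q, Mods.ocomp, e, h']

/-- The empty archimedean product. -/
lemma ρ_onInf_empty (q : InfKer) : B.ρ (onInf ∅ q) = 1 := by
  rw [← B.ρ_one]
  exact B.ρ_congr (B.fits_onInf ∅ q) B.fits_one (fun w => by simp [onInf]) fun _ => rfl

open Classical in
/-- Given kernels at a set of finite places. -/
def onFin (s : Finset (HeightOneSpectrum (𝓞 L))) (A : ∀ v, LocKer U v) : Mods U where
  q := fun _ => none
  A v := if v ∈ s then A v else 1
  S := s
  A_one _ hv := if_neg hv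

open Classical in
/-- Finite products fit. -/
lemma fits_onFin {s : Finset (HeightOneSpectrum (𝓞 L))} (hs : ∀ v ∈ s, B.Free v)
    (A : ∀ v, LocKer U v) : B.Fits (onFin s A) := fun j v => by
  by_cases h : v ∈ s
  · exact hs v h _ j
  · rw [show (onFin s A).A v = 1 from if_neg h]; exact Commute.one_left _

open Classical in
/-- One step of a finite product. -/
lemma ρ_onFin_insert {s : Finset (HeightOneSpectrum (𝓞 L))} {v : HeightOneSpectrum (𝓞 L)}
    (hv : v ∉ s) (hs : ∀ u ∈ insert v s, B.Free u) (A : ∀ v, LocKer U v) :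
    B.ρ (onFin (insert v s) A) = B.slotF v (A v) * B.ρ (onFin s A) := by
  have h1 := B.fits_one.setFin (hs v (Finset.mem_insert_self _ _) (A v))
  have h2 := B.fits_onFin (fun u hu => hs u (Finset.mem_insert_of_mem hu)) A
  rw [slotF, ← B.ρ_mul h1 h2]
  refine B.ρ_congr (B.fits_onFin hs A) (h1.mul h2)
    (fun w' => by simp [onFin, Mods.setFin, Mods.mul_q, Mods.ocomp]) fun u => ?_
  by_cases e : u = v
  · subst e; simp [onFin, Mods.setFin, Mods.mul_A, hv]
  · by_cases h' : u ∈ s <;> simp [onFin, Mods.setFin, Mods.mul_A, e, h']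

/-- The empty finite product. -/
lemma ρ_onFin_empty (A : ∀ v, LocKer U v) : B.ρ (onFin ∅ A) = 1 := by
  rw [← B.ρ_one]
  exact B.ρ_congr (B.fits_onFin (by simp) A) B.fits_one (fun _ => rfl)
    fun v => by simp [onFin]

end SB


variable {K L : Type} [Field K] [NumberField K] [Field L] [NumberField L]
  {UL : Level L} {UK : Level K} (BL : SB UL) (BK : SB UK)

variable [FiniteDimensional ℂ BL.V] [FiniteDimensional ℂ BK.V]

/-- The radial target eigenspace above at one place. -/
def radEig {M : Type} [Field M] [NumberField M] {U : Level M} (B : SB U) (w : InfinitePlace M) :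
    Submodule ℂ B.V :=
  radOf (B.slotI w)

/-- Membership in the radial eigenspace. -/
lemma mem_radEig {M : Type} [Field M] [NumberField M] {U : Level M} (B : SB U)
    (w : InfinitePlace M) {g : B.V} : g ∈ radEig B w ↔
      ∀ k hk hs, B.slotI w (profileOf k hk hs).ker g = Whit.hT k • g :=
  mem_radOf _

lemma infSlot {M : Type} [Field M] [NumberField M] {U : Level M} (B : SB U)
    (w : InfinitePlace M) : InfSlot (B.slotI w) :=
  ⟨B.slotI_lin w, B.slotI_mul w, B.slotI_comm w, fun _ h => B.slotI_symm w h⟩

/-- One invariant kernel projects on the radial eigenspaces above and below. -/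
theorem exists_infProjector (v : InfinitePlace K) :
    ∃ q : InfKer, q.IsFlip ∧
      (∀ w, (∀ g ∈ radEig BL w, BL.slotI w q g = g) ∧ ∀ g, BL.slotI w q g ∈ radEig BL w) ∧
      (∀ g ∈ radEig BK v, BK.slotI v q g = g) ∧ ∀ g, BK.slotI v q g ∈ radEig BK v :=
  exists_projector_inf (fun w => infSlot BL w) (infSlot BK v)

/-- One polynomial projects on the eigenspaces of local kernels above and below. -/
theorem exists_finProjector {ι : Type} [Fintype ι] (p : ι → HeightOneSpectrum (𝓞 L))
    (v : HeightOneSpectrum (𝓞 K)) (hpL : ∀ i, BL.Free (p i)) (hvK : BK.Free v)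
    (hL : ∀ i, LocKer UL (p i)) (hK : LocKer UK v) (hLh : ∀ i, (hL i).IsHerm) (hKh : hK.IsHerm)
    (c : ℂ) :
    ∃ (P : ℕ → ℂ) (n : ℕ),
      (∀ i, (∀ g, BL.slotF (p i) (hL i) g = c • g → BL.slotF (p i) ((hL i).poly P n) g = g) ∧
        ∀ g, BL.slotF (p i) (hL i) (BL.slotF (p i) ((hL i).poly P n) g) =
          c • BL.slotF (p i) ((hL i).poly P n) g) ∧
      (∀ g, BK.slotF v hK g = c • g → BK.slotF v (hK.poly P n) g = g) ∧
        ∀ g, BK.slotF v hK (BK.slotF v (hK.poly P n) g) = c • BK.slotF v (hK.poly P n) g := by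
  classical
  have hsymmL : ∀ i, LinearMap.IsSymmetric (BL.slotF (p i) (hL i)) := fun i =>
    BL.slotF_symm (hpL i) (hLh i)
  have hsymmK : LinearMap.IsSymmetric (BK.slotF v hK) := BK.slotF_symm hvK hKh
  obtain ⟨P, n, hPL, hPK⟩ := exists_projector_poly hsymmL hsymmK c
  refine ⟨P, n, fun i => ?_, ?_⟩
  · simpa only [BL.slotF_poly (hpL i)] using hPL i
  · simpa only [BK.slotF_poly hvK] using hPK

end FermatAgent.LT2.Spec
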