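import Mathlib
import Fermat.Agent.LT2.Spec.Isolation
import Fermat.Agent.LT2.Spec.Slots

/-!
# Twisted operators of a base sum and their trace terms

For a modification `m` and a measurable map `σ`, `trTerm m σ i` is the integral over the domain,
along the graph of `σ`, of the automorphic kernel of `m` composed with powers of the base.  With
the coefficients of a polynomial `p` these terms give the trace of `T ∘ tw m σ ∘ p(T) ∘ T`
(`hasSum_poly`), and they are linear in each finite component of `m`.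
-/

set_option autoImplicit false

noncomputable section

open Matrix IsDedekindDomain NumberField Filter MeasureTheory
open scoped MatrixGroups ENNReal ComplexConjugate InnerProductSpace Topology

namespace FermatAgent.LT2.Spec

open FermatAgent.LT
open FermatAgent.LT.Isolation (cutTo)

/-- The index of the powers of a family. -/
abbrev PIx (ι : Type) : ℕ → Type
  | 0 => ι
  | i + 1 => PIx ι i × ι

instance fintypePIx (ι : Type) [Fintype ι] : ∀ i, Fintype (PIx ι i)
  | 0 => inferInstanceAs (Fintype ι)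
  | i + 1 => haveI := fintypePIx ι i; inferInstanceAs (Fintype (PIx ι i × ι))

/-- The index of the trace terms. -/
abbrev TIx (ι : Type) (i : ℕ) : Type := ((ι × ι) × PIx ι i) × ι

variable {L : Type} [Field L] [NumberField L] {U : Level L}

namespace SK

variable {ι κ μ : Type} [Fintype ι] [Fintype κ] [Fintype μ]

/-- Products are linear on the left. -/
theorem mul_lin (S A B : SK U ι) (E : SK U κ) (c : ℂ)
    (h : ∀ x y, S.pt.k x y = A.pt.k x y + c * B.pt.k x y) (x z : Space U) :
    (S * E).pt.k x z = (A * E).pt.k x z + c * (B * E).pt.k x z := by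
  rw [← congrFun (congrFun (S.pt_mul E) x) z, ← congrFun (congrFun (A.pt_mul E) x) z,
    ← congrFun (congrFun (B.pt_mul E) x) z]
  show ∫ y, S.pt.k x y * E.pt.k y z ∂Space.vol U = (∫ y, A.pt.k x y * E.pt.k y z ∂Space.vol U) +
    c * ∫ y, B.pt.k x y * E.pt.k y z ∂Space.vol U
  have hm : Measurable fun y => E.pt.k y z :=
    E.pt.meas.comp (f := fun y : Space U => (y, z)) (measurable_id.prodMk measurable_const)
  rw [← integral_const_mul, ← integral_add (A.pt.integrable_row x hm fun y => E.pt.bound y z)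
    ((B.pt.integrable_row x hm fun y => E.pt.bound y z).const_mul c)]
  exact integral_congr_ae (ae_of_all _ fun y => by simp only [h]; ring)

/-- The twisted diagonal of a bounded automorphisation is integrable on a domain of finite
volume. -/
lemma integrable_diag {S : SK U ι} (hS : S.IsAut) {σ : Space U → Space U} (hσ : Measurable σ)
    {s : Set (Space U)} [IsFiniteMeasure ((Space.vol U).restrict s)] :
    Integrable (fun x => S.pt.aut (σ x) x) ((Space.vol U).restrict s) := by
  obtain ⟨B, hB⟩ := hS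
  exact Integrable.of_bound (S.pt.measurable_aut.comp (f := fun x : Space U => (σ x, x))
    (hσ.prodMk measurable_id)).aestronglyMeasurable B (ae_of_all _ fun x => hB _ _)

end SK

namespace Base

variable (B : Base U)

/-- Powers of the base. -/
def pwS : ∀ i, SK U (PIx B.ι i)
  | 0 => B.S₀
  | i + 1 => pwS i * B.S₀

lemma isAut_pwS : ∀ i, (B.pwS i).IsAut
  | 0 => B.isAut_S₀
  | i + 1 => B.isAut_S₀.mul_left (B.pwS i) B.isFD

lemma op_pwS : ∀ i, (B.pwS i).op B.s = B.T ^ (i + 1)
  | 0 => (pow_one B.T).symm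
  | i + 1 => by
    show (B.pwS i * B.S₀).op B.s = _
    rw [SK.op_mul (B.isAut_pwS i) B.isAut_S₀ B.isFD, op_pwS i, pow_succ _ (i + 1)]
    rfl

variable (m : Mods U) (σ : Space U → Space U) (hσ : Measurable σ)

/-- The family of the trace terms. -/
def trS (i : ℕ) : SK U (TIx B.ι i) := B.kerS m * B.pwS i * B.S₀

/-- Trace terms are automorphic. -/
lemma isAut_trS (i : ℕ) : (B.trS m i).IsAut := B.isAut_S₀.mul_left _ B.isFD

/-- The trace terms. -/
def trTerm (i : ℕ) : ℂ := ∫ x in B.s, (B.trS m i).pt.aut (σ x) x ∂Space.vol U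

/-- The twisted operator of a modification. -/
def tw : B.H →L[ℂ] B.H :=
  BKer.op ((Space.vol U).restrict B.s)
    (((B.kerS m).autK (B.isAut_kerS m)).bker.compLeft σ hσ)

lemma tw_pow {w : Set B.H} [Countable w] (b : HilbertBasis w ℂ B.H) (i : ℕ) :
    HasSum (fun j => ⟪B.T (b j), B.tw m σ hσ ((B.T ^ (i + 1)) (b j))⟫_ℂ) (B.trTerm m σ i) := by
  have hm := B.isAut_kerS m
  have hP := B.isAut_pwS i
  have hmP := hP.mul_left (B.kerS m) B.isFD
  have e : (B.tw m σ hσ).comp (B.T ^ (i + 1)) = BKer.op ((Space.vol U).restrict B.s)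
      (((B.kerS m * B.pwS i).autK hmP).bker.compLeft σ hσ) := by
    rw [← B.op_pwS, tw, SK.op, dif_pos hP, ← BKer.op_comp]
    refine ContinuousLinearMap.ext fun f => Lp.ext ?_
    filter_upwards [BKer.op_apply_ae (BKer.comp ((Space.vol U).restrict B.s)
        (((B.kerS m).autK hm).bker.compLeft σ hσ) ((B.pwS i).autK hP).bker) f,
      BKer.op_apply_ae (((B.kerS m * B.pwS i).autK hmP).bker.compLeft σ hσ) f] with x h1 h2
    rw [h1, h2]
    refine integral_congr_ae (ae_of_all _ fun z => congrArg (· * f z) ?_)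
    show ∫ y in B.s, (B.kerS m).pt.aut (σ x) y * (B.pwS i).pt.aut y z ∂Space.vol U =
      (B.kerS m * B.pwS i).pt.aut (σ x) z
    rw [← PtKer.aut_congr ((B.kerS m).pt_mul (B.pwS i))]
    exact (((B.kerS m).autK hm).aut_comp_eq ((B.pwS i).autK hP) B.isFD (σ x) z).symm
  have h := BKer.hasSum_inner_op (ν := (Space.vol U).restrict B.s)
    (B.S₀.autK B.isAut_S₀).bker (((B.kerS m * B.pwS i).autK hmP).bker.compLeft σ hσ) b
  rw [(B.S₀.autK B.isAut_S₀).pair_compLeft _
    (SK.conj_pt (fun j => Complex.conj_ofReal _) B.real B.herm) σ hσ B.isFD] at h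
  have hv : B.trTerm m σ i = ∫ x in B.s, (((B.kerS m * B.pwS i).autK hmP).toPtKer.comp
      (B.S₀.autK B.isAut_S₀).toPtKer ((B.kerS m * B.pwS i).autK hmP).nbr_card).aut (σ x) x
        ∂Space.vol U := by
    refine integral_congr_ae (ae_of_all _ fun x => ?_)
    exact congrFun (congrFun (PtKer.aut_congr
      ((B.kerS m * B.pwS i).pt_mul B.S₀)) (σ x)) x |>.symm
  rw [hv]
  refine h.congr_fun fun j => ?_
  rw [show B.tw m σ hσ ((B.T ^ (i + 1)) (b j)) = (B.tw m σ hσ).comp (B.T ^ (i + 1)) (b j) from rfl,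
    e, Base.T, SK.op, dif_pos B.isAut_S₀]

/-- The trace term of a polynomial. -/
def trPoly (p : Polynomial ℂ) : ℂ :=
  ∑ i ∈ Finset.range (p.natDegree + 1), p.coeff i * B.trTerm m σ i

/-- The trace of a twisted polynomial as a series. -/
lemma hasSum_poly {w : Set B.H} [Countable w] (b : HilbertBasis w ℂ B.H) (p : Polynomial ℂ) :
    HasSum (fun j => ⟪B.T (b j), B.tw m σ hσ (Polynomial.aeval B.T p (B.T (b j)))⟫_ℂ)
      (B.trPoly m σ p) := by
  have h := hasSum_sum (s := Finset.range (p.natDegree + 1))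
    (f := fun i j => p.coeff i * ⟪B.T (b j), B.tw m σ hσ ((B.T ^ (i + 1)) (b j))⟫_ℂ)
    fun i _ => (B.tw_pow m σ hσ b i).mul_left (p.coeff i)
  refine h.congr_fun fun j => ?_
  rw [Polynomial.aeval_eq_sum_range, _root_.sum_apply, map_sum, inner_sum]
  refine Finset.sum_congr rfl fun i _ => ?_
  rw [_root_.smul_apply, map_smul, inner_smul_right, pow_succ]
  rfl

variable (v : HeightOneSpectrum (𝓞 L))

include hσ in
/-- The trace terms are linear in one finite component. -/
theorem trTerm_lin_fin (a b : LocKer U v) (c : ℂ) (i : ℕ) :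
    B.trTerm (m.setFin v (a.lin b c)) σ i =
      B.trTerm (m.setFin v a) σ i + c * B.trTerm (m.setFin v b) σ i := by
  unfold trTerm
  rw [← integral_const_mul, ← integral_add (SK.integrable_diag (B.isAut_trS _ i) hσ)
    ((SK.integrable_diag (B.isAut_trS _ i) hσ).const_mul c)]
  refine integral_congr_ae (ae_of_all _ fun x => ?_)
  simp only [PtKer.aut]
  rw [← tsum_mul_left, ← Summable.tsum_add (PtKer.summable_aut _ _ _)
    ((PtKer.summable_aut _ _ _).mul_left c)]
  refine tsum_congr fun γ => ?_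
  exact SK.mul_lin _ _ _ _ c (fun x y => SK.mul_lin _ _ _ _ c
    (B.kerS_lin_fin m v a b c) x y) _ _

include hσ in
/-- The trace terms of polynomials in one component. -/
theorem trTerm_poly (A : LocKer U v) (P : ℕ → ℂ) (i : ℕ) : ∀ n,
    B.trTerm (m.setFin v (A.poly P n)) σ i =
      ∑ k ∈ Finset.range (n + 1), P k * B.trTerm (m.setFin v (A ^ k)) σ i
  | 0 => by
    rw [LocKer.poly, B.trTerm_lin_fin m σ hσ v, Finset.sum_range_one, pow_zero]
    ring
  | n + 1 => by
    rw [LocKer.poly, B.trTerm_lin_fin m σ hσ v, trTerm_poly A P i n,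
      ← Finset.sum_range_succ (fun k => P k * B.trTerm (m.setFin v (A ^ k)) σ i) (n + 1)]

end Base

namespace SB

variable (B : SB U) (m : Mods U) (σ : Space U → Space U) (hσ : Measurable σ)

/-- The twisted operator cut down to the eigenspace. -/
def twV : Module.End ℂ B.V := cutTo B.T (B.μ : ℂ) (B.tw m σ hσ)

variable {m}

/-- The twisted operator on members of the eigenspace. -/
theorem tw_ae (hm : B.Fits m) (g : B.V) :
    B.tw m σ hσ (g : B.H) =ᵐ[(Space.vol U).restrict B.s]
      fun x => (B.μ : ℂ) ^ 2 * B.rep (B.ρ m g : B.V) (σ x) := by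
  obtain ⟨C, hC⟩ := B.rep_bdd g
  filter_upwards [BKer.op_apply_ae
      (((B.kerS m).autK (B.isAut_kerS m)).bker.compLeft σ hσ) (g : B.H)] with x h1
  rw [Base.tw, h1]
  show ∫ y in B.s, (B.kerS m).pt.aut (σ x) y * (g : B.H) y ∂Space.vol U = _
  have hk : ∫ y in B.s, (B.kerS m).pt.aut (σ x) y * (g : B.H) y ∂Space.vol U =
      (B.kerS m).pt.act (B.rep g) (σ x) := by
    rw [PtKer.act, (B.kerS m).pt.integral_row_eq_setIntegral (B.measurable_rep g)
      (B.rep_inv g) hC B.isFD]
    refine integral_congr_ae ?_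
    filter_upwards [B.rep_ae g.2] with y hy
    rw [hy]
  rw [hk, Base.kerS, SK.act_mul _ (B.measurable_rep g) hC, B.act_rep_eq g.2, SK.act_const_mul,
    B.act_ext_rep hm]
  ring

open Classical in
/-- A modification in one free component comes out on the right. -/
theorem tw_setFin (hm : B.Fits m) {u : HeightOneSpectrum (𝓞 L)} (hu : B.Free u) (h1 : m.A u = 1)
    (A : LocKer U u) (g : B.V) :
    B.tw (m.setFin u A) σ hσ (g : B.H) = B.tw m σ hσ (B.slotF u A g : B.V) := by
  have hρ : B.ρ (m.setFin u A) = B.ρ m * B.slotF u A := by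
    rw [slotF, ← B.ρ_mul hm (B.fits_one.setFin (hu _))]
    refine B.ρ_congr (hm.setFin (hu _)) (hm.mul (B.fits_one.setFin (hu _)))
      (fun w => ?_) fun v => ?_
    · rcases h : m.q w with _ | a <;> simp [Mods.setFin, Mods.mul_q, Mods.ocomp, h]
    · by_cases e : v = u
      · subst e; simp [Mods.setFin, Mods.mul_A, h1]
      · simp [Mods.setFin, Mods.mul_A, e]
  refine Lp.ext ?_
  filter_upwards [B.tw_ae σ hσ (hm.setFin (hu A)) g, B.tw_ae σ hσ hm (B.slotF u A g)] with x h2 h3
  rw [h2, h3, hρ]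
  rfl

/-- Changing a free component of the twisted operator. -/
lemma twV_setFin (hm : B.Fits m) {u : HeightOneSpectrum (𝓞 L)} (hu : B.Free u) (h1 : m.A u = 1)
    (A : LocKer U u) : B.twV (m.setFin u A) σ hσ = B.twV m σ hσ * B.slotF u A := by
  refine LinearMap.ext fun g => ?_
  show B.V.orthogonalProjectionOnto (B.tw _ σ hσ (g : B.H)) = _
  rw [B.tw_setFin σ hσ hm hu h1]
  rfl

/-- The twisted operator through the one of the trivial modification. -/
lemma twV_eq_mul (hm : B.Fits m) : B.twV m σ hσ = B.twV 1 σ hσ * B.ρ m := by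
  refine LinearMap.ext fun g => ?_
  show B.V.orthogonalProjectionOnto (B.tw m σ hσ (g : B.H)) =
    B.V.orthogonalProjectionOnto (B.tw 1 σ hσ (B.ρ m g : B.H))
  refine congrArg B.V.orthogonalProjectionOnto ?_
  refine Lp.ext ?_
  filter_upwards [B.tw_ae σ hσ hm g, B.tw_ae σ hσ B.fits_one (B.ρ m g)] with x h2 h3
  rw [h2, h3, B.ρ_one]
  rfl

/-- Without twist. -/
theorem twV_id (hm : B.Fits m) : B.twV m id measurable_id = (B.μ : ℂ) ^ 2 • B.ρ m := by
  refine LinearMap.ext fun g => ?_
  have e : B.tw m id measurable_id (g : B.H) = ((B.μ : ℂ) ^ 2 • (B.ρ m g : B.V) : B.V) := by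
    refine Lp.ext ?_
    filter_upwards [B.tw_ae id measurable_id hm g,
      Lp.coeFn_smul ((B.μ : ℂ) ^ 2) ((B.ρ m g : B.V) : B.H), B.rep_ae (B.ρ m g).2] with x h1 h2 h3
    rw [h1, Submodule.coe_smul, h2, Pi.smul_apply, smul_eq_mul, h3]
    rfl
  show B.V.orthogonalProjectionOnto (B.tw m id measurable_id (g : B.H)) = _
  rw [e, Submodule.orthogonalProjectionOnto_mem_subspace_eq_self]
  rfl

end SB

end FermatAgent.LT2.Spec

end
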