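import Mathlib
import Fermat.Agent.LT2.Spec.Tw
import Fermat.Agent.LT2.Spec.Adj

/-!
# The limit of the peaks in one variable slot

Polynomials of the normalised adjacency slot which are bounded by one on the spectrum give operators
bounded on all eigenspaces of the base; so asymptotically equal trace terms give equal traces on the
kernel of the adjacency slot.
-/

set_option autoImplicit false

noncomputable section

open Matrix IsDedekindDomain NumberField Filter MeasureTheory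
open scoped MatrixGroups ENNReal ComplexConjugate InnerProductSpace Topology

namespace FermatAgent.LT2.Spec

open FermatAgent.LT Polynomial
open FermatAgent.LT.Isolation (cutTo)

/-- A polynomial at most one on the spectrum does not increase norms. -/
theorem norm_aeval_apply_le {V : Type*} [NormedAddCommGroup V] [InnerProductSpace ℂ V]
    [FiniteDimensional ℂ V] {A : Module.End ℂ V} (hA : A.IsSymmetric) (P : ℂ[X])
    (hP : ∀ r : ℝ, Module.End.HasEigenvalue A (r : ℂ) → ‖P.eval (r : ℂ)‖ ≤ 1) (g : V) :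
    ‖Polynomial.aeval A P g‖ ≤ ‖g‖ := by
  let b := hA.eigenvectorBasis (n := Module.finrank ℂ V) rfl
  set r := hA.eigenvalues (n := Module.finrank ℂ V) rfl
  have hv := fun i => hA.hasEigenvector_eigenvectorBasis (n := Module.finrank ℂ V) rfl i
  have he : ∀ i, b.repr (Polynomial.aeval A P g) i = P.eval (r i : ℂ) * b.repr g i := by
    intro i
    conv_lhs => rw [← b.sum_repr g]
    simp only [map_sum, map_smul, b, Module.End.aeval_apply_of_hasEigenvector (hv _),
      OrthonormalBasis.repr_self, WithLp.ofLp_sum, Finset.sum_apply, WithLp.ofLp_smul,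
      Pi.smul_apply, PiLp.single_apply, smul_eq_mul, mul_ite, mul_one, mul_zero,
      Finset.sum_ite_eq, Finset.mem_univ, if_true]
    exact mul_comm _ _
  rw [← b.repr.norm_map, ← b.repr.norm_map g, EuclideanSpace.norm_eq, EuclideanSpace.norm_eq]
  refine Real.sqrt_le_sqrt (Finset.sum_le_sum fun i _ => pow_le_pow_left₀ (norm_nonneg _) ?_ 2)
  rw [he, norm_mul]
  exact mul_le_of_le_one_left (norm_nonneg _) (hP _ (hA.hasEigenvalue_eigenvalues rfl i))

/-- A bound for the sum along a row. -/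
def rowBd {L : Type*} [Field L] [NumberField L] {U : Level L} {v : HeightOneSpectrum (𝓞 L)}
    (A : LocKer U v) : ℝ := (A.row (QuotientGroup.mk 1)).toFinset.card * A.bnd

namespace SB

variable {L : Type} [Field L] [NumberField L] {U : Level L} (B : SB U)
  {v : HeightOneSpectrum (𝓞 L)}

/-- Eigenvalues of slots are bounded by the row sums. -/
theorem norm_eig_le (hv : B.Free v) (A : LocKer U v) {c : ℂ} {g : B.V} (hg : g ≠ 0)
    (h : B.slotF v A g = c • g) : ‖c‖ ≤ rowBd A := by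
  obtain ⟨C, hC⟩ := B.rep_bdd g
  obtain ⟨x₀, hx₀⟩ := B.rep_ne_zero hg
  set S := ⨆ x, ‖B.rep g x‖
  have : Nonempty (Space U) := ⟨x₀⟩
  have hbdd : BddAbove (Set.range fun x => ‖B.rep g x‖) := ⟨C, by rintro _ ⟨x, rfl⟩; exact hC x⟩
  have hle : ∀ x, ‖B.rep g x‖ ≤ S := fun x => le_ciSup hbdd x
  have hS : 0 < S := (norm_pos_iff.2 hx₀).trans_le (hle x₀)
  have hop : ∀ x, ‖c‖ * ‖B.rep g x‖ ≤ rowBd A * S := fun x => by
    have h1 := B.finOp_rep (hv A) g x
    rw [show B.ρ ((1 : Mods U).setFin v A) g = c • g from h, Submodule.coe_smul, B.rep_smul] at h1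
    rw [← norm_mul, ← h1]
    exact norm_finOp_le A hle x
  have h2 : ‖c‖ * S ≤ rowBd A * S := by
    rw [Real.mul_iSup_of_nonneg (norm_nonneg _)]
    exact ciSup_le hop
  exact le_of_mul_le_mul_right h2 hS

variable (hU : U.loc v = locK v)

/-- The normalised adjacency slot. -/
def adjN (s : ℝ) : Module.End ℂ B.V := (s : ℂ)⁻¹ • B.slotF v (LocKer.hecke hU)

lemma isSymmetric_adjN (hv : B.Free v) (s : ℝ) : (B.adjN hU s).IsSymmetric := by
  intro f g
  simp only [adjN, LinearMap.smul_apply, inner_smul_left, inner_smul_right, map_inv₀,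
    Complex.conj_ofReal, B.slotF_symm hv (LocKer.isHerm_hecke hU) f g]

theorem slotF_pkS (hv : B.Free v) (s : ℝ) (P : ℝ[X]) :
    B.slotF v (pkS hU s P) = Polynomial.aeval (B.adjN hU s) (P.map (algebraMap ℝ ℂ)) := by
  rw [pkS, B.slotF_poly hv, Polynomial.aeval_eq_sum_range' (n := P.natDegree + 1)
    (Nat.lt_succ_of_le (Polynomial.natDegree_map_le))]
  refine Finset.sum_congr rfl fun i _ => ?_
  rw [Polynomial.coeff_map, adjN, _root_.smul_pow, smul_smul]
  congr 1
  rw [Complex.coe_algebraMap, Complex.ofReal_div, Complex.ofReal_pow, inv_pow, div_eq_mul_inv]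

lemma sq_le_of_hasEigenvalue (hv : B.Free v) {s : ℝ} (hs : 0 < s) {K : ℝ}
    (hK : (rowBd (LocKer.hecke hU) / s) ^ 2 ≤ K) {r : ℝ}
    (hr : Module.End.HasEigenvalue (B.adjN hU s) (r : ℂ)) : r ^ 2 ≤ K := by
  obtain ⟨g, hg⟩ := hr.exists_hasEigenvector
  have h := hg.apply_eq_smul
  rw [adjN, LinearMap.smul_apply, inv_smul_eq_iff₀ (Complex.ofReal_ne_zero.2 hs.ne'), smul_smul,
    ← Complex.ofReal_mul] at h
  have hb := B.norm_eig_le hv (LocKer.hecke hU) hg.2 h
  rw [Complex.norm_real, Real.norm_eq_abs, abs_mul, abs_of_pos hs, mul_comm, ← le_div_iff₀ hs] at hb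
  refine le_trans ?_ hK
  rw [← sq_abs r]
  exact pow_le_pow_left₀ (abs_nonneg _) hb 2

lemma adjN_apply_eq_zero {s : ℝ} (hs : s ≠ 0) {g : B.V} :
    B.adjN hU s g = 0 ↔ B.slotF v (LocKer.hecke hU) g = 0 := by
  simp [adjN, hs]

lemma slot_of_adjN {s : ℝ} (hs : s ≠ 0) {g : B.V} {c : ℂ} (h : B.adjN hU s g = c • g) :
    B.slotF v (LocKer.hecke hU) g = ((s : ℂ) * c) • g := by
  rw [adjN, LinearMap.smul_apply, inv_smul_eq_iff₀ (Complex.ofReal_ne_zero.2 hs)] at h
  rw [h, smul_smul]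

variable (m : Mods U) (σ : Space U → Space U) (hσ : Measurable σ)

theorem norm_inner_tw_le (hm : B.Fits m) (hv : B.Free v) (h1 : m.A v = 1) {s : ℝ} (hs : 0 < s)
    {K : ℝ} (hK4 : 0 < K) (hK : (rowBd (LocKer.hecke hU) / s) ^ 2 ≤ K) (N : ℕ) (ν : ℂ) (hν : ν ≠ 0)
    (e : B.H) (he : e ∈ Isolation.eig B.T ν) (hne : ‖e‖ = 1) :
    ‖⟪e, B.tw (m.setFin v (pkS hU s (peak0 K N))) σ hσ e⟫_ℂ‖ ≤ ‖B.tw m σ hσ‖ := by
  have he0 : e ≠ 0 := fun h => by rw [h, norm_zero] at hne; exact zero_ne_one hne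
  obtain ⟨x, rfl⟩ := Complex.conj_eq_iff_real.mp (Isolation.eigen_real B.isSymmetric_T he he0)
  have hx : x ≠ 0 := fun h => hν (by rw [h, Complex.ofReal_zero])
  let B' := B.withEig x hx
  have : FiniteDimensional ℂ B'.V := B'.instFiniteDimV
  let g : B'.V := ⟨e, he⟩
  have hv' : B'.Free v := hv
  have hm' : B'.Fits m := hm
  have h2 := B'.tw_setFin σ hσ hm' hv' h1 (pkS hU s (peak0 K N)) g
  rw [show B.tw (m.setFin v (pkS hU s (peak0 K N))) σ hσ e =
    B.tw m σ hσ (B'.slotF v (pkS hU s (peak0 K N)) g : B'.V) from h2]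
  refine (norm_inner_le_norm _ _).trans ?_
  rw [hne, one_mul]
  refine ((B.tw m σ hσ).le_opNorm _).trans (mul_le_of_le_one_right (norm_nonneg _) ?_)
  rw [B'.slotF_pkS hU hv']
  refine le_trans (norm_aeval_apply_le (B'.isSymmetric_adjN hU hv' s) _ (fun r hr => ?_) g) hne.le
  rw [Polynomial.eval_map, show (r : ℂ) = algebraMap ℝ ℂ r from rfl,
    Polynomial.eval₂_at_apply, norm_algebraMap', Real.norm_eq_abs]
  exact abs_eval_peak0_le hK4 (B'.sq_le_of_hasEigenvalue hU hv' hs hK hr) N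

end SB

variable {K L : Type} [Field K] [NumberField K] [Field L] [NumberField L]
  {UL : Level L} {UK : Level K} (BL : SB UL) (BK : SB UK)

/-- **Equal traces on the kernels of the variable slots.** -/
theorem trace_peak_eq (hμ : BK.μ = BL.μ) {mL : Mods UL} {mK : Mods UK} (hmL : BL.Fits mL)
    (hmK : BK.Fits mK) (σ : Space UL → Space UL) (hσ : Measurable σ)
    {u : HeightOneSpectrum (𝓞 L)} {v : HeightOneSpectrum (𝓞 K)} (hu : UL.loc u = locK u)
    (hv : UK.loc v = locK v) (huF : BL.Free u) (hvF : BK.Free v) (h1L : mL.A u = 1)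
    (h1K : mK.A v = 1) {s : ℝ} (hs : 0 < s) {R : ℝ} (hR : 4 ≤ R)
    (hRL : (rowBd (LocKer.hecke hu) / s) ^ 2 ≤ R) (hRK : (rowBd (LocKer.hecke hv) / s) ^ 2 ≤ R)
    (hflat : ∀ i, Tendsto (fun N => BL.trTerm (mL.setFin u (pkS hu s (peak0 R N))) σ i -
      BK.trTerm (mK.setFin v (pkS hv s (peak0 R N))) id i) atTop (𝓝 0))
    {EL : Module.End ℂ BL.V} (hEL : ∀ g, BL.slotF u (LocKer.hecke hu) g = 0 → EL g = g)
    (hEL0 : ∀ (c : ℂ) g, c ≠ 0 → BL.slotF u (LocKer.hecke hu) g = c • g → EL g = 0)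
    {EK : Module.End ℂ BK.V} (hEK : ∀ g, BK.slotF v (LocKer.hecke hv) g = 0 → EK g = g)
    (hEK0 : ∀ (c : ℂ) g, c ≠ 0 → BK.slotF v (LocKer.hecke hv) g = c • g → EK g = 0) :
    LinearMap.trace ℂ BL.V (BL.twV mL σ hσ * EL) =
      LinearMap.trace ℂ BK.V (BK.twV mK id measurable_id * EK) := by
  have := BL.secondCountable
  have := BK.secondCountable
  have hR0 : (0 : ℝ) < R := lt_of_lt_of_le (by norm_num) hR
  set m₁ := fun N => mL.setFin u (pkS hu s (peak0 R N))
  set m₂ := fun N => mK.setFin v (pkS hv s (peak0 R N))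
  have : FiniteDimensional ℂ (Isolation.eig BK.T (BL.μ : ℂ)) := by
    rw [← hμ]; exact BK.instFiniteDimV
  have h0 : ∀ p, Tendsto (fun N => BL.trPoly (m₁ N) σ p - BK.trPoly (m₂ N) id p) atTop (𝓝 0) := by
    intro p
    have h : Tendsto (fun N => ∑ i ∈ Finset.range (p.natDegree + 1), p.coeff i *
        (BL.trTerm (m₁ N) σ i - BK.trTerm (m₂ N) id i)) atTop
        (𝓝 (∑ i ∈ Finset.range (p.natDegree + 1), p.coeff i * 0)) :=
      tendsto_finsetSum _ fun i _ => (hflat i).const_mul _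
    simp only [mul_zero, Finset.sum_const_zero, mul_sub, Finset.sum_sub_distrib] at h
    exact h
  have key := tendsto_trace_sub (T := BL.T) (T' := BK.T) BL.isCompact_T BL.isSymmetric_T
    (fun e he t => BL.hsBound_T e he t) BK.isCompact_T BK.isSymmetric_T
    (fun e he t => BK.hsBound_T e he t)
    (fun N => BL.tw (m₁ N) σ hσ)
    (fun N ν hν e he hne => BL.norm_inner_tw_le hu mL σ hσ hmL huF h1L hs hR0 hRL N ν hν e he hne)
    (fun N => BK.tw (m₂ N) id measurable_id)
    (fun N ν hν e he hne =>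
      BK.norm_inner_tw_le hv mK id measurable_id hmK hvF h1K hs hR0 hRK N ν hν e he hne)
    BL.μ_ne (fun N p => BL.trPoly (m₁ N) σ p) (fun N p w _ b => BL.hasSum_poly (m₁ N) σ hσ b p)
    (fun N p => BK.trPoly (m₂ N) id p)
    (fun N p w _ b => BK.hasSum_poly (m₂ N) id measurable_id b p) h0
  have hL := tendsto_trace_peak0 (BL.isSymmetric_adjN hu huF s) hR0
    (fun r hr => BL.sq_le_of_hasEigenvalue hu huF hs hRL hr) (BL.twV mL σ hσ) EL
    (fun g hg => hEL g ((BL.adjN_apply_eq_zero hu hs.ne').1 hg))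
    (fun c g hc hg => hEL0 _ g (mul_ne_zero (Complex.ofReal_ne_zero.2 hs.ne') hc)
      (BL.slot_of_adjN hu hs.ne' hg))
  have hK' := tendsto_trace_peak0 (BK.isSymmetric_adjN hv hvF s) hR0
    (fun r hr => BK.sq_le_of_hasEigenvalue hv hvF hs hRK hr) (BK.twV mK id measurable_id) EK
    (fun g hg => hEK g ((BK.adjN_apply_eq_zero hv hs.ne').1 hg))
    (fun c g hc hg => hEK0 _ g (mul_ne_zero (Complex.ofReal_ne_zero.2 hs.ne') hc)
      (BK.slot_of_adjN hv hs.ne' hg))
  simp only [← BL.slotF_pkS hu huF, ← BL.twV_setFin σ hσ hmL huF h1L] at hL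
  simp only [← BK.slotF_pkS hv hvF, ← BK.twV_setFin id measurable_id hmK hvF h1K] at hK'
  have e' : ∀ (x : ℝ) [FiniteDimensional ℂ (Isolation.eig BK.T (x : ℂ))], BK.μ = x → ∀ N,
      LinearMap.trace ℂ (Isolation.eig BK.T (x : ℂ))
        (cutTo BK.T (x : ℂ) (BK.tw (m₂ N) id measurable_id)) =
      LinearMap.trace ℂ BK.V (BK.twV (m₂ N) id measurable_id) := by
    intro x _ hx N
    subst hx
    rfl
  have e := e' BL.μ hμ
  simp only [e] at key
  exact sub_eq_zero.1 (tendsto_nhds_unique (hL.sub hK') key)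

end FermatAgent.LT2.Spec

end
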