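import Mathlib
import Fermat.Agent.LT.Descent.Spec.Tame
import Fermat.Agent.LT2.Spec.Slots
import Fermat.Agent.LT2.Spec.Limit

/-!
# Commutation of slots and representatives of eigenvectors

Modifications of a base whose components commute commute on its eigenspace, and an eigenvector of
the slots at a place has a representative which is an eigenfunction of the corresponding radial or
Hecke operator pointwise.  Eigenvalues of symmetric slots are real.
-/

set_option autoImplicit false

noncomputable section

open Matrix IsDedekindDomain NumberField Filter MeasureTheory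
open scoped MatrixGroups ENNReal ComplexConjugate InnerProductSpace ContDiff

namespace FermatAgent.LT2.Spec.SB

open FermatAgent.LT
open FermatAgent.LT.Spec (profileOf)

variable {L : Type} [Field L] [NumberField L] {U : Level L} (B : SB U)

/-- Modifications commute when their finite components do. -/
theorem ρ_comm {m n : Mods U} (hm : B.Fits m) (hn : B.Fits n)
    (hA : ∀ v, Commute (m.A v) (n.A v)) : Commute (B.ρ m) (B.ρ n) := by
  rw [Commute, SemiconjBy, ← B.ρ_mul hm hn, ← B.ρ_mul hn hm]
  refine B.ρ_congr (hm.mul hn) (hn.mul hm) (fun w => ?_) fun v => hA v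
  rw [Mods.mul_q, Mods.mul_q]
  rcases m.q w with _ | a <;> rcases n.q w with _ | b <;> simp only [Mods.ocomp, Option.map]
  exact congrArg some (funext fun p => funext fun r => InfKer.comp_comm a b p r)

/-- One component at infinity may be taken out. -/
lemma ρ_out_inf {m : Mods U} (hm : B.Fits m) {w : InfinitePlace L} {q : InfKer}
    (hq : m.q w = some q) : B.ρ m = B.slotI w q * B.ρ (m.setInf w none) := by
  classical
  rw [slotI, ← B.ρ_mul (B.fits_one.setInf _ _) (hm.setInf _ _)]
  refine B.ρ_congr hm ((B.fits_one.setInf _ _).mul (hm.setInf _ _)) (fun u => ?_) fun v => by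
    simp [Mods.setInf, Mods.mul_A]
  by_cases e : u = w
  · subst e; simp [Mods.setInf, Mods.mul_q, Mods.ocomp, hq]
  · simp [Mods.setInf, Mods.mul_q, Mods.ocomp, e]

/-- One finite component may be taken out. -/
lemma ρ_out_fin {m : Mods U} (hm : B.Fits m) {v : HeightOneSpectrum (𝓞 L)} (hv : B.Free v) :
    B.ρ m = B.slotF v (m.A v) * B.ρ (m.setFin v 1) := by
  classical
  rw [slotF, ← B.ρ_mul (B.fits_one.setFin (hv _)) (hm.setFin (hv _))]
  refine B.ρ_congr hm ((B.fits_one.setFin (hv _)).mul (hm.setFin (hv _)))
    (fun u => by simp [Mods.setFin, Mods.mul_q, Mods.ocomp]) fun u => ?_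
  by_cases e : u = v
  · subst e; simp [Mods.setFin, Mods.mul_A]
  · simp [Mods.setFin, Mods.mul_A, e]

/-- Vectors fixed by all archimedean slots are fixed by their product. -/
lemma onInf_fix {q : InfKer} {g : B.V} (h : ∀ w, B.slotI w q g = g) :
    B.ρ (onInf Finset.univ q) g = g := by
  classical
  suffices key : ∀ s : Finset (InfinitePlace L), B.ρ (onInf s q) g = g from key _
  intro s
  induction s using Finset.induction_on with
  | empty => rw [B.ρ_onInf_empty]; rfl
  | insert w s hw ih => rw [B.ρ_onInf_insert hw, Module.End.mul_apply, ih, h]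

/-- Vectors fixed by finitely many slots are fixed by their product. -/
lemma onFin_fix {s : Finset (HeightOneSpectrum (𝓞 L))} (hs : ∀ v ∈ s, B.Free v)
    {A : ∀ v, LocKer U v} {g : B.V} (h : ∀ v ∈ s, B.slotF v (A v) g = g) :
    B.ρ (onFin s A) g = g := by
  classical
  induction s using Finset.induction_on with
  | empty => rw [B.ρ_onFin_empty]; rfl
  | insert v s hv ih =>
    rw [B.ρ_onFin_insert hv hs, Module.End.mul_apply,
      ih (fun u hu => hs u (Finset.mem_insert_of_mem hu))
        (fun u hu => h u (Finset.mem_insert_of_mem hu)), h v (Finset.mem_insert_self v s)]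

/-- Radial eigenvectors have radial eigenfunctions. -/
lemma radialOp_rep {w : InfinitePlace L} {g : B.V} (hg : g ∈ radEig B w) (k : ℝ → ℝ)
    (hk : ContDiff ℝ ∞ k) (hs : HasCompactSupport k) (x : Space U) :
    radialOp w (fun p q => k (H3.coshDist p q)) (B.rep g) x = Whit.hT k * B.rep g x := by
  rw [radialOp_eq_infOp w (k := fun p q => k (H3.coshDist p q)) (q := (profileOf k hk hs).ker)
    (fun a b => rfl), B.infOp_rep]
  show B.rep (B.slotI w _ g : B.V) x = _
  rw [(mem_radEig B w).mp hg k hk hs, Submodule.coe_smul, B.rep_smul]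

/-- Hecke eigenvectors have Hecke eigenfunctions. -/
lemma heckeOp_rep {v : HeightOneSpectrum (𝓞 L)} (hv : U.loc v = locK v) (hF : B.Free v)
    {g : B.V} {c : ℂ} (hg : B.slotF v (LocKer.hecke hv) g = c • g) (x : Space U) :
    heckeOp v (B.rep g) x = c * B.rep g x := by
  rw [← FermatAgent.LT.finOp_hecke hv, B.finOp_rep (hF _)]
  show B.rep (B.slotF v _ g : B.V) x = _
  rw [hg, Submodule.coe_smul, B.rep_smul]

/-- An idempotent fixing every piece of the base fixes the representatives. -/
lemma finOp_rep_fixed {v : HeightOneSpectrum (𝓞 L)} {A : LocKer U v}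
    (hA : ∀ j, A * (B.D j).fin v = (B.D j).fin v) (g : B.V) (x : Space U) :
    finOp A (B.rep g) x = B.rep g x := by
  classical
  obtain ⟨C, hC⟩ := B.rep_bdd g
  have h := B.finOp_act A (B.measurable_rep g) hC x
  rw [PtKer.act_congr (SK.pt_congr (S := B.extS ((1 : Mods U).setFin v A)) (E := B.S₀)
    (fun _ => rfl) (fun _ _ => rfl) fun j u => ?_), B.act_rep_eq g.2] at h
  · refine mul_left_cancel₀ B.μc_ne (Eq.trans ?_ h)
    simp only [finOp, Finset.mul_sum, mul_left_comm]
  · by_cases e : u = v
    · subst e
      simpa [Base.extS, Base.S₀, Mods.ext_fin, Mods.setFin] using hA j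
    · simp [Base.extS, Base.S₀, Mods.ext_fin, Mods.setFin, e]

/-- The eigenvalues of symmetric slots are real. -/
lemma conj_eig {A : Module.End ℂ B.V} (hA : LinearMap.IsSymmetric A) {g : B.V} (hg : g ≠ 0) {c : ℂ}
    (h : A g = c • g) : conj c = c := by
  have h1 := hA g g
  rw [h, inner_smul_left, inner_smul_right] at h1
  exact mul_right_cancel₀ (inner_self_ne_zero.mpr hg) h1

end FermatAgent.LT2.Spec.SB

end
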