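import Mathlib
import Fermat.Agent.LT.Descent.Spec.Act
import Fermat.Agent.LT2.Defs
import Fermat.Agent.LT2.Spec.Adj

/-!
# What the spectral side consumes

`Fam C v'` is a weighted family of kernels at an auxiliary split place `v'` and at infinity;
`Fam.Isolates` says that its sum has bounded automorphisation on both sides and does not kill a
given function, so that it can serve as the base of the spectral decomposition.  `GeoEq` is the
trace identity for systems with a flat kernel inserted at a variable split place `v₀`.
-/

set_option autoImplicit false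

noncomputable section

open Matrix IsDedekindDomain NumberField Filter MeasureTheory
open scoped MatrixGroups ENNReal ComplexConjugate

namespace FermatAgent.LT2.Spec

open FermatAgent.LT

variable {K L : Type*} [Field K] [NumberField K] [Field L] [NumberField L] [Algebra K L]

/-- A finite weighted family of kernels at the places over one split place and at infinity. -/
structure Fam (C : Ctx K L) (v' : HeightOneSpectrum (𝓞 K)) where
  /-- the index -/
  ι : Type
  [fin : Fintype ι]
  split : C.IsSplit v'
  notMem : v' ∉ C.S
  /-- the weights -/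
  a : ι → ℝ
  /-- the kernel at infinity -/
  k : ι → InfKer
  flip : ∀ j, (k j).IsFlip
  real : ∀ j, (k j).IsReal
  /-- the slots below -/
  kS : ι → C.Fib v' → LocKer C.UK v'
  /-- the slots above -/
  kw : ι → ∀ u : C.Fib v', LocKer C.UL u.1
  kw_up : ∀ j u x y, (kw j u).k (C.up u x) (C.up u y) = (kS j u).k x y
  kS_herm : ∀ j u, (kS j u).IsHerm
  kw_herm : ∀ j u, (kw j u).IsHerm

attribute [instance] Fam.fin

namespace Fam

variable {C : Ctx K L} {v' : HeightOneSpectrum (𝓞 K)} (F : Fam C v')

open Classical in
/-- The piece above. -/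
def pieceL (j : F.ι) : KerData C.UL where
  inf _ := F.k j
  fin w := if h : C.b w = v' then F.kw j ⟨w, h⟩ else 1
  S := TwistCtx.KerPair.above (B := C.B) {v'}
  fin_eq_one _ hw :=
    dif_neg fun h => hw (TwistCtx.KerPair.mem_above.mpr (Finset.mem_singleton.mpr h))

open Classical in
/-- The product of the slots below, starting at a place. -/
def prod3 (j : F.ι) (u : C.Fib v') : LocKer C.UK v' :=
  F.kS j u * (F.kS j (C.next u) * F.kS j (C.next (C.next u)))

open Classical in
/-- The piece below. -/
def pieceK (u : C.Fib v') (j : F.ι) : KerData C.UK where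
  inf _ := (F.k j).comp ((F.k j).comp (F.k j))
  fin v := if h : v = v' then h ▸ F.prod3 j u else 1
  S := {v'}
  fin_eq_one _ hv := dif_neg fun h => hv (Finset.mem_singleton.mpr h)

/-- Every left multiple of the sum above has bounded automorphisation. -/
def BddL : Prop :=
  ∀ E : KerData C.UL, ∃ B, ∀ x y, ‖∑ j, (F.a j : ℂ) * (E * F.pieceL j).toPtKer.aut x y‖ ≤ B

/-- Every left multiple of the sum below has bounded automorphisation. -/
def BddK (u : C.Fib v') : Prop :=
  ∀ E : KerData C.UK, ∃ B, ∀ x y, ‖∑ j, (F.a j : ℂ) * (E * F.pieceK u j).toPtKer.aut x y‖ ≤ B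

/-- The sum above multiplies a function by a nonzero number. -/
def Scalar (φ : Space C.UL → ℂ) : Prop :=
  ∃ l : ℂ, l ≠ 0 ∧ ∀ x, ∑ j, (F.a j : ℂ) * (F.pieceL j).toPtKer.act φ x = l * φ x

/-- With every kernel multiplied in, the sum of the family has bounded automorphisation above and,
read at the place `u`, below; and it multiplies `φ` by a nonzero number. -/
structure Isolates (u : C.Fib v') (φ : Space C.UL → ℂ) : Prop where
  bddL : F.BddL
  bddK : F.BddK u
  scalar : F.Scalar φ

end Fam

/-- For every finite combination of systems of kernels trivial at the split place `v₀` there is a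
range `R` such that, after a kernel flat up to `R` is inserted at `u₀`, if the combined automorphic
kernels are bounded on both sides then the trace twisted by the automorphism over `sL` equals the
trace over `sK`. -/
def GeoEq {C : Ctx K L} (D : C.Bad) {v₀ : HeightOneSpectrum (𝓞 K)} (u₀ : C.Fib v₀)
    (sL : Set (Space C.UL)) (sK : Set (Space C.UK)) : Prop :=
  ∀ (ι : Type) [Fintype ι] (coef : ι → ℂ) (S : ι → Ctx.Sys D),
    (∀ i u, (S i).kS v₀ u = 1) →
    ∃ R : ℕ, ∀ k : LocKer C.UK v₀, FlatK R k → ∀ S' : ι → Ctx.Sys D,
      (∀ i, (S i).Inserted (S' i) u₀ k) →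
      (∃ B, ∀ x y, ‖∑ i, coef i * (S' i).P.up.toPtKer.aut x y‖ ≤ B) →
      (∃ B, ∀ x y, ‖∑ i, coef i * (S' i).P.down.toPtKer.aut x y‖ ≤ B) →
      ∫ x in sL, ∑ i, coef i * (S' i).P.up.toPtKer.aut (C.X.σ.map x) x ∂Space.vol C.UL =
        ∫ x in sK, ∑ i, coef i * (S' i).P.down.toPtKer.aut x x ∂Space.vol C.UK

end FermatAgent.LT2.Spec

end
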