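import Mathlib
import Fermat.Agent.LT.Descent.Spec.Setup
import Fermat.Agent.LT.Descent.Spec.Radial
import Fermat.Agent.LT2.Automorphic
import Fermat.Agent.LT2.Spec.Data
import Fermat.Agent.LT2.Spec.Slots

/-!
# The base sums of the descent at deep levels

Above, the profile kernel at each place at infinity and the idempotents at the bad places times the
family at the auxiliary place; below, the cube of the profile kernel and the idempotents at the
split bad places times the family below.
-/

set_option autoImplicit false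

noncomputable section

open Matrix IsDedekindDomain NumberField Filter MeasureTheory
open scoped MatrixGroups ENNReal ComplexConjugate InnerProductSpace ContDiff

namespace FermatAgent.LT2.Spec

open FermatAgent.LT

section General

variable {L : Type} [Field L] [NumberField L] {U : Level L}

/-- A measurable fundamental domain. -/
lemma exists_dom [IsTotallyComplex L] (U : Level L) :
    ∃ s : Set (Space U), MeasurableSet s ∧ IsFundamentalDomain (G2 L) s (Space.vol U) := by
  obtain ⟨s, hm, h⟩ := Space.exists_fundamentalDomain (U := U) (⊤ : Subgroup (G2 L))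
  have h' := h.image_of_equiv (Equiv.refl _) (Measure.QuasiMeasurePreserving.id _)
    Subgroup.topEquiv.symm.toEquiv fun g x => rfl
  exact ⟨s, hm, by simpa using h'⟩

lemma finOp_const_mul {v : HeightOneSpectrum (𝓞 L)} (A : LocKer U v) (c : ℂ) (f : Space U → ℂ)
    (x : Space U) : finOp A (fun y => c * f y) x = c * finOp A f x := by
  simp only [finOp, Finset.mul_sum, mul_left_comm c]

/-- The local operator of one. -/
lemma finOp_one {v : HeightOneSpectrum (𝓞 L)} (f : Space U → ℂ) (x : Space U) :
    finOp (1 : LocKer U v) f x = f x := by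
  classical
  rw [finOp, ← LocKer.tsum_row_eq, tsum_eq_single (x.2.1 v) fun d hd => by
    rw [LocKer.one_k, if_neg (Ne.symm hd), zero_mul], LocKer.one_k, if_pos rfl, one_mul,
    show x.2.update v (x.2.1 v) = x.2 from FinCoset.ext fun z => by
      by_cases hz : z = v
      · subst hz; exact x.2.update_val_self _ _
      · exact x.2.update_val_ne hz _]

/-- An eigenvalue of a base on an invariant bounded function is real. -/
theorem Base.conj_eigenvalue (B : Base U) {φ : Space U → ℂ} (hm : Measurable φ) {M : ℝ}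
    (hM : ∀ y, ‖φ y‖ ≤ M) (hinv : ∀ (γ : G2 L) y, φ (γ • y) = φ y) {c : ℂ} (hc : c ≠ 0)
    (heig : ∀ x, B.S₀.pt.act φ x = c * φ x) (hne : φ ≠ 0) : conj c = c := by
  have hφ : MemLp φ 2 ((Space.vol U).restrict B.s) :=
    MemLp.of_bound hm.aestronglyMeasurable M (ae_of_all _ hM)
  have hg : B.T (hφ.toLp φ) = c • hφ.toLp φ := by
    refine Lp.ext ?_
    filter_upwards [SK.op_apply_invariant B.isAut_S₀ B.isFD hm hinv hM hφ.coeFn_toLp,
      Lp.coeFn_smul c (hφ.toLp φ), hφ.coeFn_toLp] with x h1 h2 h3
    rw [h2, Pi.smul_apply, smul_eq_mul, h3, ← heig]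
    exact h1
  refine Isolation.eigen_real B.isSymmetric_T (Module.End.mem_eigenspace_iff.mpr hg)
    fun h0 => hne ?_
  funext x
  have hae : φ =ᵐ[(Space.vol U).restrict B.s] 0 := by
    filter_upwards [hφ.coeFn_toLp, Lp.coeFn_zero ℂ 2 ((Space.vol U).restrict B.s)] with y h1 h2
    rw [← h1, h0, h2]
  have hx := heig x
  rw [PtKer.act, B.S₀.pt.integral_row_eq_setIntegral hm hinv hM B.isFD,
    integral_congr_ae (g := fun _ => (0 : ℂ)) (hae.mono fun y hy => by simp [hy]),
    integral_zero] at hx
  exact (mul_eq_zero.mp hx.symm).resolve_left hc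

variable {K : Type} [Field K] [NumberField K] [Algebra K L]

open Classical in
/-- The profile kernels with idempotents which fix a radial eigenfunction act as a number. -/
theorem act_profile (X : TwistCtx K L) {φ : Space U → ℂ} (hm : Measurable φ) {M : ℝ}
    (hM : ∀ y, ‖φ y‖ ≤ M)
    (hrad : ∀ (w : InfinitePlace L) (k : ℝ → ℝ), ContDiff ℝ ∞ k → HasCompactSupport k →
      ∀ x, radialOp w (fun p q => k (H3.coshDist p q)) φ x = Whit.hT k * φ x)
    (D : KerData U) (hi : ∀ w, D.inf w = LT.Spec.k0)
    (hf : ∀ w x, finOp (D.fin w) φ x = φ x) (x : Space U) :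
    D.toPtKer.act φ x = (LT.Spec.h0 : ℂ) ^ 3 * φ x := by
  suffices key : ∀ (s : Finset (HeightOneSpectrum (𝓞 L))) (D : KerData U),
      (∀ w ∉ s, D.fin w = 1) → (∀ w, D.inf w = LT.Spec.k0) →
      (∀ w x, finOp (D.fin w) φ x = φ x) →
      ∀ x, D.toPtKer.act φ x = (LT.Spec.h0 : ℂ) ^ 3 * φ x from
    key D.S D D.fin_eq_one hi hf x
  intro s
  induction s using Finset.induction_on with
  | empty =>
    intro D h1 hi _ x
    have hd : ∀ e, D.kfin x.2 e = if x.2 = e then 1 else 0 := fun e => by
      rw [KerData.kfin_congr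
        (E := { D with fin := fun _ => 1, S := ∅, fin_eq_one := fun _ _ => rfl })
        (fun v => h1 v (Finset.notMem_empty v))]
      simp only [KerData.kfin, Finset.notMem_empty, not_false_eq_true, forall_const,
        Finset.prod_empty]
      exact if_congr ⟨fun h => FinCoset.ext h, fun h u => h ▸ rfl⟩ rfl rfl
    rw [act_eq_tsum D hm hM, tsum_eq_single x.2 fun e he => by
      rw [hd, if_neg (Ne.symm he), zero_mul], hd, if_pos rfl, one_mul]
    have hk : ∀ p, D.kinf x.1 p = ∏ w, LT.Spec.k0.k (x.1 w) (p w) := fun p => by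
      simp only [KerData.kinf, hi]
    simp only [hk]
    refine X.integral_prod_kernel (f := fun p => φ (p, x.2)) (hm.comp measurable_prodMk_right)
      (fun p => hM _) (fun w y => ?_) x.1
    have h := hrad w Whit.bump Whit.contDiff_bump Whit.bump.hasCompactSupport (y, x.2)
    rw [radialOp, LT.Spec.hT_bump] at h
    exact h
  | insert w s hw ih =>
    intro D h1 hi hf x
    let D' : KerData U :=
      { D with
        fin := Function.update D.fin w 1
        fin_eq_one := fun u hu => by
          by_cases e : u = w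
          · subst e; simp
          · rw [Function.update_of_ne e]; exact D.fin_eq_one u hu }
    have h' : ∀ u, D'.fin u = Function.update D.fin w 1 u := fun _ => rfl
    have e : D.toPtKer.k = (((1 : Mods U).setFin w (D.fin w)).ext D').toPtKer.k := by
      refine KerData.toPtKer_congr (fun u => rfl) fun u => ?_
      by_cases e : u = w
      · subst e; simp [Mods.ext_fin, Mods.setFin, h']
      · simp [Mods.ext_fin, Mods.setFin, h', e]
    rw [PtKer.act_congr e, ← finOp_act' D' (D.fin w) hm hM x,
      funext (ih D' (fun u hu => ?_) hi fun u y => ?_), finOp_const_mul, hf]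
    · rw [h']
      by_cases e : u = w
      · subst e; simp
      · rw [Function.update_of_ne e]; exact h1 u (by simp [e, hu])
    · rw [h']
      by_cases e : u = w
      · subst e
        rw [Function.update_self, finOp_one]
      · rw [Function.update_of_ne e]; exact hf u y

end General

variable {K L : Type} [Field K] [NumberField K] [Field L] [NumberField L] [Algebra K L]
  {C : Ctx K L} (D : C.Bad) {v' : HeightOneSpectrum (𝓞 K)} (F : Fam C v')

open Classical in
/-- The components of the base below: the idempotents at the split bad places. -/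
def finK (v : HeightOneSpectrum (𝓞 K)) : LocKer C.UK v :=
  if v ∈ C.S ∧ C.IsSplit v then D.eK v else 1

/-- The finite component at a good place is one. -/
lemma finK_notMem {v : HeightOneSpectrum (𝓞 K)} (hv : v ∉ C.S) : finK D v = 1 :=
  if_neg fun h => hv h.1

/-- The finite component at a split place. -/
lemma finK_split {v : HeightOneSpectrum (𝓞 K)} (hv : C.IsSplit v) : finK D v = D.eK v := by
  by_cases h : v ∈ C.S
  · exact if_pos ⟨h, hv⟩
  · rw [finK_notMem D h, D.eK_one v h]

/-- The finite component at a non-split place is one. -/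
lemma finK_nonsplit {v : HeightOneSpectrum (𝓞 K)} (hv : ¬C.IsSplit v) : finK D v = 1 :=
  if_neg fun h => hv h.2

lemma isHerm_finK (v : HeightOneSpectrum (𝓞 K)) : (finK D v).IsHerm := by
  unfold finK
  split_ifs
  · exact D.eK_herm v
  · exact LocKer.isHerm_one

/-- The finite components are idempotent. -/
lemma finK_idem (v : HeightOneSpectrum (𝓞 K)) : finK D v * finK D v = finK D v := by
  unfold finK
  split_ifs
  · exact D.eK_idem v
  · exact mul_one _

/-- The fixed factor above. -/
def e0L : KerData C.UL where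
  inf _ := LT.Spec.k0
  fin := D.eL
  S := TwistCtx.KerPair.above (B := C.B) C.S
  fin_eq_one w hw := D.eL_one w fun h => hw (TwistCtx.KerPair.mem_above.mpr h)

/-- The fixed factor below. -/
def e0K : KerData C.UK where
  inf _ := LT.Spec.k0.comp (LT.Spec.k0.comp LT.Spec.k0)
  fin := finK D
  S := C.S
  fin_eq_one _ hv := finK_notMem D hv

/-- Local kernels above good places commute. -/
lemma comm_maxL {w : HeightOneSpectrum (𝓞 L)} (hw : C.b w ∉ C.S) (A B : LocKer C.UL w) :
    A * B = B * A :=
  Cusp.locKer_mul_comm (C.UL_else w hw) A B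

/-- Local kernels at good places commute. -/
lemma comm_maxK {v : HeightOneSpectrum (𝓞 K)} (hv : v ∉ C.S) (A B : LocKer C.UK v) :
    A * B = B * A :=
  Cusp.locKer_mul_comm (C.UK_else v hv) A B

open Classical in
/-- Pieces above are trivial away from the anchor. -/
lemma Fam.pieceL_fin_ne {w : HeightOneSpectrum (𝓞 L)} (hw : C.b w ≠ v') (j : F.ι) :
    (F.pieceL j).fin w = 1 := dif_neg hw

open Classical in
/-- Pieces above at the anchor. -/
lemma Fam.pieceL_fin_over (u : C.Fib v') (j : F.ι) : (F.pieceL j).fin u.1 = F.kw j u := by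
  simp [Fam.pieceL, u.2]

open Classical in
/-- Pieces below are trivial away from the anchor. -/
lemma Fam.pieceK_fin_ne (u : C.Fib v') {v : HeightOneSpectrum (𝓞 K)} (hv : v ≠ v') (j : F.ι) :
    (F.pieceK u j).fin v = 1 := dif_neg hv

open Classical in
/-- Pieces below at the anchor. -/
lemma Fam.pieceK_fin_self (u : C.Fib v') (j : F.ι) : (F.pieceK u j).fin v' = F.prod3 j u := by
  simp [Fam.pieceK]

lemma pieceL_bad {w : HeightOneSpectrum (𝓞 L)} (hw : C.b w ∈ C.S) (j : F.ι) :
    (F.pieceL j).fin w = 1 :=
  F.pieceL_fin_ne (fun h => F.notMem (h ▸ hw)) j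

lemma pieceK_bad (u : C.Fib v') {v : HeightOneSpectrum (𝓞 K)} (hv : v ∈ C.S) (j : F.ι) :
    (F.pieceK u j).fin v = 1 :=
  F.pieceK_fin_ne u (fun h => F.notMem (h ▸ hv)) j

variable [IsTotallyComplex K] [IsTotallyComplex L]

variable (C) in
/-- A fundamental domain above. -/
def domL : Set (Space C.UL) := (exists_dom C.UL).choose

variable (C) in
/-- A fundamental domain below. -/
def domK : Set (Space C.UK) := (exists_dom C.UK).choose

/-- The base above. -/
def baseL (hB : F.BddL) : Base C.UL where
  s := domL C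
  isFD := (exists_dom C.UL).choose_spec.2
  finite := ⟨by
    rw [Measure.restrict_apply_univ]
    exact measure_fundamentalDomain_lt_top C.congrL (exists_dom C.UL).choose_spec.2⟩
  ι := F.ι
  a := F.a
  D j := e0L D * F.pieceL j
  bdd m := by
    obtain ⟨B, hB⟩ := hB (m.ext (e0L D))
    exact (SK.isAut_iff _).mpr ⟨B, fun x y => by
      refine le_of_eq_of_le (congrArg _ (Finset.sum_congr rfl fun j _ => ?_)) (hB x y)
      exact congrArg ((F.a j : ℂ) * ·)
        (congrFun (congrFun (PtKer.aut_congr (m.ext_comp (e0L D) (F.pieceL j))) x) y)⟩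
  real j w := LT.Spec.k0_isReal.comp (F.real j)
  herm j w := by
    show (D.eL w * (F.pieceL j).fin w).IsHerm
    by_cases h : C.b w ∈ C.S
    · rw [pieceL_bad F h, mul_one]; exact D.eL_herm w
    · rw [D.eL_one w h, one_mul]
      by_cases h' : C.b w = v'
      · rw [F.pieceL_fin_over ⟨w, h'⟩]; exact F.kw_herm _ _
      · rw [F.pieceL_fin_ne h']; exact LocKer.isHerm_one
  comm j l w := by
    show Commute (D.eL w * (F.pieceL j).fin w) (D.eL w * (F.pieceL l).fin w)
    by_cases h : C.b w ∈ C.S
    · rw [pieceL_bad F h, pieceL_bad F h]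
    · exact comm_maxL h _ _

/-- The base below. -/
def baseK (u : C.Fib v') (hB : F.BddK u) : Base C.UK where
  s := domK C
  isFD := (exists_dom C.UK).choose_spec.2
  finite := ⟨by
    rw [Measure.restrict_apply_univ]
    exact measure_fundamentalDomain_lt_top C.congrK (exists_dom C.UK).choose_spec.2⟩
  ι := F.ι
  a := F.a
  D j := e0K D * F.pieceK u j
  bdd m := by
    obtain ⟨B, hB⟩ := hB (m.ext (e0K D))
    exact (SK.isAut_iff _).mpr ⟨B, fun x y => by
      refine le_of_eq_of_le (congrArg _ (Finset.sum_congr rfl fun j _ => ?_)) (hB x y)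
      exact congrArg ((F.a j : ℂ) * ·)
        (congrFun (congrFun (PtKer.aut_congr (m.ext_comp (e0K D) (F.pieceK u j))) x) y)⟩
  real j v := (LT.Spec.k0_isReal.comp (LT.Spec.k0_isReal.comp LT.Spec.k0_isReal)).comp
    ((F.real j).comp ((F.real j).comp (F.real j)))
  herm j v := by
    show (finK D v * (F.pieceK u j).fin v).IsHerm
    by_cases h : v ∈ C.S
    · rw [pieceK_bad F u h, mul_one]; exact isHerm_finK D v
    · rw [finK_notMem D h, one_mul]
      by_cases h' : v = v'
      · subst h'
        rw [F.pieceK_fin_self]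
        exact isHerm_mul (F.kS_herm _ _)
          (isHerm_mul (F.kS_herm _ _) (F.kS_herm _ _) (comm_maxK F.notMem _ _))
          (comm_maxK F.notMem _ _)
      · rw [F.pieceK_fin_ne u h']; exact LocKer.isHerm_one
  comm j l v := by
    show Commute (finK D v * (F.pieceK u j).fin v) (finK D v * (F.pieceK u l).fin v)
    by_cases h : v ∈ C.S
    · rw [pieceK_bad F u h, pieceK_bad F u h]
    · exact comm_maxK h _ _

variable {D F}

omit [IsTotallyComplex L] in
lemma baseK_fin {u : C.Fib v'} (hB : F.BddK u) (j : F.ι) (v : HeightOneSpectrum (𝓞 K)) :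
    ((baseK D F u hB).D j).fin v = finK D v * (F.pieceK u j).fin v := rfl

omit [IsTotallyComplex K] in
/-- Good places are free for the sum above. -/
lemma free_baseL (hB : F.BddL) {w : HeightOneSpectrum (𝓞 L)} (hw : C.b w ∉ C.S) :
    (baseL D F hB).Free w := fun A _ => comm_maxL hw A _

omit [IsTotallyComplex L] in
/-- Good places are free for the sum below. -/
lemma free_baseK {u : C.Fib v'} (hB : F.BddK u) {v : HeightOneSpectrum (𝓞 K)}
    (hv : v ∉ C.S ∨ ¬C.IsSplit v) : (baseK D F u hB).Free v := fun A j => by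
  by_cases h : v ∈ C.S
  · rw [baseK_fin, pieceK_bad F u h, finK_nonsplit D (hv.resolve_left (not_not.mpr h)), mul_one]
    exact Commute.one_right A
  · exact comm_maxK h A _

omit [IsTotallyComplex K] in
/-- The given eigenfunction is an eigenfunction of the base above with a real eigenvalue. -/
theorem exists_eigenvalue (hB : F.BddL) {φ : Space C.UL → ℂ} (hφ : IsEigenFun φ)
    (heL : ∀ w, C.b w ∈ C.S → ∀ x, finOp (D.eL w) φ x = φ x) (hsc : F.Scalar φ) (hne : φ ≠ 0) :
    ∃ μ : ℝ, μ ≠ 0 ∧ ∀ x, (baseL D F hB).S₀.pt.act φ x = (μ : ℂ) * φ x := by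
  obtain ⟨l, hl, hl'⟩ := hsc
  obtain ⟨hinv, hm, ⟨M, hM⟩, hrad⟩ := hφ
  let E : SK C.UL Unit := ⟨fun _ => 1, fun _ => e0L D⟩
  let P : SK C.UL F.ι := ⟨fun j => (F.a j : ℂ), F.pieceL⟩
  have hP : P.pt.act φ = fun y => l * φ y := funext fun y => (P.act_eq hm hM y).trans (hl' y)
  have hfix : ∀ w x, finOp ((e0L D).fin w) φ x = φ x := fun w x => by
    by_cases h : C.b w ∈ C.S
    · exact heL w h x
    · show finOp (D.eL w) φ x = φ x
      rw [D.eL_one w h, finOp_one]
  have heig : ∀ x, (baseL D F hB).S₀.pt.act φ x = l * (LT.Spec.h0 : ℂ) ^ 3 * φ x := fun x => by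
    have h1 : (baseL D F hB).S₀.pt.act φ x = (E * P).pt.act φ x := by
      rw [(baseL D F hB).S₀.act_eq hm hM, (E * P).act_eq hm hM, Fintype.sum_prod_type]
      refine (Eq.trans ?_ (Fintype.sum_unique _).symm)
      exact Finset.sum_congr rfl fun j _ => congrArg (· * _) (one_mul _).symm
    rw [h1, SK.act_mul E hm hM, hP, SK.act_const_mul, E.act_eq hm hM, Fintype.sum_unique,
      show E.a default = 1 from rfl, one_mul,
      show E.D default = e0L D from rfl,
      act_profile C.X hm hM hrad (e0L D) (fun _ => rfl) hfix x, mul_assoc]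
  have hc : l * (LT.Spec.h0 : ℂ) ^ 3 ≠ 0 :=
    mul_ne_zero hl (pow_ne_zero _ (Complex.ofReal_ne_zero.mpr LT.Spec.h0_ne))
  obtain ⟨μ, hμ⟩ := Complex.conj_eq_iff_real.mp
    ((baseL D F hB).conj_eigenvalue hm hM hinv hc heig hne)
  refine ⟨μ, fun h => hc (by rw [hμ, h, Complex.ofReal_zero]), fun x => ?_⟩
  rw [heig, hμ]

end FermatAgent.LT2.Spec

end
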