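import Mathlib
import Fermat.Agent.LT2.Spec.Tw

/-!
# Products along the index of the trace terms

The pieces of a trace term are products along tuples; their components and weights are the products
of the components and weights of the entries.
-/

set_option autoImplicit false

noncomputable section

open Matrix IsDedekindDomain NumberField Filter MeasureTheory
open scoped MatrixGroups

namespace FermatAgent.LT2.Spec

open FermatAgent.LT

variable {ι : Type} {M N : Type*}

/-- The product along a power index. -/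
def pProd (op : M → M → M) (f : ι → M) : ∀ i, PIx ι i → M
  | 0, j => f j
  | i + 1, (l, j) => op (pProd op f i l) (f j)

/-- The product along the index of a trace term. -/
def tProd (op : M → M → M) (f : ι → M) (i : ℕ) (t : TIx ι i) : M :=
  op (op (op (f t.1.1.1) (f t.1.1.2)) (pProd op f i t.1.2)) (f t.2)

lemma pProd_rel {op : M → M → M} {op' : N → N → N} (R : M → N → Prop)
    (hop : ∀ a b a' b', R a a' → R b b' → R (op a b) (op' a' b')) {f : ι → M} {g : ι → N}
    (h : ∀ j, R (f j) (g j)) : ∀ i l, R (pProd op f i l) (pProd op' g i l)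
  | 0, j => h j
  | i + 1, (l, j) => hop _ _ _ _ (pProd_rel R hop h i l) (h j)

/-- Related entries give related products. -/
lemma tProd_rel {op : M → M → M} {op' : N → N → N} (R : M → N → Prop)
    (hop : ∀ a b a' b', R a a' → R b b' → R (op a b) (op' a' b')) {f : ι → M} {g : ι → N}
    (h : ∀ j, R (f j) (g j)) (i : ℕ) (t : TIx ι i) : R (tProd op f i t) (tProd op' g i t) :=
  hop _ _ _ _ (hop _ _ _ _ (hop _ _ _ _ (h _) (h _)) (pProd_rel R hop h i _)) (h _)

/-- Products of a constant idempotent. -/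
lemma tProd_idem [Mul M] {e : M} (he : e * e = e) {f : ι → M} (h : ∀ j, f j = e) (i : ℕ)
    (t : TIx ι i) : tProd (· * ·) f i t = e :=
  tProd_rel (fun (a : M) (_ : M) => a = e) (op' := (· * ·))
    (fun a b _ _ ha hb => by rw [ha, hb, he]) (g := f) h i t

/-- Products multiply in a commutative semigroup. -/
lemma tProd_mul [Semigroup M] (hc : ∀ a b : M, a * b = b * a) (f g : ι → M) (i : ℕ)
    (t : TIx ι i) :
    tProd (· * ·) (fun j => f j * g j) i t = tProd (· * ·) f i t * tProd (· * ·) g i t := by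
  have h4 : ∀ a b c d : M, a * b * (c * d) = a * c * (b * d) := fun a b c d => by
    rw [mul_assoc, ← mul_assoc b, hc b c, mul_assoc c, ← mul_assoc]
  have hp : ∀ i l, pProd (· * ·) (fun j => f j * g j) i l =
      pProd (· * ·) f i l * pProd (· * ·) g i l := by
    intro i
    induction i with
    | zero => intro j; rfl
    | succ i ih =>
      rintro ⟨l, j⟩
      simp only [pProd, ih]
      exact h4 _ _ _ _
  simp only [tProd, hp]
  rw [h4 (f t.1.1.1) (g t.1.1.1) (f t.1.1.2) (g t.1.1.2),
    h4 (f t.1.1.1 * f t.1.1.2) (g t.1.1.1 * g t.1.1.2) (pProd (· * ·) f i t.1.2)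
      (pProd (· * ·) g i t.1.2),
    h4 (f t.1.1.1 * f t.1.1.2 * pProd (· * ·) f i t.1.2)
      (g t.1.1.1 * g t.1.1.2 * pProd (· * ·) g i t.1.2) (f t.2) (g t.2)]

variable {L : Type} [Field L] [NumberField L] {U : Level L}

namespace Base

variable (B : Base U)

lemma pwS_D_fin (v : HeightOneSpectrum (𝓞 L)) : ∀ i l,
    ((B.pwS i).D l).fin v = pProd (· * ·) (fun j => (B.D j).fin v) i l
  | 0, _ => rfl
  | i + 1, (l, j) => congrArg (· * (B.D j).fin v) (pwS_D_fin v i l)

lemma pwS_D_rk (w : InfinitePlace L) : ∀ i l,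
    (((B.pwS i).D l).inf w).rk = pProd (· * ·) (fun j => ((B.D j).inf w).rk) i l
  | 0, _ => rfl
  | i + 1, (l, j) =>
    (InfKer.rk_comp _ _).trans (congrArg (· * ((B.D j).inf w).rk) (pwS_D_rk w i l))

lemma pwS_a : ∀ i l, (B.pwS i).a l = pProd (· * ·) (fun j => (B.a j : ℂ)) i l
  | 0, _ => rfl
  | i + 1, (l, j) => congrArg (· * (B.a j : ℂ)) (pwS_a i l)

/-- The coefficient of a trace term. -/
lemma trS_a (m : Mods U) (i : ℕ) (t : TIx B.ι i) :
    (B.trS m i).a t = tProd (· * ·) (fun j => (B.a j : ℂ)) i t := by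
  obtain ⟨⟨⟨j, l⟩, p⟩, c⟩ := t
  show (B.a j : ℂ) * (B.a l : ℂ) * (B.pwS i).a p * (B.a c : ℂ) = _
  rw [B.pwS_a]
  rfl

/-- The finite components of a trace term. -/
lemma trS_fin (m : Mods U) (i : ℕ) (t : TIx B.ι i) (v : HeightOneSpectrum (𝓞 L)) :
    ((B.trS m i).D t).fin v = m.A v * tProd (· * ·) (fun j => (B.D j).fin v) i t := by
  obtain ⟨⟨⟨j, l⟩, p⟩, c⟩ := t
  show m.A v * (B.D j).fin v * (B.D l).fin v * ((B.pwS i).D p).fin v * (B.D c).fin v = _
  rw [B.pwS_D_fin]
  simp only [tProd, mul_assoc]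

/-- The archimedean components of a trace term. -/
lemma trS_rk {m : Mods U} {w : InfinitePlace L} {q : InfKer} (hq : m.q w = some q) (i : ℕ)
    (t : TIx B.ι i) :
    (((B.trS m i).D t).inf w).rk =
      q.rk * tProd (· * ·) (fun j => ((B.D j).inf w).rk) i t := by
  obtain ⟨⟨⟨j, l⟩, p⟩, c⟩ := t
  show (((((m.ext (B.D j)).inf w).comp ((B.D l).inf w)).comp (((B.pwS i).D p).inf w)).comp
    ((B.D c).inf w)).rk = _
  rw [InfKer.rk_comp, InfKer.rk_comp, InfKer.rk_comp, B.pwS_D_rk, Mods.ext_inf, hq]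
  simp only [Mods.app, Option.elim, InfKer.rk_comp, tProd, mul_assoc]

end Base

end FermatAgent.LT2.Spec

end
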