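import Mathlib
import Fermat.Agent.LT2.Bad.Levels
import Fermat.Agent.LT2.Glue.Split
import Fermat.Agent.LT2.Spec.Adj

/-!
# Local kernels above and below at a split place

At a split place a kernel above and a kernel below agree on the cosets of the base; this relation
passes to products and to polynomials of the adjacency kernel.
-/

set_option autoImplicit false

noncomputable section

open Matrix IsDedekindDomain NumberField WithZero
open scoped MatrixGroups ComplexConjugate

namespace FermatAgent.LT2.Spec

open FermatAgent.LT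

variable {K L : Type} [Field K] [NumberField K] [Field L] [NumberField L] [Algebra K L]
  {C : Ctx K L} {v : HeightOneSpectrum (𝓞 K)}

/-- A kernel above agrees with a kernel below on the cosets of the base. -/
def Up (u : C.Fib v) (A : LocKer C.UL u.1) (B : LocKer C.UK v) : Prop :=
  ∀ a b, A.k (C.up u a) (C.up u b) = B.k a b

variable (hv : C.IsSplit v) {u : C.Fib v}

include hv in
/-- One corresponds to one. -/
lemma Up.one : Up u (1 : LocKer C.UL u.1) (1 : LocKer C.UK v) := fun a b => by
  classical
  rw [LocKer.one_k, LocKer.one_k]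
  exact if_congr (C.up_bijective hv u).1.eq_iff rfl rfl

include hv in
/-- Corresponding kernels multiply. -/
lemma Up.mul {A A' : LocKer C.UL u.1} {B B' : LocKer C.UK v} (h : Up u A B) (h' : Up u A' B') :
    Up u (A * A') (B * B') := fun a b => by
  rw [LocKer.mul_k, LocKer.mul_k, ← (Equiv.ofBijective _ (C.up_bijective hv u)).tsum_eq]
  exact tsum_congr fun d => by rw [Equiv.ofBijective_apply, h, h']

lemma Up.lin {A A' : LocKer C.UL u.1} {B B' : LocKer C.UK v} (h : Up u A B) (h' : Up u A' B')
    (c : ℂ) : Up u (A.lin A' c) (B.lin B' c) := fun a b => by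
  rw [LocKer.lin_k, LocKer.lin_k, h, h']

include hv in
lemma incl_mem_heckeSet (g : G2 K) :
    TwistCtx.incl (K := K) (L := L) g ∈ heckeSet u.1 ↔ g ∈ heckeSet v := by
  obtain ⟨g, rfl⟩ := ProjGenLinGroup.mk_surjective g
  have hval : ∀ x : K, u.1.valuation L (algebraMap K L x) = v.valuation K x := fun x => by
    rw [C.toSetup.val_of_moved (hv u.1 u.2) x, u.2]
  simp only [TwistCtx.incl, ProjGenLinGroup.map_mk]
  set φ := algebraMap K L
  constructor
  · rintro ⟨h, ⟨hle, hdet⟩, e⟩
    rw [Matrix.ProjGenLinGroup.mk_eq_mk_iff] at e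
    obtain ⟨a, ha⟩ := e
    obtain ⟨π, hπ⟩ := v.valuation_exists_uniformizer K
    have ha0 : u.1.valuation L (a : L) ≠ 0 := (Valuation.ne_zero_iff _).2 a.ne_zero
    set n := log (u.1.valuation L (a : L))
    have hπ0 : π ≠ 0 := fun h => by rw [h, map_zero] at hπ; exact exp_ne_zero hπ.symm
    set μ : Kˣ := Units.mk0 (π ^ n) (zpow_ne_zero _ hπ0)
    have hμ : u.1.valuation L (φ (μ : K)) * u.1.valuation L (a : L) = 1 := by
      rw [hval, Units.val_mk0, map_zpow₀, hπ, ← WithZero.exp_zsmul, ← exp_log ha0, ← exp_add,
        smul_eq_mul, ← exp_zero, exp_inj]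
      simp [n]
    have hk : ∀ i j, v.valuation K ((g * sc μ).val i j) = u.1.valuation L (h.val i j) := by
      intro i j
      have := congrArg (fun m : GL (Fin 2) L => m.val i j) ha
      simp only [GeneralLinearGroup.map_apply, GeneralLinearGroup.coe_scalar, Units.val_mul,
        Matrix.scalar_apply, Matrix.mul_diagonal] at this
      rw [← hval, Units.val_mul, sc_val, mul_smul_comm, mul_one, Matrix.smul_apply,
        smul_eq_mul, map_mul, map_mul, show φ (g.val i j) = _ from this.symm, map_mul,
        mul_left_comm, hμ, mul_one]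
    refine ⟨g * sc μ, ⟨fun i j => (hk i j).trans_le (hle i j), ?_⟩, ?_⟩
    · have hd : u.1.valuation L h.val.det * u.1.valuation L (a : L) ^ 2 =
          u.1.valuation L (φ g.val.det) := by
        have := congrArg (fun m : GL (Fin 2) L => u.1.valuation L m.val.det) ha
        simpa [Matrix.det_fin_two, Matrix.mul_apply, Fin.sum_univ_two,
          GeneralLinearGroup.coe_scalar,
          φ, ← map_pow, ← map_mul, mul_mul_mul_comm, sq, sub_mul] using this
      rw [Units.val_mul, Matrix.det_mul, det_sc, ← hval, map_mul, map_mul, ← hd,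
        map_pow, map_pow, mul_assoc, ← mul_pow, mul_comm (u.1.valuation L (a : L)), hμ, one_pow,
        mul_one, hdet]
    · rw [map_mul, ProjGenLinGroup.mk_scalar, mul_one]
  · rintro ⟨h, ⟨hle, hdet⟩, e⟩
    refine ⟨GeneralLinearGroup.map φ h, ⟨fun i j => ?_, ?_⟩, ?_⟩
    · rw [GeneralLinearGroup.map_apply, hval]
      exact hle i j
    · show u.1.valuation L (h.val.map φ).det = _
      rw [← RingHom.mapMatrix_apply, ← RingHom.map_det, hval, hdet]
    · rw [← ProjGenLinGroup.map_mk, e, ProjGenLinGroup.map_mk]

include hv in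
/-- The adjacency kernels. -/
lemma Up.hecke (hvK : C.UK.loc v = locK v) (hvL : C.UL.loc u.1 = locK u.1) :
    Up u (LocKer.hecke hvL) (LocKer.hecke hvK) := fun a b => by
  classical
  induction a using QuotientGroup.induction_on with | H x =>
  induction b using QuotientGroup.induction_on with | H y =>
  show (LocKer.hecke hvL).k (QuotientGroup.mk (TwistCtx.incl (K := K) (L := L) x))
    (QuotientGroup.mk (TwistCtx.incl (K := K) (L := L) y)) =
      (LocKer.hecke hvK).k (QuotientGroup.mk x) (QuotientGroup.mk y)
  simp only [LocKer.hecke_k, FinCoset.mem_adj_iff, ← map_inv, ← map_mul,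
    incl_mem_heckeSet hv]

include hv in
lemma Up.pow {A : LocKer C.UL u.1} {B : LocKer C.UK v} (h : Up u A B) :
    ∀ n : ℕ, Up u (A ^ n) (B ^ n)
  | 0 => by simpa only [pow_zero] using Up.one hv
  | n + 1 => by simpa only [pow_succ] using (Up.pow h n).mul hv h

include hv in
/-- Polynomials of corresponding kernels correspond. -/
lemma Up.poly {A : LocKer C.UL u.1} {B : LocKer C.UK v} (h : Up u A B) (P : ℕ → ℂ) :
    ∀ n : ℕ, Up u (A.poly P n) (B.poly P n)
  | 0 => (Up.one hv).lin (Up.one hv) _
  | n + 1 => (Up.poly h P n).lin (h.pow hv _) _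

include hv in
/-- The polynomials of the divided adjacency kernels. -/
lemma Up.pkS (hvK : C.UK.loc v = locK v) (hvL : C.UL.loc u.1 = locK u.1) (s : ℝ)
    (P : Polynomial ℝ) : Up u (Spec.pkS hvL s P) (Spec.pkS hvK s P) :=
  (Up.hecke hv hvK hvL).poly hv _ _

end FermatAgent.LT2.Spec

end
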