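import Mathlib
import Fermat.Agent.LT2.Spec.Setup
import Fermat.Agent.LT2.Spec.Tuple
import Fermat.Agent.LT2.Spec.Up

/-!
# The systems of kernels of the trace terms

A selection fixes the kernel at infinity and the polynomials at finitely many split places; every
piece of a trace term of the modified bases is the pair of kernels of a system, and inserting a
kernel in the variable slots inserts it in the system.
-/

set_option autoImplicit false

noncomputable section

open Matrix IsDedekindDomain NumberField Filter MeasureTheory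
open scoped MatrixGroups ENNReal ComplexConjugate

namespace FermatAgent.LT2.Spec

open FermatAgent.LT

variable {K L : Type} [Field K] [NumberField K] [Field L] [NumberField L] [Algebra K L]
  [IsTotallyComplex K] [IsTotallyComplex L] {C : Ctx K L}

lemma isFlip_k0 : LT.Spec.k0.IsFlip := Profile.isFlip _

/-- A choice of the kernel at infinity and of polynomials at finitely many split places. -/
structure Sel (C : Ctx K L) (v₀ : HeightOneSpectrum (𝓞 K)) where
  /-- the places -/
  F : Finset (HeightOneSpectrum (𝓞 K))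
  split : ∀ v ∈ F, C.IsSplit v
  good : ∀ v ∈ F, v ∉ C.S
  ne : ∀ v ∈ F, v ≠ v₀
  /-- the coefficients -/
  P : HeightOneSpectrum (𝓞 K) → ℕ → ℂ
  /-- the degrees -/
  n : HeightOneSpectrum (𝓞 K) → ℕ
  /-- the kernel at infinity -/
  q : InfKer
  flip : q.IsFlip

namespace Sel

omit [IsTotallyComplex K] [IsTotallyComplex L]

variable {v₀ : HeightOneSpectrum (𝓞 K)} (Z : Sel C v₀)

open Classical in
/-- The polynomial above. -/
def AL (w : HeightOneSpectrum (𝓞 L)) : LocKer C.UL w :=
  if h : C.b w ∈ Z.F then
    (LocKer.hecke (C.UL_else w (Z.good _ h))).poly (Z.P (C.b w)) (Z.n (C.b w))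
  else 1

open Classical in
/-- The polynomial below. -/
def AK (v : HeightOneSpectrum (𝓞 K)) : LocKer C.UK v :=
  if h : v ∈ Z.F then (LocKer.hecke (C.UK_else v (Z.good v h))).poly (Z.P v) (Z.n v) else 1

/-- The modification above. -/
def modL : Mods C.UL where
  q _ := some Z.q
  A := Z.AL
  S := TwistCtx.KerPair.above (B := C.B) Z.F
  A_one _ hw := dif_neg fun h => hw (TwistCtx.KerPair.mem_above.mpr h)

/-- The component below is one away from the finite set. -/
lemma AK_notMem {v : HeightOneSpectrum (𝓞 K)} (h : v ∉ Z.F) : Z.AK v = 1 := dif_neg h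

/-- The component above is one away from the finite set. -/
lemma AL_notMem {w : HeightOneSpectrum (𝓞 L)} (h : C.b w ∉ Z.F) : Z.AL w = 1 := dif_neg h

variable (D : C.Bad)

open Classical in
/-- The components of the modification below. -/
def KK (v : HeightOneSpectrum (𝓞 K)) : LocKer C.UK v :=
  if v ∈ C.S ∧ ¬C.IsSplit v then D.fK v else Z.AK v * (Z.AK v * Z.AK v)

lemma KK_split {v : HeightOneSpectrum (𝓞 K)} (h : C.IsSplit v) :
    Z.KK D v = Z.AK v * (Z.AK v * Z.AK v) := if_neg fun e => e.2 h

/-- The modified component at a bad non-split place. -/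
lemma KK_bad {v : HeightOneSpectrum (𝓞 K)} (h : v ∈ C.S) (hs : ¬C.IsSplit v) :
    Z.KK D v = D.fK v := if_pos ⟨h, hs⟩

/-- The modified component is one elsewhere. -/
lemma KK_one {v : HeightOneSpectrum (𝓞 K)} (hF : v ∉ Z.F) (h : v ∉ C.S ∨ C.IsSplit v) :
    Z.KK D v = 1 := by
  unfold KK
  rw [if_neg fun e => (h.elim (fun h => h e.1) e.2), Z.AK_notMem hF, mul_one, mul_one]

open Classical in
/-- The modification below. -/
def modK : Mods C.UK where
  q _ := some ((Z.q.comp Z.q).comp Z.q)
  A := Z.KK D
  S := Z.F ∪ C.S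
  A_one v hv := by
    rw [Finset.mem_union, not_or] at hv
    exact Z.KK_one D hv.1 (Or.inl hv.2)

variable {v' : HeightOneSpectrum (𝓞 K)} (F : Fam C v')

open Classical in
/-- The entries below of the slots over a place. -/
def slot (v : HeightOneSpectrum (𝓞 K)) (u : C.Fib v) (j : F.ι) : LocKer C.UK v :=
  finK D v * if h : v = v' then h.symm ▸ F.kS j (h ▸ u) else 1

lemma slot_self (u : C.Fib v') (j : F.ι) : slot D F v' u j = F.kS j u := by
  classical
  simp [slot, finK_notMem D F.notMem]

lemma slot_ne {v : HeightOneSpectrum (𝓞 K)} (h : v ≠ v') (u : C.Fib v) (j : F.ι) :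
    slot D F v u j = finK D v := by
  classical
  simp [slot, h]

variable (u₀ : C.Fib v₀) (i : ℕ) (t : TIx F.ι i)

open Classical in
/-- The variable slots and the polynomials below, one for each place above. -/
def modS (k : LocKer C.UK v₀) (v : HeightOneSpectrum (𝓞 K)) (u : C.Fib v) : LocKer C.UK v :=
  if h : v = v₀ then (if u.1 = u₀.1 then h.symm ▸ k else 1) else Z.AK v

/-- The substituted modification away from the chosen place. -/
lemma modS_ne (k : LocKer C.UK v₀) {v : HeightOneSpectrum (𝓞 K)} (h : v ≠ v₀) (u : C.Fib v) :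
    Z.modS u₀ k v u = Z.AK v := by
  classical
  simp [modS, h]

/-- The substituted modification at the chosen place. -/
lemma modS_self (k : LocKer C.UK v₀) : Z.modS u₀ k v₀ u₀ = k := by
  classical
  simp [modS]

/-- The substituted modification at the other places of the fibre. -/
lemma modS_other (k : LocKer C.UK v₀) {u : C.Fib v₀} (h : u ≠ u₀) : Z.modS u₀ k v₀ u = 1 := by
  classical
  unfold modS
  rw [dif_pos rfl, if_neg fun e => h (Subtype.ext e)]

/-- The product over the three places of one kernel and two units. -/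
lemma cyc3 {v : HeightOneSpectrum (𝓞 K)} {M : Type*} [Semigroup M]
    (hc : ∀ a b : M, a * b = b * a) (f : C.Fib v → M) (u u' : C.Fib v) :
    f u * (f (C.next u) * f (C.next (C.next u))) =
      f u' * (f (C.next u') * f (C.next (C.next u'))) := by
  have h3 : C.next (C.next (C.next u')) = u' := Ctx.next_next_next u'
  have rot : ∀ a b c : M, b * (c * a) = a * (b * c) := fun a b c => by
    rw [← mul_assoc, hc]
  rcases Ctx.fib_cases u' u with rfl | rfl | rfl
  · rfl
  · rw [h3]
    exact rot _ _ _
  · rw [h3]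
    exact (rot _ _ _).trans (rot _ _ _)

lemma pieceK_eq_slots (u' : C.Fib v') {v : HeightOneSpectrum (𝓞 K)}
    (hS : v ∉ C.S) (u : C.Fib v) (j : F.ι) :
    (F.pieceK u' j).fin v =
      slot D F v u j * (slot D F v (C.next u) j * slot D F v (C.next (C.next u)) j) := by
  by_cases h : v = v'
  · subst h
    rw [slot_self, slot_self, slot_self, F.pieceK_fin_self]
    exact cyc3 (comm_maxK hS) (fun x => F.kS j x) u' u
  · simp only [slot_ne D F h, finK_notMem D hS, mul_one, F.pieceK_fin_ne u' h]

/-- The component above of the system. -/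
def kw (A : LocKer C.UL u₀.1) (w : HeightOneSpectrum (𝓞 L)) : LocKer C.UL w :=
  (Z.modL.setFin u₀.1 A).A w * tProd (· * ·) (fun j => D.eL w * (F.pieceL j).fin w) i t

/-- The component below of the system. -/
def kv (u' : C.Fib v') (k : LocKer C.UK v₀) (v : HeightOneSpectrum (𝓞 K)) : LocKer C.UK v :=
  ((Z.modK D).setFin v₀ k).A v * tProd (· * ·) (fun j => finK D v * (F.pieceK u' j).fin v) i t

/-- The kernel at infinity of the system. -/
def kI : InfKer := Z.q.comp (tProd InfKer.comp (fun j => LT.Spec.k0.comp (F.k j)) i t)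

lemma isFlip_kI : (Z.kI F i t).IsFlip :=
  Z.flip.comp (tProd_rel (fun (a : InfKer) (_ : InfKer) => a.IsFlip) (op' := InfKer.comp)
    (fun _ _ _ _ ha hb => ha.comp hb) (g := fun j => LT.Spec.k0.comp (F.k j))
    (fun j => isFlip_k0.comp (F.flip j)) i t)

/-- The radial kernel of the archimedean component. -/
lemma rk_kI : (Z.kI F i t).rk =
    Z.q.rk * tProd (· * ·) (fun j => (LT.Spec.k0.comp (F.k j)).rk) i t := by
  rw [kI, InfKer.rk_comp]
  congr 1
  exact tProd_rel (fun (a : InfKer) (b : RK) => a.rk = b)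
    (fun a b _ _ ha hb => by rw [InfKer.rk_comp, ha, hb]) (fun _ => rfl) i t

lemma modL_ne {A : LocKer C.UL u₀.1} {w : HeightOneSpectrum (𝓞 L)} (h : w ≠ u₀.1) :
    (Z.modL.setFin u₀.1 A).A w = Z.AL w := by
  classical
  simp [Mods.setFin, h, modL]

lemma modL_self (A : LocKer C.UL u₀.1) : (Z.modL.setFin u₀.1 A).A u₀.1 = A := by
  classical
  simp [Mods.setFin]

lemma modK_ne {k : LocKer C.UK v₀} {v : HeightOneSpectrum (𝓞 K)} (h : v ≠ v₀) :
    ((Z.modK D).setFin v₀ k).A v = Z.KK D v := by
  classical
  simp [Mods.setFin, h, modK]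

lemma modK_self (k : LocKer C.UK v₀) : ((Z.modK D).setFin v₀ k).A v₀ = k := by
  classical
  simp [Mods.setFin]

lemma entryL_one {w : HeightOneSpectrum (𝓞 L)} (hS : C.b w ∉ C.S) (h : C.b w ≠ v') (j : F.ι) :
    D.eL w * (F.pieceL j).fin w = 1 := by
  rw [D.eL_one w hS, F.pieceL_fin_ne h, mul_one]

lemma entryK_one (u' : C.Fib v') {v : HeightOneSpectrum (𝓞 K)}
    (hS : v ∉ C.S ∨ ¬C.IsSplit v) (h : v ≠ v') (j : F.ι) :
    finK D v * (F.pieceK u' j).fin v = 1 := by
  rw [F.pieceK_fin_ne u' h, mul_one]
  exact hS.elim (finK_notMem D) (finK_nonsplit D)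

variable (u' : C.Fib v') (hv₀ : C.IsSplit v₀) (h₀ : v₀ ∉ C.S) (hne : v' ≠ v₀)
  (T : Finset (HeightOneSpectrum (𝓞 K))) (hT : ∀ v, v ∈ C.S ∨ v ∈ Z.F ∨ v = v' → v ∈ T)
  (A : LocKer C.UL u₀.1) (k : LocKer C.UK v₀) (hAk : Up u₀ A k)
  (hone : v₀ ∈ T ∨ (A = 1 ∧ k = 1))

include hAk in
/-- At a split place the kernel above is induced by the components. -/
private lemma up_kw (v : HeightOneSpectrum (𝓞 K)) (hv : C.IsSplit v) (u : C.Fib v) :
    Up u (Z.kw D F u₀ i t A u.1) (Z.modS u₀ k v u * tProd (· * ·) (slot D F v u) i t) := by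
  classical
  refine Up.mul (A := (Z.modL.setFin u₀.1 A).A u.1) (A' := tProd (· * ·) _ i t)
    (B := Z.modS u₀ k v u) hv ?_ ?_
  · by_cases e : v = v₀
    · subst e
      by_cases e' : u = u₀
      · subst e'
        rw [Z.modL_self u, Z.modS_self u]
        exact hAk
      · rw [Z.modL_ne u₀ fun h => e' (Subtype.ext h), Z.modS_other u₀ k e',
          Z.AL_notMem fun h => Z.ne _ h u.2]
        exact Up.one hv
    · rw [Z.modL_ne u₀ fun h => e (by rw [← u.2, h, u₀.2]), Z.modS_ne u₀ k e]
      obtain ⟨w, rfl⟩ := u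
      by_cases hF : C.b w ∈ Z.F
      · simp only [AL, AK, dif_pos hF]
        exact (Up.hecke hv _ _).poly hv _ _
      · rw [Z.AL_notMem hF, Z.AK_notMem hF]
        exact Up.one hv
  · refine tProd_rel (fun a b => Up u a b) (fun a b a' b' ha hb => ha.mul hv hb) (fun j => ?_) i t
    unfold slot
    refine Up.mul hv ?_ ?_
    · rw [finK_split D hv]
      exact D.eL_up v hv u
    · by_cases e : v = v'
      · subst e
        rw [dif_pos rfl, F.pieceL_fin_over u j]
        exact F.kw_up j u
      · rw [dif_neg e, F.pieceL_fin_ne (by rw [u.2]; exact e)]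
        exact Up.one hv

include h₀ in
/-- At a split place the kernel below is the product of the three components. -/
private lemma kv_eq_slots (v : HeightOneSpectrum (𝓞 K)) (hv : C.IsSplit v) (u : C.Fib v) :
    Z.kv D F i t u' k v = Z.modS u₀ k v u * tProd (· * ·) (slot D F v u) i t *
      (Z.modS u₀ k v (C.next u) * tProd (· * ·) (slot D F v (C.next u)) i t *
        (Z.modS u₀ k v (C.next (C.next u)) *
          tProd (· * ·) (slot D F v (C.next (C.next u))) i t)) := by
  classical
  unfold kv
  by_cases hS : v ∈ C.S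
  · have hv' : v ≠ v' := fun e => F.notMem (e ▸ hS)
    have hvv : v ≠ v₀ := fun e => h₀ (e ▸ hS)
    rw [Z.modK_ne D hvv, Z.KK_one D (fun e => Z.good v e hS) (Or.inr hv)]
    simp only [Z.modS_ne u₀ k hvv, Z.AK_notMem (fun e => Z.good v e hS), one_mul]
    rw [tProd_idem (finK_idem D v) (fun j => by rw [F.pieceK_fin_ne u' hv', mul_one]),
      tProd_idem (finK_idem D v) (slot_ne D F hv' u),
      tProd_idem (finK_idem D v) (slot_ne D F hv' (C.next u)),
      tProd_idem (finK_idem D v) (slot_ne D F hv' (C.next (C.next u))),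
      finK_idem, finK_idem]
  have hc := comm_maxK (C := C) hS
  have hsl : tProd (· * ·) (fun j => finK D v * (F.pieceK u' j).fin v) i t =
      tProd (· * ·) (slot D F v u) i t * (tProd (· * ·) (slot D F v (C.next u)) i t *
        tProd (· * ·) (slot D F v (C.next (C.next u))) i t) := by
    rw [← tProd_mul hc, ← tProd_mul hc]
    exact congrArg (fun f => tProd (· * ·) f i t) (funext fun j => by
      rw [finK_notMem D hS, one_mul, pieceK_eq_slots D F u' hS u j])
  have hm : ((Z.modK D).setFin v₀ k).A v = Z.modS u₀ k v u *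
      (Z.modS u₀ k v (C.next u) * Z.modS u₀ k v (C.next (C.next u))) := by
    by_cases e : v = v₀
    · subst e
      rw [Z.modK_self D, cyc3 hc (Z.modS u₀ k v) u u₀, Z.modS_self u₀,
        Z.modS_other u₀ k (Ctx.next_ne hv u₀), Z.modS_other u₀ k (Ctx.next_next_ne hv u₀),
        mul_one, mul_one]
    · rw [Z.modK_ne D e, Z.KK_split D hv]
      simp only [Z.modS_ne u₀ k e]
  have h4 : ∀ a b c d : LocKer C.UK v, a * b * (c * d) = a * c * (b * d) := fun a b c d => by
    rw [mul_assoc, ← mul_assoc b, hc b c, mul_assoc c, ← mul_assoc]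
  rw [hm, hsl, h4, h4 (Z.modS u₀ k v (C.next u))]

open Classical in
/-- The system of a piece of a trace term. -/
def sys : Ctx.Sys D where
  P :=
    { k := Z.kI F i t
      flip := Z.isFlip_kI F i t
      T := T
      kw := Z.kw D F u₀ i t A
      kv := Z.kv D F i t u' k
      kw_one := fun w hw => by
        have h := fun e => hw (hT (C.b w) e)
        have hS : C.b w ∉ C.S := fun e => h (Or.inl e)
        rw [kw, tProd_idem (mul_one 1)
          (fun j => entryL_one D F hS (fun e => h (Or.inr (Or.inr e))) j), mul_one]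
        by_cases e : w = u₀.1
        · subst e
          rw [Z.modL_self u₀]
          exact (hone.resolve_left (by rw [← u₀.2]; exact hw)).1
        · rw [Z.modL_ne u₀ e, Z.AL_notMem fun e' => h (Or.inr (Or.inl e'))]
      kv_one := fun v hv => by
        have h := fun e => hv (hT v e)
        rw [kv, tProd_idem (mul_one 1) (fun j => entryK_one D F u' (Or.inl fun e => h (Or.inl e))
          (fun e => h (Or.inr (Or.inr e))) j), mul_one]
        by_cases e : v = v₀
        · subst e
          rw [Z.modK_self D]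
          exact (hone.resolve_left hv).2
        · rw [Z.modK_ne D e,
            Z.KK_one D (fun e' => h (Or.inr (Or.inl e'))) (Or.inl fun e' => h (Or.inl e'))] }
  kS v u := Z.modS u₀ k v u * tProd (· * ·) (slot D F v u) i t
  S_sub v hv := hT v (Or.inl hv)
  kS_one v hv u := by
    have h := fun e => hv (hT v e)
    rw [tProd_idem (mul_one 1) (fun j => by
      rw [slot_ne D F (fun e => h (Or.inr (Or.inr e))),
        finK_notMem D fun e => h (Or.inl e)]), mul_one]
    by_cases e : v = v₀
    · subst e
      by_cases e' : u = u₀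
      · subst e'
        rw [Z.modS_self u]
        exact (hone.resolve_left hv).2
      · exact Z.modS_other u₀ k e'
    · rw [Z.modS_ne u₀ k e, Z.AK_notMem fun e' => h (Or.inr (Or.inl e'))]
  kw_split v hv u := up_kw Z D F u₀ i t A k hAk v hv u
  kv_split v hv u := kv_eq_slots Z D F u₀ i t u' h₀ k v hv u
  kw_good w hw hS := by
    show Z.kw D F u₀ i t A w = 1
    have h' : C.b w ≠ v' := fun e => hw (e ▸ F.split)
    rw [kw, tProd_idem (mul_one 1) (entryL_one D F hS h'), mul_one,
      Z.modL_ne u₀ (fun e => hw (by rw [e, u₀.2]; exact hv₀)),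
      Z.AL_notMem fun e => hw (Z.split _ e)]
  kv_good v hv hS := by
    show Z.kv D F i t u' k v = 1
    have h' : v ≠ v' := fun e => hv (e ▸ F.split)
    rw [kv, tProd_idem (mul_one 1) (entryK_one D F u' (Or.inr hv) h'), mul_one,
      Z.modK_ne D (fun e => hv (by rw [e]; exact hv₀)),
      Z.KK_one D (fun e => hv (Z.split _ e)) (Or.inl hS)]
  kw_bad w hw hS := by
    show Z.kw D F u₀ i t A w = D.eL w
    have h' : C.b w ≠ v' := fun e => hw (e ▸ F.split)
    rw [kw, tProd_idem (D.eL_idem w) (fun j => by rw [F.pieceL_fin_ne h', mul_one]),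
      Z.modL_ne u₀ (fun e => hw (by rw [e, u₀.2]; exact hv₀)),
      Z.AL_notMem fun e => hw (Z.split _ e), one_mul]
  kv_bad v hS hv := by
    show Z.kv D F i t u' k v = D.fK v
    have h' : v ≠ v' := fun e => hv (e ▸ F.split)
    rw [kv, tProd_idem (mul_one 1) (entryK_one D F u' (Or.inr hv) h'), mul_one,
      Z.modK_ne D (fun e => hv (by rw [e]; exact hv₀)), Z.KK_bad D hS hv]

/-- The split kernels of the trace system. -/
lemma sys_kS (v : HeightOneSpectrum (𝓞 K)) (u : C.Fib v) :
    (Z.sys D F u₀ i t u' hv₀ h₀ hne T hT A k hAk hone).kS v u =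
      Z.modS u₀ k v u * tProd (· * ·) (slot D F v u) i t := rfl

include hne h₀ in
/-- The slot product at the chosen place is one. -/
lemma tProd_slot_v₀ (u : C.Fib v₀) : tProd (· * ·) (slot D F v₀ u) i t = 1 :=
  tProd_idem (mul_one 1) (fun j => by rw [slot_ne D F (Ne.symm hne), finK_notMem D h₀]) i t

end Sel

end FermatAgent.LT2.Spec

end
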