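import Mathlib
import Fermat.Agent.LT2.Spec.Sys

/-!
# The trace terms of the variable slots agree in the limit

For polynomials with flat profile in the variable slots the trace terms agree by the trace identity;
the peaks differ from flat polynomials by corrections tending to zero.
-/

set_option autoImplicit false

noncomputable section

open Matrix IsDedekindDomain NumberField Filter MeasureTheory
open scoped MatrixGroups ENNReal ComplexConjugate Topology Polynomial

namespace FermatAgent.LT2.Spec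

open FermatAgent.LT Polynomial

section Linear

variable {L : Type} [Field L] [NumberField L] {U : Level L} (B : Base U) (m : Mods U)
  (σ : Space U → Space U) {v : HeightOneSpectrum (𝓞 L)} (hU : U.loc v = locK v) (s : ℝ) (i : ℕ)

/-- The trace terms as a linear map of the polynomial in one component. -/
def trLin : ℝ[X] →ₗ[ℝ] ℂ :=
  Polynomial.lsum fun k => (LinearMap.id : ℝ →ₗ[ℝ] ℝ).smulRight
    (((s ^ k : ℝ) : ℂ)⁻¹ * B.trTerm (m.setFin v ((LocKer.hecke hU) ^ k)) σ i)

theorem trLin_eq (hσ : Measurable σ) (P : ℝ[X]) :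
    trLin B m σ hU s i P = B.trTerm (m.setFin v (pkS hU s P)) σ i := by
  rw [trLin, Polynomial.lsum_apply, Polynomial.sum_over_range _ (fun n => by simp), pkS,
    B.trTerm_poly m σ hσ v]
  refine Finset.sum_congr rfl fun k _ => ?_
  rw [LinearMap.smulRight_apply, LinearMap.id_apply, Complex.real_smul, Complex.ofReal_div,
    div_eq_mul_inv, mul_assoc]

end Linear

variable {K L : Type} [Field K] [NumberField K] [Field L] [NumberField L] [Algebra K L]
  [IsTotallyComplex K] [IsTotallyComplex L] {C : Ctx K L} {D : C.Bad}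
  {v' v₀ : HeightOneSpectrum (𝓞 K)} {F : Fam C v'} (Z : Sel C v₀) (u₀ : C.Fib v₀) (u' : C.Fib v')
  (hBL : F.BddL) (hBK : F.BddK u')

/-- The weights of the pieces of the trace terms. -/
def coefT (F : Fam C v') (i : ℕ) (t : TIx F.ι i) : ℂ :=
  tProd (· * ·) (fun j => (F.a j : ℂ)) i t

namespace Sel

open Classical in
/-- The trace terms agree for a flat kernel in the variable slots. -/
theorem trTerm_eq_of_flat (hv₀ : C.IsSplit v₀) (h₀ : v₀ ∉ C.S) (hne : v' ≠ v₀)
    (hgeo : GeoEq D u₀ (domL C) (domK C)) (i : ℕ) :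
    ∃ R : ℕ, ∀ (A : LocKer C.UL u₀.1) (k : LocKer C.UK v₀), Up u₀ A k → FlatK R k →
      (baseL D F hBL).trTerm (Z.modL.setFin u₀.1 A) C.X.σ.map i =
        (baseK D F u' hBK).trTerm ((Z.modK D).setFin v₀ k) id i := by
  set T : Finset (HeightOneSpectrum (𝓞 K)) := C.S ∪ Z.F ∪ {v'}
  have hT : ∀ v, v ∈ C.S ∨ v ∈ Z.F ∨ v = v' → v ∈ T := fun v h => by
    simp only [T, Finset.mem_union, Finset.mem_singleton, or_assoc]
    exact h
  have hT' : ∀ v, v ∈ C.S ∨ v ∈ Z.F ∨ v = v' → v ∈ insert v₀ T := fun v h =>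
    Finset.mem_insert_of_mem (hT v h)
  let S : TIx F.ι i → Ctx.Sys D := fun t =>
    Z.sys D F u₀ i t u' hv₀ h₀ hne T hT 1 1 (Up.one hv₀) (Or.inr ⟨rfl, rfl⟩)
  have hS1 : ∀ t u, (S t).kS v₀ u = 1 := fun t u => by
    rw [Sel.sys_kS, tProd_slot_v₀ D F i t h₀ hne, mul_one]
    by_cases e : u = u₀
    · subst e; exact Z.modS_self u 1
    · exact Z.modS_other u₀ 1 e
  obtain ⟨R, hR⟩ := hgeo (TIx F.ι i) (coefT F i) S hS1
  refine ⟨R, fun A k hAk hk => ?_⟩
  let S' : TIx F.ι i → Ctx.Sys D := fun t =>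
    Z.sys D F u₀ i t u' hv₀ h₀ hne (insert v₀ T) hT' A k hAk (Or.inl (Finset.mem_insert_self _ _))
  have hins : ∀ t, (S t).Inserted (S' t) u₀ k := fun t =>
    { inf := rfl
      T := rfl
      other := fun v hv u => by
        simp only [S, S', Sel.sys_kS, Z.modS_ne u₀ _ hv]
      one := hS1 t
      at_u := by
        simp only [S', Sel.sys_kS, tProd_slot_v₀ D F i t h₀ hne, mul_one, Z.modS_self u₀]
      at_other := fun u hu => by
        simp only [S', Sel.sys_kS, tProd_slot_v₀ D F i t h₀ hne, mul_one, Z.modS_other u₀ k hu] }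
  set mL := Z.modL.setFin u₀.1 A
  set mK := (Z.modK D).setFin v₀ k
  have hup : ∀ t, (((baseL D F hBL).trS mL i).D t).toPtKer.k = (S' t).P.up.toPtKer.k := fun t => by
    refine KerData.toPtKer_congr (fun w => InfKer.rk_eq.mp ?_) fun w => ?_
    · rw [(baseL D F hBL).trS_rk (q := Z.q) (show mL.q w = some Z.q from rfl)]
      exact (Z.rk_kI F i t).symm
    · rw [(baseL D F hBL).trS_fin]
      rfl
  have hdown : ∀ t, (((baseK D F u' hBK).trS mK i).D t).toPtKer.k = (S' t).P.down.toPtKer.k :=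
    fun t => by
    refine KerData.toPtKer_congr (fun w => InfKer.rk_eq.mp ?_) fun w => ?_
    · rw [(baseK D F u' hBK).trS_rk (q := (Z.q.comp Z.q).comp Z.q)
        (show mK.q w = some ((Z.q.comp Z.q).comp Z.q) from rfl)]
      show _ = ((Z.kI F i t).comp ((Z.kI F i t).comp (Z.kI F i t))).rk
      have e : (fun j => (((baseK D F u' hBK).D j).inf w).rk) = fun j =>
          (LT.Spec.k0.comp (F.k j)).rk *
            ((LT.Spec.k0.comp (F.k j)).rk * (LT.Spec.k0.comp (F.k j)).rk) := funext fun j => by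
        show ((LT.Spec.k0.comp (LT.Spec.k0.comp LT.Spec.k0)).comp
          ((F.k j).comp ((F.k j).comp (F.k j)))).rk = _
        simp only [InfKer.rk_comp]
        ac_rfl
      have hm : tProd (· * ·) (fun j => (((baseK D F u' hBK).D j).inf w).rk) i t =
          tProd (· * ·) (fun j => (LT.Spec.k0.comp (F.k j)).rk) i t *
            (tProd (· * ·) (fun j => (LT.Spec.k0.comp (F.k j)).rk) i t *
              tProd (· * ·) (fun j => (LT.Spec.k0.comp (F.k j)).rk) i t) := by
        have hc : ∀ a b : RK, a * b = b * a := fun a b => mul_comm a b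
        exact (congrArg (fun f => tProd (· * ·) f i t) e).trans
          ((tProd_mul hc _ _ i t).trans (congrArg (_ * ·) (tProd_mul hc _ _ i t)))
      rw [InfKer.rk_comp, InfKer.rk_comp, InfKer.rk_comp, InfKer.rk_comp, Z.rk_kI F i t, hm]
      ac_rfl
    · rw [(baseK D F u' hBK).trS_fin]
      rfl
  have eL : ∀ x y, ∑ t, coefT F i t * (S' t).P.up.toPtKer.aut x y =
      ((baseL D F hBL).trS mL i).pt.aut x y := fun x y => by
    rw [SK.aut_eq]
    refine Finset.sum_congr rfl fun t _ => ?_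
    rw [(baseL D F hBL).trS_a, PtKer.aut_congr (hup t)]
    rfl
  have eK : ∀ x y, ∑ t, coefT F i t * (S' t).P.down.toPtKer.aut x y =
      ((baseK D F u' hBK).trS mK i).pt.aut x y := fun x y => by
    rw [SK.aut_eq]
    refine Finset.sum_congr rfl fun t _ => ?_
    rw [(baseK D F u' hBK).trS_a, PtKer.aut_congr (hdown t)]
    rfl
  have h := hR k hk S' hins
    (by obtain ⟨b, hb⟩ := (baseL D F hBL).isAut_trS mL i; exact ⟨b, fun x y => eL x y ▸ hb x y⟩)
    (by obtain ⟨b, hb⟩ := (baseK D F u' hBK).isAut_trS mK i; exact ⟨b, fun x y => eK x y ▸ hb x y⟩)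
  simp only [eL, eK] at h
  exact h

/-- The trace terms of the peaks agree in the limit. -/
theorem tendsto_trTerm_sub (hv₀ : C.IsSplit v₀) (h₀ : v₀ ∉ C.S) (hne : v' ≠ v₀)
    (hgeo : GeoEq D u₀ (domL C) (domK C)) (hu : C.UL.loc u₀.1 = locK u₀.1)
    (hv : C.UK.loc v₀ = locK v₀) {R₁ : ℝ} (hR : 4 ≤ R₁) (i : ℕ) :
    Tendsto (fun N =>
      (baseL D F hBL).trTerm (Z.modL.setFin u₀.1 (pkS hu (sqN v₀) (peak0 R₁ N))) C.X.σ.map i -
      (baseK D F u' hBK).trTerm ((Z.modK D).setFin v₀ (pkS hv (sqN v₀) (peak0 R₁ N))) id i)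
      atTop (𝓝 0) := by
  obtain ⟨R, hflat⟩ := Z.trTerm_eq_of_flat u₀ u' hBL hBK hv₀ h₀ hne hgeo i
  set x := invN v₀
  have hx0 : 0 ≤ x := invN_nonneg v₀
  have hx : x < 1 := invN_lt_one v₀
  set Λ : ℝ[X] →ₗ[ℝ] ℂ := trLin (baseL D F hBL) Z.modL C.X.σ.map hu (sqN v₀) i -
    trLin (baseK D F u' hBK) (Z.modK D) id hv (sqN v₀) i
  have hΛ : ∀ P, Λ P =
      (baseL D F hBL).trTerm (Z.modL.setFin u₀.1 (pkS hu (sqN v₀) P)) C.X.σ.map i -
      (baseK D F u' hBK).trTerm ((Z.modK D).setFin v₀ (pkS hv (sqN v₀) P)) id i := fun P => by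
    simp only [Λ, LinearMap.sub_apply, trLin_eq _ _ _ hu _ i C.X.σ.meas,
      trLin_eq _ _ _ hv _ i measurable_id]
  have h0 : ∀ P, Λ (flatPart hx0 hx R P) = 0 := fun P => by
    rw [hΛ, sub_eq_zero]
    exact hflat _ _ (Up.pkS hv₀ hv hu _ _) (flatK_flatPart hv R P)
  have key : ∀ P, Λ P = ∑ n ∈ Finset.range (R + 5),
      flatCorr R (cvec hx0 hx P) n • Λ (distPoly x n) := fun P => by
    have h := h0 P
    have e : ∀ (a : ℝ) (Q : ℝ[X]), Λ (Polynomial.C a * Q) = a • Λ Q := fun a Q => by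
      rw [← Polynomial.smul_eq_C_mul, map_smul]
    rw [flatPart, map_add, map_sum] at h
    simp only [e, neg_smul, Finset.sum_neg_distrib] at h
    rwa [← sub_eq_add_neg, sub_eq_zero] at h
  refine Tendsto.congr (fun N => (key _).symm.trans (hΛ _)) ?_
  have hlim := tendsto_finsetSum (Finset.range (R + 5)) fun n _ =>
    (tendsto_flatCorr_peak0 hx0 hx hR R n).smul_const (Λ (distPoly x n))
  simpa using hlim

end Sel

end FermatAgent.LT2.Spec

end
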