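import Mathlib
import Fermat.Agent.LT.Descent.Spec.Projector

/-!
# Joint eigenspaces of commuting symmetric operators

An operator commuting with the family with values in a joint eigenspace kills its orthogonal
complement; stable subspaces have orthonormal bases of joint eigenvectors.
-/

set_option autoImplicit false

noncomputable section

open scoped InnerProductSpace

namespace FermatAgent.LT2.Spec

open FermatAgent.LT.Spec (exists_common_eigenvector)

variable {V : Type*} [NormedAddCommGroup V] [InnerProductSpace ℂ V] [FiniteDimensional ℂ V]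
  {ι : Type*} {a : ι → Module.End ℂ V} (hs : ∀ i, LinearMap.IsSymmetric (a i))
  (hc : ∀ i k, Commute (a i) (a k))

include hs hc in
/-- An operator with values in a joint eigenspace kills its orthogonal complement. -/
theorem ker_orth_of_joint (c : ι → ℂ) {P : Module.End ℂ V} (hP : ∀ i, Commute P (a i))
    {W : Submodule ℂ V} (hW : ∀ g, g ∈ W ↔ ∀ i, a i g = c i • g) (hPW : ∀ g, P g ∈ W) :
    ∀ y ∈ Wᗮ, P y = 0 := by
  classical
  have hWst : ∀ i, ∀ g ∈ W, a i g ∈ W := fun i g hg => (hW _).mpr fun k => by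
    rw [← Module.End.mul_apply, (hc k i).eq, Module.End.mul_apply, (hW g).mp hg k, map_smul]
  have hNst : ∀ i, ∀ g ∈ Wᗮ, a i g ∈ Wᗮ := fun i g hg x hx => by
    rw [← hs i x g]
    exact hg _ (hWst i x hx)
  set Kp := Wᗮ ⊓ LinearMap.ker P
  have hKst : ∀ i, ∀ g ∈ Kp, a i g ∈ Kp := fun i g hg => ⟨hNst i g hg.1, by
    show P (a i g) = 0
    rw [← Module.End.mul_apply, (hP i).eq, Module.End.mul_apply, show P g = 0 from hg.2, map_zero]⟩
  set M := Wᗮ ⊓ Kpᗮ
  by_contra hcon
  push Not at hcon
  obtain ⟨y, hy, hPy⟩ := hcon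
  have hM : M ≠ ⊥ := fun hbot => hPy (by
    have hsup := Submodule.sup_orthogonal_inf_of_hasOrthogonalProjection
      (show Kp ≤ Wᗮ from inf_le_left)
    rw [inf_comm, show Wᗮ ⊓ Kpᗮ = M from rfl, hbot, sup_bot_eq] at hsup
    exact (show y ∈ Kp by rw [hsup]; exact hy).2)
  have hMst : ∀ i, ∀ g ∈ M, a i g ∈ M := fun i g hg => ⟨hNst i g hg.1, fun x hx => by
    rw [← hs i x g]
    exact hg.2 _ (hKst i x hx)⟩
  obtain ⟨e, heM, he0, hev⟩ := exists_common_eigenvector hc hM hMst
  refine he0 ?_
  have hPe : P e ≠ 0 := fun h => he0 (inner_self_eq_zero.mp (heM.2 e ⟨heM.1, h⟩))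
  have heW : e ∈ W := (hW e).mpr fun i => by
    obtain ⟨d, hd⟩ := hev i
    have h1 : d • P e = c i • P e := by
      rw [← map_smul, ← hd, ← Module.End.mul_apply, (hP i).eq, Module.End.mul_apply,
        (hW _).mp (hPW e) i]
    rw [hd, smul_left_injective ℂ hPe h1]
  exact inner_self_eq_zero.mp (heM.1 e heW)

include hs hc in
/-- Stable subspaces have orthonormal bases of joint eigenvectors. -/
theorem exists_joint_basis {W : Submodule ℂ V} (hst : ∀ i, ∀ g ∈ W, a i g ∈ W) :
    ∃ (n : ℕ) (b : OrthonormalBasis (Fin n) ℂ W), ∀ j i, ∃ μ : ℂ, a i (b j) = μ • (b j : V) := by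
  classical
  suffices key : ∀ (m : ℕ) (W : Submodule ℂ V), Module.finrank ℂ W = m →
      (∀ i, ∀ g ∈ W, a i g ∈ W) →
      ∃ f : Fin m → V, Orthonormal ℂ f ∧ (∀ j, f j ∈ W) ∧ ∀ j i, ∃ μ : ℂ, a i (f j) = μ • f j by
    obtain ⟨f, hf, hfW, hev⟩ := key _ W rfl hst
    set g : Fin (Module.finrank ℂ W) → W := fun j => ⟨f j, hfW j⟩
    have hg : Orthonormal ℂ g := (W.subtypeₗᵢ.orthonormal_comp_iff).mp hf
    refine ⟨_, OrthonormalBasis.mk hg
      (hg.linearIndependent.span_eq_top_of_card_eq_finrank' (by simp)).ge, fun j i => ?_⟩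
    rw [OrthonormalBasis.coe_mk]
    exact hev j i
  intro m
  induction m with
  | zero => exact fun _ _ _ => ⟨Fin.elim0, ⟨fun j => j.elim0, fun j => j.elim0⟩, fun j => j.elim0,
      fun j => j.elim0⟩
  | succ m ih =>
    intro W hW hst
    obtain ⟨e, he, he0, hev⟩ := exists_common_eigenvector hc (M := W)
      (fun h => by rw [h, finrank_bot] at hW; omega) hst
    set e' : V := ((‖e‖⁻¹ : ℝ) : ℂ) • e
    have hne : ‖e'‖ = 1 := by
      simp [e', norm_smul, he0]
    have hev' : ∀ i, ∃ μ : ℂ, a i e' = μ • e' := fun i => by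
      obtain ⟨μ, hμ⟩ := hev i
      exact ⟨μ, by simp only [e', map_smul, hμ, smul_comm μ]⟩
    have he'W : e' ∈ W := W.smul_mem _ he
    set N := Submodule.span ℂ {e'}
    have hle : N ≤ W := (Submodule.span_singleton_le_iff_mem _ _).mpr he'W
    have hd := Submodule.finrank_add_inf_finrank_orthogonal hle
    rw [finrank_span_singleton (fun h => by rw [h, norm_zero] at hne; exact zero_ne_one hne), hW]
      at hd
    obtain ⟨f, hf, hfW, hfev⟩ := ih (Nᗮ ⊓ W) (by omega) fun i g hg => ⟨fun x hx => by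
      obtain ⟨r, rfl⟩ := Submodule.mem_span_singleton.mp hx
      obtain ⟨μ, hμ⟩ := hev' i
      rw [inner_smul_left, ← hs i e' g, hμ, inner_smul_left,
        hg.1 e' (Submodule.mem_span_singleton_self _), mul_zero, mul_zero], hst i g hg.2⟩
    refine ⟨Fin.cons e' f, ?_, Fin.cases he'W fun j => (hfW j).2, Fin.cases hev' hfev⟩
    rw [orthonormal_iff_ite]
    have h0 : ∀ j, ⟪e', f j⟫_ℂ = 0 := fun j => (hfW j).1 e' (Submodule.mem_span_singleton_self _)
    intro i j
    induction i using Fin.cases with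
    | zero =>
      induction j using Fin.cases with
      | zero => simp [inner_self_eq_norm_sq_to_K, hne]
      | succ j => simp [h0, (Fin.succ_ne_zero j).symm]
    | succ i =>
      induction j using Fin.cases with
      | zero => simp [inner_eq_zero_symm.mp (h0 i)]
      | succ j => simp [orthonormal_iff_ite.mp hf i j, Fin.succ_inj]

/-- The trace of an operator after the orthogonal projection on a subspace. -/
theorem trace_mul_orth (X : Module.End ℂ V) {P : Module.End ℂ V} {W : Submodule ℂ V}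
    (hfix : ∀ g ∈ W, P g = g) (hker : ∀ g ∈ Wᗮ, P g = 0) {n : ℕ}
    (b : OrthonormalBasis (Fin n) ℂ W) :
    LinearMap.trace ℂ V (X * P) = ∑ j, ⟪(b j : V), X (b j)⟫_ℂ := by
  set Pr : V →ₗ[ℂ] W := (W.orthogonalProjectionOnto : V →L[ℂ] W).toLinearMap
  have hP : P = W.subtype ∘ₗ Pr := LinearMap.ext fun g => by
    have h1 : P g = P ((W.orthogonalProjectionOnto g : W) : V) +
        P (g - ((W.orthogonalProjectionOnto g : W) : V)) := by rw [← map_add, add_sub_cancel]
    rw [h1, hfix _ (W.orthogonalProjectionOnto g).2,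
      hker (g - ((W.orthogonalProjectionOnto g : W) : V))
        (Submodule.sub_starProjection_mem_orthogonal g), add_zero]
    rfl
  rw [hP, Module.End.mul_eq_comp, ← LinearMap.comp_assoc, LinearMap.trace_comp_comm',
    LinearMap.trace_eq_sum_inner _ b]
  refine Finset.sum_congr rfl fun j _ => ?_
  exact Submodule.inner_orthogonalProjectionOnto_eq_of_mem_left (b j) _

end FermatAgent.LT2.Spec

end
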