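import Mathlib
import Fermat.Agent.LT2.Spec.Flat
import Fermat.Agent.LT2.Spec.Common
import Fermat.Agent.LT2.Spec.Joint

/-!
# The targets and the projection

Above, radial eigenvectors with the given eigenvalues at the good split places which are killed by
the adjacency at the variable place; below, the same.  The modifications of a selection followed by
the projection on the kernels of the variable slots have values in the targets, below up to the
kernels at the bad places with one place above, and the trace above equals the trace below.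
-/

set_option autoImplicit false

noncomputable section

open Matrix IsDedekindDomain NumberField Filter MeasureTheory
open scoped MatrixGroups ENNReal ComplexConjugate InnerProductSpace ContDiff

namespace FermatAgent.LT2.Spec

open FermatAgent.LT
open FermatAgent.LT.Spec (profileOf exists_finset_joint mem_joint)

variable {K L : Type} [Field K] [NumberField K] [Field L] [NumberField L] [Algebra K L]
  [IsTotallyComplex K] [IsTotallyComplex L]

/-- What the descent fixes: the auxiliary family, the variable place, the eigenvalue of the base and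
the eigenvalues at the split places. -/
structure Dat (C : Ctx K L) where
  /-- the kernels at the bad places -/
  D : C.Bad
  /-- the auxiliary place -/
  v' : HeightOneSpectrum (𝓞 K)
  /-- the variable place -/
  v₀ : HeightOneSpectrum (𝓞 K)
  /-- the auxiliary family -/
  F : Fam C v'
  /-- a place over the auxiliary place -/
  u' : C.Fib v'
  /-- a place over the variable place -/
  u₀ : C.Fib v₀
  split₀ : C.IsSplit v₀
  good₀ : v₀ ∉ C.S
  ne : v' ≠ v₀
  bddL : F.BddL
  bddK : F.BddK u'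
  geo : GeoEq D u₀ (domL C) (domK C)
  /-- the eigenvalue of the base -/
  μ : ℝ
  μ_ne : μ ≠ 0
  /-- the eigenvalues -/
  c : HeightOneSpectrum (𝓞 K) → ℂ

namespace Dat

variable {C : Ctx K L} (G : Dat C)

/-- The base above. -/
def BL : SB C.UL := { baseL G.D G.F G.bddL with μ := G.μ, μ_ne := G.μ_ne }

/-- The base below. -/
def BK : SB C.UK := { baseK G.D G.F G.u' G.bddK with μ := G.μ, μ_ne := G.μ_ne }

/-- Good places above are free. -/
lemma freeL {w : HeightOneSpectrum (𝓞 L)} (hw : C.b w ∉ C.S) : G.BL.Free w :=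
  free_baseL (F := G.F) G.bddL hw

/-- Good and non-split places below are free. -/
lemma freeK {v : HeightOneSpectrum (𝓞 K)} (hv : v ∉ C.S ∨ ¬C.IsSplit v) : G.BK.Free v :=
  free_baseK (F := G.F) G.bddK hv

/-- The anchor is good. -/
lemma bu₀ : C.b G.u₀.1 ∉ C.S := by rw [G.u₀.2]; exact G.good₀

/-- The adjacency slot above. -/
def hL (w : HeightOneSpectrum (𝓞 L)) (hw : C.b w ∉ C.S) : Module.End ℂ G.BL.V :=
  G.BL.slotF w (LocKer.hecke (C.UL_else w hw))

/-- The adjacency slot below. -/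
def hK (v : HeightOneSpectrum (𝓞 K)) (hv : v ∉ C.S) : Module.End ℂ G.BK.V :=
  G.BK.slotF v (LocKer.hecke (C.UK_else v hv))

/-- The Hecke operators above are self-adjoint. -/
lemma hL_symm (w : HeightOneSpectrum (𝓞 L)) (hw : C.b w ∉ C.S) :
    LinearMap.IsSymmetric (G.hL w hw) :=
  G.BL.slotF_symm (G.freeL hw) (LocKer.isHerm_hecke _)

/-- The Hecke operators above commute with the modifications. -/
lemma hL_comm {w : HeightOneSpectrum (𝓞 L)} (hw : C.b w ∉ C.S) {m : Mods C.UL}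
    (hm : G.BL.Fits m) : Commute (G.hL w hw) (G.BL.ρ m) := by
  classical
  refine G.BL.ρ_comm (G.BL.fits_one.setFin (G.freeL hw _)) hm fun u => ?_
  by_cases e : u = w
  · subst e; exact comm_maxL hw _ _
  · simp [Mods.setFin, e]

/-- The Hecke operators below commute with the modifications. -/
lemma hK_comm {v : HeightOneSpectrum (𝓞 K)} (hv : v ∉ C.S) {m : Mods C.UK}
    (hm : G.BK.Fits m) : Commute (G.hK v hv) (G.BK.ρ m) := by
  classical
  refine G.BK.ρ_comm (G.BK.fits_one.setFin (G.freeK (Or.inl hv) _)) hm fun u => ?_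
  by_cases e : u = v
  · subst e; exact comm_maxK hv _ _
  · simp [Mods.setFin, e]

/-- Archimedean slots above commute with the modifications. -/
lemma slotI_comm_ρ (w : InfinitePlace L) (q : InfKer) {m : Mods C.UL} (hm : G.BL.Fits m) :
    Commute (G.BL.slotI w q) (G.BL.ρ m) :=
  G.BL.ρ_comm (G.BL.fits_one.setInf _ _) hm fun u => by simp [Mods.setInf]

/-- Archimedean slots below commute with the modifications. -/
lemma slotI_comm_ρK (w : InfinitePlace K) (q : InfKer) {m : Mods C.UK} (hm : G.BK.Fits m) :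
    Commute (G.BK.slotI w q) (G.BK.ρ m) :=
  G.BK.ρ_comm (G.BK.fits_one.setInf _ _) hm fun u => by simp [Mods.setInf]

/-- The good places above. -/
def goodL : Set (HeightOneSpectrum (𝓞 L)) :=
  {w | C.IsSplit (C.b w) ∧ C.b w ∉ C.S ∧ C.b w ≠ G.v₀}

/-- The good places below. -/
def goodK : Set (HeightOneSpectrum (𝓞 K)) := {v | C.IsSplit v ∧ v ∉ C.S ∧ v ≠ G.v₀}

/-- The target above. -/
def targL : Submodule ℂ G.BL.V :=
  (⨅ w, radEig G.BL w) ⊓
    (⨅ w : G.goodL, Module.End.eigenspace (G.hL w.1 w.2.2.1) (G.c (C.b w.1))) ⊓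
      LinearMap.ker (G.hL G.u₀.1 G.bu₀)

/-- The target below. -/
def targK : Submodule ℂ G.BK.V :=
  (⨅ w, radEig G.BK w) ⊓
    (⨅ v : G.goodK, Module.End.eigenspace (G.hK v.1 v.2.2.1) (G.c v.1)) ⊓
      LinearMap.ker (G.hK G.v₀ G.good₀)

/-- Membership in the target above. -/
lemma mem_targL {g : G.BL.V} : g ∈ G.targL ↔ (∀ w, g ∈ radEig G.BL w) ∧
    (∀ w (h : w ∈ G.goodL), G.hL w h.2.1 g = G.c (C.b w) • g) ∧ G.hL G.u₀.1 G.bu₀ g = 0 := by
  simp [targL, and_assoc]

/-- Membership in the target below. -/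
lemma mem_targK {g : G.BK.V} : g ∈ G.targK ↔ (∀ w, g ∈ radEig G.BK w) ∧
    (∀ v (h : v ∈ G.goodK), G.hK v h.2.1 g = G.c v • g) ∧ G.hK G.v₀ G.good₀ g = 0 := by
  simp [targK, and_assoc]

/-- A selection projecting on the targets. -/
structure Proj extends Sel C G.v₀ where
  /-- the coefficients at the variable place -/
  P₀ : ℕ → ℂ
  /-- the degree at the variable place -/
  n₀ : ℕ
  infL : ∀ w, (∀ g ∈ radEig G.BL w, G.BL.slotI w q g = g) ∧
    ∀ g, G.BL.slotI w q g ∈ radEig G.BL w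
  infK : ∀ v g, G.BK.slotI v q g ∈ radEig G.BK v
  finL : ∀ w (h : C.b w ∈ F),
    (∀ g, G.hL w (good _ h) g = G.c (C.b w) • g → G.BL.slotF w (toSel.AL w) g = g) ∧
    ∀ g, G.hL w (good _ h) (G.BL.slotF w (toSel.AL w) g) =
      G.c (C.b w) • G.BL.slotF w (toSel.AL w) g
  finK : ∀ v (h : v ∈ F) g,
    G.hK v (good _ h) (G.BK.slotF v (toSel.AK v) g) = G.c v • G.BK.slotF v (toSel.AK v) g
  zeroL : (∀ g, G.hL G.u₀.1 G.bu₀ g = 0 →
      G.BL.slotF G.u₀.1 ((LocKer.hecke (C.UL_else _ G.bu₀)).poly P₀ n₀) g = g) ∧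
    ∀ g, G.hL G.u₀.1 G.bu₀
      (G.BL.slotF G.u₀.1 ((LocKer.hecke (C.UL_else _ G.bu₀)).poly P₀ n₀) g) = 0
  zeroK : (∀ g, G.hK G.v₀ G.good₀ g = 0 →
      G.BK.slotF G.v₀ ((LocKer.hecke (C.UK_else _ G.good₀)).poly P₀ n₀) g = g) ∧
    ∀ g, G.hK G.v₀ G.good₀
      (G.BK.slotF G.v₀ ((LocKer.hecke (C.UK_else _ G.good₀)).poly P₀ n₀) g) = 0
  cutL : ∀ g, (∀ w (h : C.b w ∈ F), G.hL w (good _ h) g = G.c (C.b w) • g) →
    ∀ w (h : w ∈ G.goodL), G.hL w h.2.1 g = G.c (C.b w) • g
  cutK : ∀ g, (∀ v (h : v ∈ F), G.hK v (good _ h) g = G.c v • g) →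
    ∀ v (h : v ∈ G.goodK), G.hK v h.2.1 g = G.c v • g

/-- The projection data exist. -/
theorem nonempty_proj : Nonempty G.Proj := by
  classical
  obtain ⟨q, hq, hqL, -, hqK⟩ := exists_infProjector G.BL G.BK C.v
  obtain ⟨IL, hIL⟩ := exists_finset_joint (κ := Unit) (W := fun _ => G.BL.V)
    (fun (w : G.goodL) _ => G.hL w.1 w.2.2.1) fun w => G.c (C.b w.1)
  obtain ⟨IK, hIK⟩ := exists_finset_joint (κ := Unit) (W := fun _ => G.BK.V)
    (fun (v : G.goodK) _ => G.hK v.1 v.2.2.1) fun v => G.c v.1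
  let F : Finset (HeightOneSpectrum (𝓞 K)) :=
    IL.image (fun w => C.b w.1) ∪ IK.image fun v => v.1
  have hF : ∀ v ∈ F, C.IsSplit v ∧ v ∉ C.S ∧ v ≠ G.v₀ := by
    intro v hv
    rcases Finset.mem_union.mp hv with h | h
    · obtain ⟨w, -, rfl⟩ := Finset.mem_image.mp h; exact w.2
    · obtain ⟨u, -, rfl⟩ := Finset.mem_image.mp h; exact u.2
  have hP : ∀ v, ∃ (P : ℕ → ℂ) (n : ℕ), ∀ h : v ∉ C.S,
      (∀ (w : HeightOneSpectrum (𝓞 L)) (hw : C.b w = v),
        (∀ g, G.hL w (hw ▸ h) g = G.c v • g →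
          G.BL.slotF w ((LocKer.hecke (C.UL_else w (hw ▸ h))).poly P n) g = g) ∧
        ∀ g, G.hL w (hw ▸ h) (G.BL.slotF w ((LocKer.hecke (C.UL_else w (hw ▸ h))).poly P n) g) =
            G.c v • G.BL.slotF w ((LocKer.hecke (C.UL_else w (hw ▸ h))).poly P n) g) ∧
      ∀ g, G.hK v h (G.BK.slotF v ((LocKer.hecke (C.UK_else v h)).poly P n) g) =
          G.c v • G.BK.slotF v ((LocKer.hecke (C.UK_else v h)).poly P n) g := by
    intro v
    by_cases h : v ∈ C.S
    · exact ⟨0, 0, fun h' => absurd h h'⟩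
    have hS : ∀ u : C.Fib v, C.b u.1 ∉ C.S := fun u => by rw [u.2]; exact h
    obtain ⟨P, n, h1, -, h3⟩ := exists_finProjector G.BL G.BK
      (ι := C.Fib v) (fun u => u.1) v (fun u => G.freeL (hS u)) (G.freeK (Or.inl h))
      (fun u => LocKer.hecke (C.UL_else u.1 (hS u))) (LocKer.hecke (C.UK_else v h))
      (fun u => LocKer.isHerm_hecke _) (LocKer.isHerm_hecke _) (G.c v)
    exact ⟨P, n, fun _ => ⟨fun w hw => h1 ⟨w, hw⟩, h3⟩⟩
  choose P n hPn using hP
  obtain ⟨P₀, n₀, z1, z2, z3⟩ := exists_finProjector G.BL G.BK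
    (ι := Unit) (fun _ => G.u₀.1) G.v₀ (fun _ => G.freeL G.bu₀) (G.freeK (Or.inl G.good₀))
    (fun _ => LocKer.hecke (C.UL_else G.u₀.1 G.bu₀)) (LocKer.hecke (C.UK_else G.v₀ G.good₀))
    (fun _ => LocKer.isHerm_hecke _) (LocKer.isHerm_hecke _) 0
  refine ⟨{ F := F, split := fun v h => (hF v h).1, good := fun v h => (hF v h).2.1
            ne := fun v h => (hF v h).2.2, P := P, n := n, q := q, flip := hq
            P₀ := P₀, n₀ := n₀
            infL := hqL
            infK := fun v => by rw [C.uniq v]; exact hqK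
            finL := fun w h => ?_, finK := fun v h g => ?_
            zeroL := ?_, zeroK := ?_
            cutL := fun g hg w hw => ?_, cutK := fun g hg v hv => ?_ }⟩
  · have h1 := (hPn _ (hF _ h).2.1).1 w rfl
    simp only [Sel.AL, dif_pos h]
    exact h1
  · have h1 := (hPn _ (hF _ h).2.1).2 g
    simp only [Sel.AK, dif_pos h]
    exact h1
  · refine ⟨fun g hg => (z1 ()).1 g (hg.trans (zero_smul ℂ g).symm), fun g => ?_⟩
    exact ((z1 ()).2 g).trans (zero_smul ℂ _)
  · exact ⟨fun g hg => z2 g (hg.trans (zero_smul ℂ g).symm),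
      fun g => (z3 g).trans (zero_smul ℂ _)⟩
  · exact (mem_joint.mp (hIL () g fun u hu => hg u.1
      (Finset.mem_union_left _ (Finset.mem_image_of_mem _ hu)))) ⟨w, hw⟩
  · exact (mem_joint.mp (hIK () g fun u hu => hg u.1
      (Finset.mem_union_right _ (Finset.mem_image_of_mem (fun v => v.1) hu)))) ⟨v, hv⟩

variable {G} (Z : G.Proj)

/-- The projection at the variable place above. -/
def Proj.EL : Module.End ℂ G.BL.V :=
  G.BL.slotF G.u₀.1 ((LocKer.hecke (C.UL_else _ G.bu₀)).poly Z.P₀ Z.n₀)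

/-- The projection at the variable place below. -/
def Proj.EK : Module.End ℂ G.BK.V :=
  G.BK.slotF G.v₀ ((LocKer.hecke (C.UK_else _ G.good₀)).poly Z.P₀ Z.n₀)

/-- The modification above. -/
abbrev Proj.mL : Mods C.UL := Z.toSel.modL

/-- The modification below. -/
abbrev Proj.mK : Mods C.UK := Z.toSel.modK G.D

lemma Proj.fitsL : G.BL.Fits Z.mL := fun j w => by
  by_cases h : C.b w ∈ Z.F
  · exact G.freeL (Z.good _ h) _ j
  · rw [show Z.mL.A w = 1 from Z.toSel.AL_notMem h]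
    exact Commute.one_left _

lemma Proj.fitsK : G.BK.Fits Z.mK := fun j v => by
  by_cases h : C.IsSplit v ∧ v ∈ C.S
  · rw [show Z.mK.A v = 1 from
      Z.toSel.KK_one G.D (fun e => Z.good v e h.2) (Or.inr h.1)]
    exact Commute.one_left _
  · exact G.freeK ((not_and_or.mp h).symm) _ j

lemma Proj.u₀_notMem : C.b G.u₀.1 ∉ Z.F := fun h => Z.ne _ h G.u₀.2

/-- The projection above. -/
def Proj.projL : Module.End ℂ G.BL.V := G.BL.ρ Z.mL * Z.EL

lemma Proj.fitsE : G.BL.Fits ((1 : Mods C.UL).setFin G.u₀.1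
    ((LocKer.hecke (C.UL_else _ G.bu₀)).poly Z.P₀ Z.n₀)) :=
  G.BL.fits_one.setFin (G.freeL G.bu₀ _)

lemma Proj.projL_mem (g : G.BL.V) : Z.projL g ∈ G.targL := by
  classical
  refine G.mem_targL.mpr ⟨fun w => ?_, fun w hw => Z.cutL _ (fun u hu => ?_) w hw, ?_⟩
  · rw [Proj.projL, G.BL.ρ_out_inf Z.fitsL (w := w) (q := Z.q) rfl, Module.End.mul_apply,
      Module.End.mul_apply]
    exact (Z.infL w).2 _
  · rw [Proj.projL, G.BL.ρ_out_fin Z.fitsL (v := u) (G.freeL (Z.good _ hu)), Module.End.mul_apply,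
      Module.End.mul_apply]
    exact (Z.finL u hu).2 _
  · rw [Proj.projL, Module.End.mul_apply, ← Module.End.mul_apply,
      (G.hL_comm G.bu₀ Z.fitsL).eq, Module.End.mul_apply,
      show G.hL G.u₀.1 G.bu₀ (Z.EL g) = 0 from Z.zeroL.2 g, map_zero]

/-- The projection fixes the target. -/
lemma Proj.projL_fix {g : G.BL.V} (hg : g ∈ G.targL) : Z.projL g = g := by
  classical
  obtain ⟨hr, hh, h0⟩ := G.mem_targL.mp hg
  set s := TwistCtx.KerPair.above (B := C.B) Z.F
  have hs : ∀ w ∈ s, G.BL.Free w := fun w hw =>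
    G.freeL (Z.good _ (TwistCtx.KerPair.mem_above.mp hw))
  have e : G.BL.ρ Z.mL = G.BL.ρ (SB.onInf Finset.univ Z.q) * G.BL.ρ (SB.onFin s Z.toSel.AL) := by
    rw [← G.BL.ρ_mul (G.BL.fits_onInf _ _) (G.BL.fits_onFin hs _)]
    refine G.BL.ρ_congr Z.fitsL ((G.BL.fits_onInf _ _).mul (G.BL.fits_onFin hs _))
      (fun w => ?_) fun w => ?_
    · simp [Proj.mL, Sel.modL, SB.onInf, SB.onFin, Mods.mul_q, Mods.ocomp]
    · simp only [Proj.mL, Sel.modL, SB.onInf, SB.onFin, Mods.mul_A, Mods.one_A, one_mul]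
      split_ifs with h
      · rfl
      · exact Z.toSel.AL_notMem fun e => h (TwistCtx.KerPair.mem_above.mpr e)
  rw [Proj.projL, Module.End.mul_apply, show Z.EL g = g from Z.zeroL.1 g h0, e,
    Module.End.mul_apply, G.BL.onFin_fix hs fun w hw => ?_, G.BL.onInf_fix fun w => ?_]
  · exact (Z.infL w).1 g (hr w)
  · have hF := TwistCtx.KerPair.mem_above.mp hw
    exact (Z.finL w hF).1 g (hh w ⟨Z.split _ hF, Z.good _ hF, Z.ne _ hF⟩)

/-- The family cutting out the target above. -/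
abbrev IxL (G : Dat C) : Type :=
  (InfinitePlace L × {k : ℝ → ℝ // ContDiff ℝ ∞ k ∧ HasCompactSupport k}) ⊕ (G.goodL ⊕ Unit)

/-- The operators cutting out the target above. -/
def cutOp (G : Dat C) : IxL G → Module.End ℂ G.BL.V
  | .inl p => G.BL.slotI p.1 (profileOf p.2.1 p.2.2.1 p.2.2.2).ker
  | .inr (.inl w) => G.hL w.1 w.2.2.1
  | .inr (.inr _) => G.hL G.u₀.1 G.bu₀

/-- The projection above kills the orthogonal complement of the target. -/
lemma Proj.projL_orth : ∀ y ∈ G.targLᗮ, Z.projL y = 0 := by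
  have hfit : ∀ p : IxL G, ∃ m, G.BL.Fits m ∧ cutOp G p = G.BL.ρ m := by
    rintro (p | w | _)
    · exact ⟨_, G.BL.fits_one.setInf _ _, rfl⟩
    · exact ⟨_, G.BL.fits_one.setFin (G.freeL w.2.2.1 _), rfl⟩
    · exact ⟨_, G.BL.fits_one.setFin (G.freeL G.bu₀ _), rfl⟩
  have hcm : ∀ p m, G.BL.Fits m → Commute (cutOp G p) (G.BL.ρ m) := by
    rintro (p | w | _) m hm
    · exact G.slotI_comm_ρ _ _ hm
    · exact G.hL_comm w.2.2.1 hm
    · exact G.hL_comm G.bu₀ hm
  refine ker_orth_of_joint (a := cutOp G) (fun p => ?_) (fun p p' => ?_)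
    (fun p => match p with
      | .inl p => Whit.hT p.2.1
      | .inr (.inl w) => G.c (C.b w.1)
      | .inr (.inr _) => 0) (fun p => ?_) (fun g => ?_) Z.projL_mem
  · rcases p with p | w | _
    · exact G.BL.slotI_symm _ (Profile.isReal _)
    · exact G.hL_symm w.1 w.2.2.1
    · exact G.hL_symm _ G.bu₀
  · obtain ⟨m, hm, e⟩ := hfit p'
    rw [e]
    exact hcm p m hm
  · exact ((hcm p _ Z.fitsL).symm).mul_left ((hcm p _ Z.fitsE).symm)
  · rw [G.mem_targL]
    constructor
    · rintro ⟨hr, hh, h0⟩ (p | w | _)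
      · exact (mem_radEig G.BL p.1).mp (hr p.1) p.2.1 p.2.2.1 p.2.2.2
      · exact hh w.1 w.2
      · exact h0.trans (zero_smul ℂ g).symm
    · intro h
      exact ⟨fun w => (mem_radEig G.BL w).mpr fun k hk hs => h (.inl (w, ⟨k, hk, hs⟩)),
        fun w hw => h (.inr (.inl ⟨w, hw⟩)), (h (.inr (.inr ()))).trans (zero_smul ℂ g)⟩

variable (G) in
/-- The kernels at the bad places with one place above. -/
def modR : Mods C.UK := SB.onFin C.badSingle G.D.fK

variable (G) in
/-- The auxiliary modification fits. -/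
lemma fitsR : G.BK.Fits G.modR :=
  G.BK.fits_onFin (fun _ hv => G.freeK (Or.inr (C.mem_badSingle.mp hv).2)) _

/-- The modification below without the kernels at the bad places. -/
def Proj.mP : Mods C.UK where
  q _ := some ((Z.q.comp Z.q).comp Z.q)
  A v := Z.toSel.AK v * (Z.toSel.AK v * Z.toSel.AK v)
  S := Z.F
  A_one v hv := by rw [Z.toSel.AK_notMem hv, mul_one, mul_one]

lemma Proj.fitsP : G.BK.Fits Z.mP := fun j v => by
  by_cases h : v ∈ Z.F
  · exact G.freeK (Or.inl (Z.good _ h)) _ j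
  · rw [show Z.mP.A v = 1 by simp [Proj.mP, Z.toSel.AK_notMem h]]
    exact Commute.one_left _

/-- The kernels at the bad places split off. -/
lemma Proj.ρ_mK : G.BK.ρ Z.mK = G.BK.ρ G.modR * G.BK.ρ Z.mP := by
  classical
  rw [← G.BK.ρ_mul G.fitsR Z.fitsP]
  refine G.BK.ρ_congr Z.fitsK (G.fitsR.mul Z.fitsP) (fun w => ?_) fun v => ?_
  · simp [Proj.mK, Sel.modK, Proj.mP, modR, SB.onFin, Mods.mul_q, Mods.ocomp]
  · simp only [Proj.mK, Sel.modK, Proj.mP, modR, SB.onFin, Mods.mul_A, C.mem_badSingle]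
    by_cases h : v ∈ C.S ∧ ¬C.IsSplit v
    · rw [if_pos h, Z.toSel.KK_bad G.D h.1 h.2,
        Z.toSel.AK_notMem fun e => Z.good v e h.1, mul_one, mul_one, mul_one]
    · rw [if_neg h, one_mul]
      exact if_neg h

/-- The image below lies in the target. -/
lemma Proj.imageK_mem (g : G.BK.V) : G.BK.ρ Z.mP (Z.EK g) ∈ G.targK := by
  classical
  refine G.mem_targK.mpr ⟨fun v => ?_, fun v hv => Z.cutK _ (fun u hu => ?_) v hv, ?_⟩
  · rw [G.BK.ρ_out_inf Z.fitsP (w := v) (q := (Z.q.comp Z.q).comp Z.q) rfl,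
      Module.End.mul_apply, SB.slotI_mul, SB.slotI_mul, Module.End.mul_apply,
      Module.End.mul_apply]
    exact Z.infK v _
  · have hF := G.freeK (v := u) (Or.inl (Z.good _ hu))
    rw [G.BK.ρ_out_fin Z.fitsP (v := u) hF, Module.End.mul_apply,
      show Z.mP.A u = Z.toSel.AK u * (Z.toSel.AK u * Z.toSel.AK u) from rfl,
      G.BK.slotF_mul hF, Module.End.mul_apply]
    exact Z.finK u hu _
  · rw [← Module.End.mul_apply, (G.hK_comm G.good₀ Z.fitsP).eq, Module.End.mul_apply,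
      show G.hK G.v₀ G.good₀ (Z.EK g) = 0 from Z.zeroK.2 g, map_zero]

/-- The trace above is the trace below. -/
theorem Proj.trace_eq : LinearMap.trace ℂ G.BL.V (G.BL.twV 1 C.X.σ.map C.X.σ.meas * Z.projL) =
    (G.μ : ℂ) ^ 2 * LinearMap.trace ℂ G.BK.V (G.BK.ρ Z.mK * Z.EK) := by
  have hu := C.UL_else G.u₀.1 G.bu₀
  have hv := C.UK_else G.v₀ G.good₀
  set s := sqN G.v₀
  have h := trace_peak_eq G.BL G.BK rfl Z.fitsL Z.fitsK C.X.σ.map C.X.σ.meas hu hv
    (G.freeL G.bu₀) (G.freeK (Or.inl G.good₀)) (Z.toSel.AL_notMem Z.u₀_notMem)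
    (Z.toSel.KK_one G.D (fun e => Z.ne _ e rfl) (Or.inl G.good₀)) (sqN_pos G.v₀)
    (le_max_left 4 (max ((rowBd (LocKer.hecke hu) / s) ^ 2) ((rowBd (LocKer.hecke hv) / s) ^ 2)))
    ((le_max_left _ _).trans (le_max_right _ _)) ((le_max_right _ _).trans (le_max_right _ _))
    (fun i => Z.toSel.tendsto_trTerm_sub G.u₀ G.u' G.bddL G.bddK G.split₀ G.good₀ G.ne G.geo hu hv
      (le_max_left _ _) i)
    (EL := Z.EL) Z.zeroL.1 (fun d g hd hg => ?_) (EK := Z.EK) Z.zeroK.1 (fun d g hd hg => ?_)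
  · rw [G.BL.twV_eq_mul C.X.σ.map C.X.σ.meas Z.fitsL, mul_assoc, G.BK.twV_id Z.fitsK,
      smul_mul_assoc, map_smul, smul_eq_mul] at h
    exact h
  · have h0 := Z.zeroL.2 g
    rw [hL, ← Module.End.mul_apply, ← G.BL.slotF_mul (G.freeL G.bu₀), comm_maxL G.bu₀,
      G.BL.slotF_mul (G.freeL G.bu₀), Module.End.mul_apply, hg, map_smul] at h0
    exact (smul_eq_zero.mp h0).resolve_left hd
  · have h0 := Z.zeroK.2 g
    rw [hK, ← Module.End.mul_apply, ← G.BK.slotF_mul (G.freeK (Or.inl G.good₀)),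
      comm_maxK G.good₀, G.BK.slotF_mul (G.freeK (Or.inl G.good₀)), Module.End.mul_apply, hg,
      map_smul] at h0
    exact (smul_eq_zero.mp h0).resolve_left hd

end Dat

end FermatAgent.LT2.Spec

end
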