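import Mathlib
import Fermat.Agent.LT2.Spec.Common
import Fermat.Agent.LT2.Spec.Tw

/-!
# The diagonal of the twisted operator at an eigenvector

If the representative is invariant under the twist the diagonal entry is the square of the
eigenvalue times the norm; if the twisted representative has another eigenvalue it vanishes.
-/

set_option autoImplicit false

noncomputable section

open Matrix IsDedekindDomain NumberField Filter MeasureTheory
open scoped MatrixGroups ENNReal ComplexConjugate InnerProductSpace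

namespace FermatAgent.LT2.Spec.SB

open FermatAgent.LT

variable {L : Type} [Field L] [NumberField L] {U : Level L} (B : SB U)
  {σ : Space U → Space U} (hσ : Measurable σ)

lemma inner_twV (g : B.V) :
    ⟪g, B.twV 1 σ hσ g⟫_ℂ = ⟪(g : B.H), B.tw 1 σ hσ (g : B.H)⟫_ℂ :=
  Submodule.inner_orthogonalProjectionOnto_eq_of_mem_left g _

/-- An invariant representative. -/
theorem inner_twV_fixed (g : B.V) (h : ∀ x, B.rep g (σ x) = B.rep g x) :
    ⟪g, B.twV 1 σ hσ g⟫_ℂ = (B.μ : ℂ) ^ 2 * ⟪g, g⟫_ℂ := by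
  have e : B.tw 1 σ hσ (g : B.H) = ((B.μ : ℂ) ^ 2) • (g : B.H) := by
    refine Lp.ext ?_
    filter_upwards [B.tw_ae σ hσ B.fits_one g, Lp.coeFn_smul ((B.μ : ℂ) ^ 2) (g : B.H),
      B.rep_ae g.2] with x h1 h2 h3
    rw [h1, B.ρ_one, Module.End.one_apply, h, h2, Pi.smul_apply, smul_eq_mul, h3]
  rw [B.inner_twV, e, inner_smul_right]
  rfl

open Classical in
/-- A twisted representative with another eigenvalue. -/
theorem inner_twV_zero {w : HeightOneSpectrum (𝓞 L)} (hw : U.loc w = locK w) (hF : B.Free w)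
    {g : B.V} {l l' : ℂ} (hg : B.slotF w (LocKer.hecke hw) g = l • g)
    (hinv : ∀ (γ : G2 L) x, B.rep g (σ (γ • x)) = B.rep g (σ x))
    (hψ : ∀ x, heckeOp w (fun y => B.rep g (σ y)) x = l' * B.rep g (σ x)) (hne : l ≠ l') :
    ⟪g, B.twV 1 σ hσ g⟫_ℂ = 0 := by
  by_cases h0 : g = 0
  · simp [h0]
  obtain ⟨M, hM⟩ := B.rep_bdd (g : B.H)
  set ψ : Space U → ℂ := fun y => B.rep g (σ y)
  have hm : Measurable ψ := (B.measurable_rep _).comp hσ
  have hψM : ∀ y, ‖ψ y‖ ≤ M := fun y => hM _
  have hL : MemLp ψ 2 ((Space.vol U).restrict B.s) :=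
    MemLp.of_bound hm.aestronglyMeasurable M (ae_of_all _ hψM)
  set p : B.H := hL.toLp ψ
  have e : B.tw 1 σ hσ (g : B.H) = ((B.μ : ℂ) ^ 2) • p := by
    refine Lp.ext ?_
    filter_upwards [B.tw_ae σ hσ B.fits_one g, Lp.coeFn_smul ((B.μ : ℂ) ^ 2) p,
      hL.coeFn_toLp] with x h1 h2 h3
    rw [h1, B.ρ_one, Module.End.one_apply, h2, Pi.smul_apply, smul_eq_mul, h3]
  set m := (1 : Mods U).setFin w (LocKer.hecke hw)
  have hm' : B.Fits m := B.fits_one.setFin (hF _)
  have h2 : B.extOp m p = l' • B.T p := by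
    refine Lp.ext ?_
    filter_upwards [SK.op_apply_invariant (B.isAut_extS m) B.isFD hm hinv hψM hL.coeFn_toLp,
      SK.op_apply_invariant B.isAut_S₀ B.isFD hm hinv hψM hL.coeFn_toLp,
      Lp.coeFn_smul l' (B.T p)] with x h1 h2 h3
    rw [h3, Pi.smul_apply, smul_eq_mul]
    refine h1.trans (Eq.trans ?_ (congrArg (l' * ·) h2.symm))
    rw [← B.act_finOp (hF _) hm hψM,
      show finOp (LocKer.hecke hw) ψ = fun y => l' * ψ y from
        funext fun y => (FermatAgent.LT.finOp_hecke hw ψ y).trans (hψ y), SK.act_const_mul]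
  have h1 : B.extOp m (g : B.H) = ((B.μ : ℂ) * l) • (g : B.H) := by
    have h := B.ρ_apply_ext hm' g
    rw [show B.ρ m g = l • g from hg, Submodule.coe_smul] at h
    rw [mul_smul, h, smul_smul, mul_inv_cancel₀ B.μc_ne, one_smul]
  have hsym : (B.extOp m : B.H →ₗ[ℂ] B.H).IsSymmetric :=
    B.isSymmetric_extOp hm' (fun u a ha => by simp [m, Mods.setFin] at ha) fun u => by
      by_cases e : u = w
      · subst e; simpa [m, Mods.setFin] using LocKer.isHerm_hecke hw
      · simpa [m, Mods.setFin, e] using LocKer.isHerm_one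
  have hT : ⟪(g : B.H), B.T p⟫_ℂ = (B.μ : ℂ) * ⟪(g : B.H), p⟫_ℂ := by
    have h := B.isSymmetric_T (g : B.H) p
    rw [show ((B.T : B.H →ₗ[ℂ] B.H) (g : B.H)) = (B.μ : ℂ) • (g : B.H) from B.mem_V.mp g.2,
      inner_smul_left, Complex.conj_ofReal] at h
    exact h.symm
  have hl : conj l = l := B.conj_eig (B.slotF_symm hF (LocKer.isHerm_hecke hw)) h0 hg
  have key := hsym (g : B.H) p
  simp only [ContinuousLinearMap.coe_coe, h1, h2, inner_smul_left, inner_smul_right, map_mul,
    Complex.conj_ofReal, hl, hT] at key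
  have : (l - l') * ((B.μ : ℂ) * ⟪(g : B.H), p⟫_ℂ) = 0 := by linear_combination key
  rw [B.inner_twV, e, inner_smul_right]
  rcases mul_eq_zero.mp this with h | h
  · exact absurd (sub_eq_zero.mp h) hne
  · rw [(mul_eq_zero.mp h).resolve_left B.μc_ne, mul_zero]

end FermatAgent.LT2.Spec.SB

end
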