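import Mathlib
import Fermat.Agent.LT2.Spec.Proj
import Fermat.Agent.LT2.Spec.Twist
import Fermat.Agent.LT2.Bad.Gal
import Fermat.Agent.LT2.Glue.Base

/-!
# The trace above

On an orthonormal basis of joint eigenvectors of the target the twisted operator has the diagonal
entry zero or the square of the eigenvalue; the given eigenfunction forces one of the latter.
-/

set_option autoImplicit false

noncomputable section

open Matrix IsDedekindDomain NumberField Filter MeasureTheory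
open scoped MatrixGroups ENNReal ComplexConjugate InnerProductSpace ContDiff

namespace FermatAgent.LT2.Spec

open FermatAgent.LT
open FermatAgent.LT.Spec (profileOf)

variable {K L : Type} [Field K] [NumberField K] [Field L] [NumberField L] [Algebra K L]
  [IsTotallyComplex K] [IsTotallyComplex L] {C : Ctx K L}

omit [IsTotallyComplex K] [IsTotallyComplex L] in
/-- The Hecke operator of a twisted eigenfunction. -/
theorem heckeOp_twist {φ : Space C.UL → ℂ} {w : HeightOneSpectrum (𝓞 L)}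
    (hw : C.UL.loc w = locK w) (hw' : C.UL.loc (placeMap C.τ w) = locK (placeMap C.τ w)) {c : ℂ}
    (h : ∀ x, heckeOp (placeMap C.τ w) φ x = c * φ x) (x : Space C.UL) :
    heckeOp w (fun y => φ (C.X.σ.map y)) x = c * φ (C.X.σ.map x) := by
  set f := Whit.liftF C.UL φ
  have e : ∀ y a, φ (C.X.σ.map (y, Whit.cls C.UL a)) = LT.Whit.gal C.τ f y a := fun y a =>
    congrArg φ (Whit.cls_adelMap C.τ C.stable y a)
  have hK : Whit.FixedAt f (placeMap C.τ w) (locK (placeMap C.τ w)) := by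
    rw [← hw']; exact Whit.fixedAt_liftF _
  have h1 := Whit.heckeT_gal C.τ hK
  rw [Whit.heckeT_liftF hw' h] at h1
  obtain ⟨y, z⟩ := x
  obtain ⟨a, rfl⟩ := LT.Whit.cls_surjective z
  rw [LT.Whit.heckeOp_cls w hw]
  simp only [e]
  exact congrFun (congrFun h1 y) a

namespace Dat

variable (G : Dat C)

lemma hL_comm_hL {w w' : HeightOneSpectrum (𝓞 L)} (hw : C.b w ∉ C.S) (hw' : C.b w' ∉ C.S) :
    Commute (G.hL w hw) (G.hL w' hw') :=
  G.hL_comm hw (G.BL.fits_one.setFin (G.freeL hw' _))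

lemma hL_targL {w : HeightOneSpectrum (𝓞 L)} (hw : C.b w ∉ C.S) {g : G.BL.V}
    (hg : g ∈ G.targL) : G.hL w hw g ∈ G.targL := by
  obtain ⟨hr, hh, h0⟩ := G.mem_targL.mp hg
  have hc : ∀ (u : HeightOneSpectrum (𝓞 L)) (hu : C.b u ∉ C.S) (a : ℂ), G.hL u hu g = a • g →
      G.hL u hu (G.hL w hw g) = a • G.hL w hw g := fun u hu a h => by
    rw [← Module.End.mul_apply, (G.hL_comm_hL hu hw).eq, Module.End.mul_apply, h, map_smul]
  refine G.mem_targL.mpr ⟨fun u => (mem_radEig G.BL u).mpr fun k hk hs => ?_,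
    fun u hu => hc u hu.2.1 _ (hh u hu), ?_⟩
  · have hcm : Commute (G.BL.slotI u (profileOf k hk hs).ker) (G.hL w hw) :=
      G.slotI_comm_ρ u _ (G.BL.fits_one.setFin (G.freeL hw _))
    rw [← Module.End.mul_apply, hcm.eq,
      Module.End.mul_apply, (mem_radEig G.BL u).mp (hr u) k hk hs, map_smul]
  · rw [hc G.u₀.1 G.bu₀ 0 (h0.trans (zero_smul ℂ g).symm), zero_smul]

lemma fin_fixL (w : HeightOneSpectrum (𝓞 L)) (j : G.BL.ι) :
    G.D.eL w * (G.BL.D j).fin w = (G.BL.D j).fin w := by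
  show G.D.eL w * (G.D.eL w * (G.F.pieceL j).fin w) = G.D.eL w * (G.F.pieceL j).fin w
  rw [← mul_assoc, G.D.eL_idem]

/-- The trace above is not zero. -/
theorem trace_ne_zero (Z : G.Proj) (hfix : FixHyp G.D) {g₁ : G.BL.V} (hg₁ : g₁ ∈ G.targL)
    (h₁ : g₁ ≠ 0)
    (heck : ∀ w (hw : C.b w ∉ C.S), C.IsSplit (C.b w) → G.hL w hw g₁ = G.c (C.b w) • g₁) :
    LinearMap.trace ℂ G.BL.V (G.BL.twV 1 C.X.σ.map C.X.σ.meas * Z.projL) ≠ 0 := by
  classical
  obtain ⟨n, b, hb⟩ := exists_joint_basis (W := G.targL)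
    (a := fun w : {w // C.b w ∉ C.S} => G.hL w.1 w.2) (fun w => G.hL_symm w.1 w.2)
    (fun w w' => G.hL_comm_hL w.2 w'.2) fun w g hg => G.hL_targL w.2 hg
  have hev : ∀ j w, ∃ l : ℂ, ∀ hw : C.b w ∉ C.S, G.hL w hw (b j) = l • (b j : G.BL.V) :=
    fun j w => by
    by_cases hw : C.b w ∈ C.S
    · exact ⟨0, fun h => absurd hw h⟩
    · obtain ⟨l, hl⟩ := hb j ⟨w, hw⟩
      exact ⟨l, fun _ => hl⟩
  choose l hl using hev
  have hS : ∀ w, C.b w ∉ C.S → C.b (placeMap C.τ w) ∉ C.S := fun w hw => by rwa [C.b_next]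
  set inv : Fin n → Prop := fun j => ∀ w, C.b w ∉ C.S → l j (placeMap C.τ w) = l j w
  have hnorm : ∀ j, ⟪(b j : G.BL.V), (b j : G.BL.V)⟫_ℂ = 1 := fun j => by
    rw [← Submodule.coe_inner, inner_self_eq_norm_sq_to_K, b.orthonormal.1 j]
    simp
  have hrep : ∀ j w (hw : C.b w ∉ C.S) x,
      heckeOp w (G.BL.rep (b j : G.BL.V)) x = l j w * G.BL.rep (b j : G.BL.V) x :=
    fun j w hw x => G.BL.heckeOp_rep (C.UL_else w hw) (G.freeL hw) (hl j w hw) x
  have hval : ∀ j, ⟪(b j : G.BL.V), G.BL.twV 1 C.X.σ.map C.X.σ.meas (b j)⟫_ℂ =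
      if inv j then (G.μ : ℂ) ^ 2 else 0 := fun j => by
    split_ifs with h
    · rw [G.BL.inner_twV_fixed C.X.σ.meas _ (hfix _
        ⟨G.BL.rep_inv _, G.BL.measurable_rep _, G.BL.rep_bdd _, fun w k hk hs x =>
          G.BL.radialOp_rep ((G.mem_targL.mp (b j).2).1 w) k hk hs x⟩ (l j) h (hrep j)
        fun w hw x => G.BL.finOp_rep_fixed (G.fin_fixL w) _ x), hnorm, mul_one]
      rfl
    · simp only [inv, not_forall] at h
      obtain ⟨w, hw, hne⟩ := h
      refine G.BL.inner_twV_zero C.X.σ.meas (C.UL_else w hw) (G.freeL hw) (hl j w hw)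
        (fun γ x => by rw [C.X.σ.map_smul, G.BL.rep_inv])
        (fun x => heckeOp_twist (C.UL_else w hw) (C.UL_else _ (hS w hw))
          (hrep j _ (hS w hw)) x) (Ne.symm hne)
  obtain ⟨j, hj⟩ : ∃ j, inv j := by
    by_contra hcon
    simp only [not_exists] at hcon
    refine h₁ ?_
    have hz : ∀ j, ⟪(b j : G.BL.V), g₁⟫_ℂ = 0 := fun j => by
      by_contra h0
      refine hcon j fun w hw => ?_
      by_cases hm : placeMap C.τ w = w
      · rw [hm]
      have hsp := C.isSplit_of_moved hm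
      have key : ∀ u (hu : C.b u ∉ C.S), C.b u = C.b w → l j u = G.c (C.b w) := fun u hu e => by
        have h := G.hL_symm u hu (b j : G.BL.V) g₁
        rw [hl j u hu, heck u hu (e ▸ hsp), e, inner_smul_left, inner_smul_right,
          G.BL.conj_eig (G.hL_symm u hu) (fun hz => by simp [hz] at h0) (hl j u hu)] at h
        exact mul_right_cancel₀ h0 h
      rw [key w hw rfl, key _ (hS w hw) (C.b_next w)]
    have := b.sum_repr' ⟨g₁, hg₁⟩
    have h2 : ∀ j, ⟪b j, (⟨g₁, hg₁⟩ : G.targL)⟫_ℂ = 0 := fun j => hz j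
    simp only [h2, zero_smul, Finset.sum_const_zero] at this
    exact (congrArg Subtype.val this).symm
  rw [trace_mul_orth _ (fun g hg => Z.projL_fix hg) Z.projL_orth b,
    Finset.sum_congr rfl (fun j _ => hval j), Finset.sum_ite, Finset.sum_const_zero, add_zero,
    Finset.sum_const, nsmul_eq_mul]
  refine mul_ne_zero (Nat.cast_ne_zero.mpr (Finset.card_ne_zero.mpr
    ⟨j, Finset.mem_filter.mpr ⟨Finset.mem_univ j, hj⟩⟩)) ?_
  exact pow_ne_zero _ (Complex.ofReal_ne_zero.mpr G.μ_ne)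

end Dat

end FermatAgent.LT2.Spec

end
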