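import Mathlib
import Fermat.Agent.LT2.Spec.TraceAbove

/-!
# A common eigenvector below

The trace identity and the nonvanishing above give a common eigenvector of the good adjacencies in
the target below, not killed by the kernels at the bad places with one place above.
-/

set_option autoImplicit false

noncomputable section

open Matrix IsDedekindDomain NumberField Filter MeasureTheory
open scoped MatrixGroups ENNReal ComplexConjugate InnerProductSpace ContDiff

namespace FermatAgent.LT2.Spec.Dat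

open FermatAgent.LT
open FermatAgent.LT.Spec (exists_common_eigenvector profileOf)

variable {K L : Type} [Field K] [NumberField K] [Field L] [NumberField L] [Algebra K L]
  [IsTotallyComplex K] [IsTotallyComplex L] {C : Ctx K L} (G : Dat C)

lemma hK_comm_hK {v v' : HeightOneSpectrum (𝓞 K)} (hv : v ∉ C.S) (hv' : v' ∉ C.S) :
    Commute (G.hK v hv) (G.hK v' hv') :=
  G.hK_comm hv (G.BK.fits_one.setFin (G.freeK (Or.inl hv') _))

lemma hK_targK {v : HeightOneSpectrum (𝓞 K)} (hv : v ∉ C.S) {g : G.BK.V}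
    (hg : g ∈ G.targK) : G.hK v hv g ∈ G.targK := by
  obtain ⟨hr, hh, h0⟩ := G.mem_targK.mp hg
  have hc : ∀ (u : HeightOneSpectrum (𝓞 K)) (hu : u ∉ C.S) (a : ℂ), G.hK u hu g = a • g →
      G.hK u hu (G.hK v hv g) = a • G.hK v hv g := fun u hu a h => by
    rw [← Module.End.mul_apply, (G.hK_comm_hK hu hv).eq, Module.End.mul_apply, h, map_smul]
  refine G.mem_targK.mpr ⟨fun u => (mem_radEig G.BK u).mpr fun k hk hs => ?_,
    fun u hu => hc u hu.2.1 _ (hh u hu), ?_⟩
  · have hcm : Commute (G.BK.slotI u (profileOf k hk hs).ker) (G.hK v hv) :=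
      G.slotI_comm_ρK u _ (G.BK.fits_one.setFin (G.freeK (Or.inl hv) _))
    rw [← Module.End.mul_apply, hcm.eq, Module.End.mul_apply,
      (mem_radEig G.BK u).mp (hr u) k hk hs, map_smul]
  · rw [hc G.v₀ G.good₀ 0 (h0.trans (zero_smul ℂ g).symm), zero_smul]

lemma hK_symm {v : HeightOneSpectrum (𝓞 K)} (hv : v ∉ C.S) :
    LinearMap.IsSymmetric (G.hK v hv) :=
  G.BK.slotF_symm (G.freeK (Or.inl hv)) (LocKer.isHerm_hecke _)

/-- An eigenfunction above gives a common eigenvector below, not killed by the kernels at the bad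
places with one place above. -/
theorem exists_eigvecK (hfix : FixHyp G.D) {g₁ : G.BL.V} (hg₁ : g₁ ∈ G.targL)
    (h₁ : g₁ ≠ 0)
    (heck : ∀ w (hw : C.b w ∉ C.S), C.IsSplit (C.b w) → G.hL w hw g₁ = G.c (C.b w) • g₁)
    (hc₀ : G.c G.v₀ = 0) :
    ∃ (c' : HeightOneSpectrum (𝓞 K) → ℂ) (g : G.BK.V), G.BK.ρ G.modR g ≠ 0 ∧
      (∀ v, g ∈ radEig G.BK v) ∧ (∀ v (hv : v ∉ C.S), G.hK v hv g = c' v • g) ∧
      ∀ v ∉ C.S, C.IsSplit v → c' v = G.c v := by
  classical
  obtain ⟨Z⟩ := G.nonempty_proj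
  set R := G.BK.ρ G.modR
  obtain ⟨g₀, hg₀, hRg₀⟩ : ∃ g ∈ G.targK, R g ≠ 0 := by
    by_contra hcon
    push Not at hcon
    refine G.trace_ne_zero Z hfix hg₁ h₁ heck (Z.trace_eq.trans ?_)
    rw [show G.BK.ρ Z.mK * Z.EK = 0 from LinearMap.ext fun g => by
      rw [Z.ρ_mK, Module.End.mul_apply, Module.End.mul_apply, hcon _ (Z.imageK_mem g)]
      rfl, map_zero, mul_zero]
  set N := G.targK ⊓ LinearMap.ker R
  have hNst : ∀ (v : {v // v ∉ C.S}), ∀ g ∈ N, G.hK v.1 v.2 g ∈ N := fun v g hg =>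
    ⟨G.hK_targK v.2 hg.1, by
      show R (G.hK v.1 v.2 g) = 0
      rw [← Module.End.mul_apply, ← (G.hK_comm v.2 G.fitsR).eq, Module.End.mul_apply,
        show R g = 0 from hg.2, map_zero]⟩
  set M := G.targK ⊓ Nᗮ
  have hM : M ≠ ⊥ := fun hbot => hRg₀ (by
    have hsup := Submodule.sup_orthogonal_inf_of_hasOrthogonalProjection
      (show N ≤ G.targK from inf_le_left)
    rw [inf_comm, show G.targK ⊓ Nᗮ = M from rfl, hbot, sup_bot_eq] at hsup
    exact (show g₀ ∈ N by rw [hsup]; exact hg₀).2)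
  obtain ⟨g, hgM, hg0, hev⟩ := exists_common_eigenvector
    (A := fun v : {v // v ∉ C.S} => G.hK v.1 v.2) (fun v v' => G.hK_comm_hK v.2 v'.2) hM
    fun v g hg => ⟨G.hK_targK v.2 hg.1, fun x hx => by
      rw [← G.hK_symm v.2 x g]
      exact hg.2 _ (hNst v x hx)⟩
  have hev' : ∀ v, ∃ l : ℂ, ∀ hv : v ∉ C.S, G.hK v hv g = l • g := fun v => by
    by_cases hv : v ∈ C.S
    · exact ⟨0, fun h => absurd hv h⟩
    · obtain ⟨l, hl⟩ := hev ⟨v, hv⟩
      exact ⟨l, fun _ => hl⟩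
  choose c' hc' using hev'
  obtain ⟨hr, hh, h0⟩ := G.mem_targK.mp hgM.1
  refine ⟨c', g, fun hz => hg0 (inner_self_eq_zero.mp (hgM.2 g ⟨hgM.1, hz⟩)), hr, hc',
    fun v hv hsp => smul_left_injective ℂ hg0 ?_⟩
  show c' v • g = G.c v • g
  rw [← hc' v hv]
  by_cases e : v = G.v₀
  · subst e; rw [h0, hc₀, zero_smul]
  · exact hh v ⟨hsp, hv, e⟩

end FermatAgent.LT2.Spec.Dat

end
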