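import Fermat.Agent.LT2.Spec.Proj
import Fermat.Agent.LT2.Whit.Good
import Fermat.Agent.LT2.Whit.ConstZero

/-!
# A radial Hecke eigenvector below gives a good form

The representative of a simultaneous eigenvector of the radial slots and of the adjacency slots at
the good places below lifts to a cuspidal eigenform outside the bad places.
-/

set_option autoImplicit false

noncomputable section

open Matrix IsDedekindDomain NumberField Filter MeasureTheory
open scoped MatrixGroups ContDiff

namespace FermatAgent.LT2.Spec

open FermatAgent.LT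
open FermatAgent.LT.Whit (liftF cls cls_surjective)

/-- A congruence level contains a deep principal subgroup at every place. -/
lemma exists_locKN_le {M : Type} [Field M] [NumberField M] {U : Level M} (hU : U.IsCongr)
    (v : HeightOneSpectrum (𝓞 M)) : ∃ n, Whit.locKN v n ≤ U.loc v := by
  obtain ⟨n, hn⟩ := hU v
  refine ⟨n + 1, ?_⟩
  rintro _ ⟨g, hg, rfl⟩
  exact hn g hg.1 fun i j => by simpa using hg.2 i j

variable {K L : Type} [Field K] [NumberField K] [Field L] [NumberField L] [Algebra K L]
  [IsTotallyComplex K] [IsTotallyComplex L]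

namespace Dat

variable {C : Ctx K L} (G : Dat C)

/-- The lift of the representative of an eigenvector below is a good form. -/
theorem isGood_rep {g : G.BK.V} (hr : ∀ v, g ∈ radEig G.BK v)
    (c' : HeightOneSpectrum (𝓞 K) → ℂ) (he : ∀ v (hv : v ∉ C.S), G.hK v hv g = c' v • g) :
    Whit.IsGood C.S c' (liftF C.UK (G.BK.rep g)) := by
  have hrad : LT.Whit.IsRadial (liftF C.UK (G.BK.rep g)) := fun w k hk hs y a =>
    G.BK.radialOp_rep (hr w) k hk hs (y, cls _ a)
  have hf : Whit.IsForm (liftF C.UK (G.BK.rep g)) :=
    Whit.isForm_liftF (exists_locKN_le C.congrK) (G.BK.rep_inv _) (G.BK.measurable_rep _)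
      (G.BK.rep_bdd _) hrad
  exact
    { form := hf
      radial := hrad
      fixed := fun v hv => C.UK_else v hv ▸ Whit.fixedAt_liftF v
      eigen := fun v hv => Whit.heckeT_liftF (C.UK_else v hv) fun x =>
        G.BK.heckeOp_rep (C.UK_else v hv) (G.freeK (Or.inl hv)) (he v hv) x }

end Dat

omit [IsTotallyComplex K] in
/-- A function not killed by finitely many components has a nonzero lift. -/
theorem liftF_ne_zero_of_foldr {U : Level K} {l : List (HeightOneSpectrum (𝓞 K))}
    {A : ∀ v, LocKer U v} {ψ : Space U → ℂ}
    (h : l.foldr (fun v f => finOp (A v) f) ψ ≠ 0) : liftF U ψ ≠ 0 := by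
  intro e
  have h0 : ψ = 0 := funext fun x => by
    obtain ⟨y, z⟩ := x
    obtain ⟨a, rfl⟩ := cls_surjective z
    exact congrFun (congrFun e y) a
  refine h ?_
  subst h0
  clear h e
  induction l with
  | nil => rfl
  | cons v l ih =>
    rw [List.foldr_cons, ih]
    funext x
    simp [finOp]

end FermatAgent.LT2.Spec

end
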