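import Mathlib
import Fermat.Agent.LT2.Spec.Eigvec
import Fermat.Agent.LT2.Spec.GoodForm

/-!
# The descent

`exists_descent`: from an eigenfunction above with eigenvalues coming from below at the split
places, the spectral decomposition of the family at an auxiliary place and the geometric trace
identity give a good form below with the same eigenvalues at the split places, not killed by the
kernels at the bad places with one place above.
-/

set_option autoImplicit false

noncomputable section

open Matrix IsDedekindDomain NumberField Filter MeasureTheory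
open scoped MatrixGroups ENNReal ComplexConjugate InnerProductSpace ContDiff

namespace FermatAgent.LT2.Spec

open FermatAgent.LT
open FermatAgent.LT.Spec (profileOf)

variable {K L : Type} [Field K] [NumberField K] [Field L] [NumberField L] [Algebra K L]
  [IsTotallyComplex K] [IsTotallyComplex L]

omit [IsTotallyComplex K] in
/-- The fundamental domain above. -/
lemma isFD_domL (C : Ctx K L) : IsFundamentalDomain (G2 L) (domL C) (Space.vol C.UL) :=
  (exists_dom C.UL).choose_spec.2

omit [IsTotallyComplex L] in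
/-- The fundamental domain below. -/
lemma isFD_domK (C : Ctx K L) : IsFundamentalDomain (G2 K) (domK C) (Space.vol C.UK) :=
  (exists_dom C.UK).choose_spec.2

omit [IsTotallyComplex L] in
/-- The domain below is measurable. -/
lemma measurableSet_domK (C : Ctx K L) : MeasurableSet (domK C) :=
  (exists_dom C.UK).choose_spec.1

omit [IsTotallyComplex L] in
/-- An eigenfunction of the base which is radial gives a radial member of the eigenspace. -/
lemma SB.mem_radEig_of_rep {U : Level L} {B : SB U} {g : B.V} (w : InfinitePlace L)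
    (h : ∀ (k : ℝ → ℝ), ContDiff ℝ ∞ k → HasCompactSupport k →
      ∀ x, radialOp w (fun p q => k (H3.coshDist p q)) (B.rep g) x = Whit.hT k * B.rep g x) :
    g ∈ radEig B w :=
  (mem_radEig B w).mpr fun k hk hs => B.eq_smul_of_rep fun x => by
    rw [← h k hk hs x, radialOp_eq_infOp w (k := fun p q => k (H3.coshDist p q))
      (q := (profileOf k hk hs).ker) (fun a b => rfl), B.infOp_rep]
    rfl

omit [IsTotallyComplex L] in
/-- A Hecke eigenfunction of the base gives an eigenvector of the slot. -/
lemma SB.slotF_hecke_of_rep {U : Level L} {B : SB U} {g : B.V} {v : HeightOneSpectrum (𝓞 L)}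
    (hv : U.loc v = locK v) (hF : B.Free v) {c : ℂ}
    (h : ∀ x, heckeOp v (B.rep g) x = c * B.rep g x) :
    B.slotF v (LocKer.hecke hv) g = c • g :=
  B.eq_smul_of_rep fun x => by
    rw [← h x, ← FermatAgent.LT.finOp_hecke hv, B.finOp_rep (hF _)]
    rfl

omit [IsTotallyComplex L] in
open Classical in
/-- Slots of finitely many places act on representatives one after another. -/
lemma SB.rep_onFin {U : Level L} {B : SB U} {s : Finset (HeightOneSpectrum (𝓞 L))}
    (hs : ∀ v ∈ s, B.Free v) (A : ∀ v, LocKer U v) (g : B.V) :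
    B.rep (B.ρ (SB.onFin s A) g : B.V) = s.toList.foldr (fun v f => finOp (A v) f) (B.rep g) := by
  suffices key : ∀ l : List (HeightOneSpectrum (𝓞 L)), l.Nodup → (∀ v ∈ l, v ∈ s) →
      B.rep (B.ρ (SB.onFin l.toFinset A) g : B.V) =
        l.foldr (fun v f => finOp (A v) f) (B.rep g) by
    simpa using key s.toList s.nodup_toList fun v hv => Finset.mem_toList.mp hv
  intro l
  induction l with
  | nil =>
    intro _ _
    rw [List.toFinset_nil, SB.ρ_onFin_empty]
    rfl
  | cons v l ih =>
    intro hl hmem
    obtain ⟨hvl, hl⟩ := List.nodup_cons.mp hl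
    rw [List.toFinset_cons, SB.ρ_onFin_insert _ (by simpa using hvl) (fun u hu => hs u (hmem u (by
      simpa using hu))), List.foldr_cons,
      ← ih hl fun u hu => hmem u (List.mem_cons_of_mem v hu)]
    funext x
    rw [B.finOp_rep (hs v (hmem v List.mem_cons_self) _)]
    rfl

/-- **The descent.**  Let `φ` be a nonzero eigenfunction above, fixed by the idempotents of `D` at
the bad places, with Hecke eigenvalue `c v` at all places over each split good place `v`.  Let `v'`,
`v₀` be distinct split good places such that the family `F` at `v'` isolates `φ`, `c v₀ = 0` and the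
trace identity holds at `v₀`, and suppose that functions with these properties are invariant under
the automorphism (`FixHyp`).  Then there is a good form `ψ` below whose eigenvalues agree with `c`
at the split good places and which is not killed by the kernels of `D` at the bad places with a
single place above. -/
theorem exists_descent (C : Ctx K L) (D : C.Bad) {v' v₀ : HeightOneSpectrum (𝓞 K)}
    (hsp : C.IsSplit v₀) (hv₀ : v₀ ∉ C.S) (hne : v' ≠ v₀) (F : Fam C v') (u' : C.Fib v')
    (u₀ : C.Fib v₀) (hgeo : GeoEq D u₀ (domL C) (domK C))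
    (hfix : FixHyp D) (c : HeightOneSpectrum (𝓞 K) → ℂ) (hc₀ : c v₀ = 0)
    {φ : Space C.UL → ℂ} (hφe : IsEigenFun φ)
    (hheck : ∀ w, C.b w ∉ C.S → C.IsSplit (C.b w) → ∀ x, heckeOp w φ x = c (C.b w) * φ x)
    (heL : ∀ w, C.b w ∈ C.S → ∀ x, finOp (D.eL w) φ x = φ x) (hF : F.Isolates u' φ)
    (hφ : φ ≠ 0) :
    ∃ (c' : HeightOneSpectrum (𝓞 K) → ℂ) (ψ : Space C.UK → ℂ),
      (∀ v ∉ C.S, C.IsSplit v → c' v = c v) ∧
        Whit.IsGood C.S c' (LT.Whit.liftF C.UK ψ) ∧
        C.badSingle.toList.foldr (fun v h => finOp (D.fK v) h) ψ ≠ 0 := by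
  obtain ⟨μ, hμ, heig⟩ := exists_eigenvalue (D := D) (F := F) hF.bddL hφe heL hF.scalar hφ
  obtain ⟨hinv, hm, ⟨M, hM⟩, hrad⟩ := hφe
  let G : Dat C :=
    { D := D, v' := v', v₀ := v₀, F := F, u' := u', u₀ := u₀, split₀ := hsp, good₀ := hv₀
      ne := hne, bddL := hF.bddL, bddK := hF.bddK, geo := hgeo, μ := μ, μ_ne := hμ, c := c }
  obtain ⟨g₁, hrep⟩ := G.BL.exists_rep_eq hm hM hinv heig
  have h₁ : g₁ ≠ 0 := fun h => hφ (by
    funext x
    have h2 := G.BL.rep_smul 0 (g₁ : G.BL.H) x
    rw [zero_smul, zero_mul] at h2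
    rw [← hrep, h, Submodule.coe_zero, h2]
    rfl)
  have heck : ∀ w (hw : C.b w ∉ C.S), C.IsSplit (C.b w) → G.hL w hw g₁ = G.c (C.b w) • g₁ :=
    fun w hw hs => SB.slotF_hecke_of_rep (C.UL_else w hw) (G.freeL hw) fun x => by
      rw [hrep]; exact hheck w hw hs x
  have hg₁ : g₁ ∈ G.targL := G.mem_targL.mpr
    ⟨fun w => SB.mem_radEig_of_rep w fun k hk hs x => by rw [hrep]; exact hrad w k hk hs x,
      fun w hw => heck w hw.2.1 hw.1,
      (heck u₀.1 G.bu₀ (u₀.2.symm ▸ hsp)).trans (by
        rw [show G.c (C.b u₀.1) = 0 by rw [u₀.2]; exact hc₀, zero_smul])⟩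
  obtain ⟨c', g, hg0, hr, he, hc'⟩ := G.exists_eigvecK hfix hg₁ h₁ heck hc₀
  refine ⟨c', G.BK.rep g, hc', G.isGood_rep hr c' he, fun e => ?_⟩
  obtain ⟨x, hx⟩ := G.BK.rep_ne_zero hg0
  refine hx ?_
  rw [Dat.modR, SB.rep_onFin fun v hv => G.freeK (Or.inr (C.mem_badSingle.mp hv).2), e]
  rfl

end FermatAgent.LT2.Spec

end
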